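import Fermat.Agent.Global.Semilocal.Trivial

/-!
A cohomologically trivial open subgroup of the semilocal units.
-/

set_option autoImplicit false

noncomputable section

namespace FLTAgent.Global

open FLTAgent.Semilocal

variable {L : Level} {D : NormalData L} {q : Nat.Primes}

/-- Series argument: approximate solutions of `φ y = x` give solutions. -/
lemma exists_filtered_preimage {F G : ℕ → AddSubgroup (Semi q)}
    (φ : Semi q → Semi q) (hadd : ∀ a b, φ (a + b) = φ a + φ b)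
    (P : AddSubgroup (Semi q))
    (hcomplete : ∀ y : ℕ → Semi q, (∀ i, y i ∈ G i) →
      ∃ z, ∀ n, z - ∑ i ∈ Finset.range n, y i ∈ G n)
    (hsep : ∀ a, (∀ n, a ∈ F n) → a = 0)
    (hφ : ∀ n, ∀ y ∈ G n, φ y ∈ F n)
    (hφP : ∀ y ∈ G 0, φ y ∈ P) (hG : Antitone G)
    (step : ∀ n, ∀ x ∈ F n, x ∈ P → ∃ y ∈ G n, x - φ y ∈ F (n + 1))
    {x : Semi q} (hx : x ∈ F 0) (hxP : x ∈ P) : ∃ y ∈ G 0, φ y = x := by
  let T : ℕ → Type := fun n => {z : Semi q // z ∈ F n ∧ z ∈ P}
  have hstep : ∀ n (z : T n), ∃ (y : Semi q) (z' : T (n + 1)), y ∈ G n ∧ z.1 = z'.1 + φ y := by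
    rintro n ⟨z, hz, hzP⟩
    obtain ⟨y, hy, hy'⟩ := step n z hz hzP
    exact ⟨y, ⟨z - φ y, hy', sub_mem hzP (hφP y (hG n.zero_le hy))⟩, hy, by simp⟩
  choose Y Z hY hZ using hstep
  let seq : ∀ n, T n := fun n => Nat.rec (motive := T) ⟨x, hx, hxP⟩ (fun i z => Z i z) n
  obtain ⟨y, hy⟩ := hcomplete (fun i => Y i (seq i)) fun i => hY i _
  have h0 : φ 0 = 0 := by
    have h := hadd 0 0
    rw [add_zero] at h
    exact add_right_cancel (b := φ 0) (by rw [zero_add]; exact h.symm)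
  have hsub : ∀ a b, φ (a - b) = φ a - φ b := fun a b => by
    have h := hadd (a - b) b
    rw [sub_add_cancel] at h
    rw [h]; abel
  have htel : ∀ n, x = (seq n).1 + φ (∑ i ∈ Finset.range n, Y i (seq i)) := by
    intro n
    induction n with
    | zero => simp [seq, h0]
    | succ n ih =>
      rw [Finset.sum_range_succ, hadd]
      conv_lhs => rw [ih, hZ n (seq n)]
      show (seq (n + 1)).1 + _ + _ = _
      abel
  refine ⟨y, by simpa using hy 0, (sub_eq_zero.mp (hsep _ fun n => ?_)).symm⟩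
  nth_rw 1 [htel n]
  rw [show ∀ a b : Semi q, a + φ b - φ y = a - φ (y - b) from fun a b => by rw [hsub]; abel]
  exact sub_mem (seq n).2.1 (hφ n _ (hy n))

/-- The norm from `L.grp` to `H` maps `nhd n₀` onto its `H`-fixed elements. -/
theorem nhd_norm_surjective {H : Subgroup GQ} (hH : L.grp ≤ H) {n₀ : ℕ}
    (hex : ∀ c : Coef L q, ‖c‖ ≤ qinv q ^ (n₀ + 1) → ∃ x : Semi q, IsCoef D x c)
    {x : Semi q} (hx : x ∈ nhd D q n₀) (hxH : x ∈ fixSub (A := Semi q) H) :
    ∃ y ∈ nhd D q n₀, normTo H L.grp y = x := by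
  have hfin := (L.lvl hH).fin
  have hadd : ∀ a b : Semi q, normTo H L.grp (a + b) = normTo H L.grp a + normTo H L.grp b :=
    fun a b => by
      simp only [normTo, smul_add]
      exact csum_add H L.grp hfin _ _
  have hmem : ∀ n, ∀ y ∈ nhd D q n, normTo H L.grp y ∈ nhd D q n := fun n y hy => by
    rw [normTo, csum]
    exact finsum_induction (fun z => z ∈ nhd D q n) (zero_mem _) (fun _ _ => add_mem)
      fun k => smul_mem_nhd hy _
  refine exists_filtered_preimage (F := fun i => nhd D q (n₀ + i)) (G := fun i => nhd D q (n₀ + i))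
    (normTo H L.grp) hadd (fixSub H) (nhd_complete D q hex)
    (completeFiltration_nhd D q hex H).separated (fun n => hmem _)
    (fun y hy g hg => smul_normTo hH (nhd_le_fixSub _ hy) hg)
    (completeFiltration_nhd D q hex H).antitone (fun n z hz hzP => ?_) hx hxH
  exact nhd_norm_step hH (fun c hc => hex c (hc.trans (qinv_pow_mono q (by omega)))) hz hzP

/-- Deep enough elements are `m`-th powers. -/
theorem nhd_divisible {n₀ : ℕ}
    (hex : ∀ c : Coef L q, ‖c‖ ≤ qinv q ^ (n₀ + 1) → ∃ x : Semi q, IsCoef D x c)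
    {m : ℕ} (hm : m ≠ 0) :
    ∃ n₁, n₀ ≤ n₁ ∧ ∀ x ∈ nhd D q n₁, ∃ y ∈ nhd D q n₀, m • y = x := by
  classical
  have hmq : (m : ℚ_[(q : ℕ)]) ≠ 0 := Nat.cast_ne_zero.mpr hm
  set a := padicValNat (q : ℕ) m with ha
  have hnm : ‖(m : ℚ_[(q : ℕ)])‖ = qinv q ^ a := by
    rw [Padic.norm_eq_zpow_neg_valuation hmq, Padic.valuation_natCast, ← ha, qinv, inv_pow,
      zpow_neg, zpow_natCast]
  set n₁ := n₀ + 2 * a + a with hn₁
  refine ⟨n₁, by omega, fun x hx => ?_⟩
  suffices h : ∃ y ∈ nhd D q (n₀ + 2 * a + 0), m • y = x by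
    obtain ⟨y, hy, hyx⟩ := h
    exact ⟨y, nhd_antitone (by omega) hy, hyx⟩
  refine exists_filtered_preimage (F := fun i => nhd D q (n₁ + i))
    (G := fun i => nhd D q (n₀ + 2 * a + i)) (fun y => m • y) (fun _ _ => nsmul_add _ _ m) ⊤
    (nhd_complete D q fun c hc => hex c (hc.trans (qinv_pow_mono q (by omega))))
    (fun z hz => nhd_separated (D := D) fun n => nhd_antitone (Nat.le_add_left n n₁) (hz n))
    (fun n y hy => ?_) (fun _ _ => AddSubgroup.mem_top _) (fun i j h => nhd_antitone (by omega))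
    (fun n z hz _ => ?_) hx (AddSubgroup.mem_top _)
  · -- multiplication by `m` gains at least `a` levels
    obtain ⟨c, hc, hcn⟩ := hy
    obtain ⟨d, hd, -, hdd⟩ := exists_isCoef_sum (D := D) (Finset.range m) (fun _ => y) (fun _ => c)
      (pow_pos (qinv_pos q) _).le (qinv_pow_lt_one q _).le (fun _ _ => hc) (fun _ _ => hcn)
    rw [Finset.sum_const, Finset.card_range] at hd
    rw [Finset.sum_const, Finset.card_range] at hdd
    refine ⟨d, hd, ?_⟩
    rw [← sub_add_cancel d (m • c)]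
    refine norm_coef_add_le' (hdd.trans ?_) ?_
    · rw [← pow_add]; exact qinv_pow_mono q (by omega)
    · refine (pi_norm_le_iff_of_nonneg (pow_pos (qinv_pos q) _).le).mpr fun σ => ?_
      rw [Pi.smul_apply, nsmul_eq_mul, norm_mul]
      rw [hnm]
      calc qinv q ^ a * ‖c σ‖ ≤ qinv q ^ a * qinv q ^ (n₀ + 2 * a + n + 1) := by
            gcongr
            · exact (pow_pos (qinv_pos q) _).le
            · exact (norm_le_pi_norm c σ).trans hcn
        _ ≤ qinv q ^ (n₁ + n + 1) := by rw [← pow_add]; exact qinv_pow_mono q (by omega)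
  · -- the approximate `m`-th root
    obtain ⟨c, hc, hcn⟩ := hz
    set e : Coef L q := (m : ℚ_[(q : ℕ)])⁻¹ • c with he
    have hen : ‖e‖ ≤ qinv q ^ (n₀ + 2 * a + n + 1) := by
      refine (pi_norm_le_iff_of_nonneg (pow_pos (qinv_pos q) _).le).mpr fun σ => ?_
      rw [he, Pi.smul_apply, norm_smul, norm_inv, hnm, inv_mul_le_iff₀ (pow_pos (qinv_pos q) _),
        ← pow_add]
      exact (norm_le_pi_norm c σ).trans (hcn.trans (qinv_pow_mono q (by omega)))
    obtain ⟨y, hy⟩ := hex e (hen.trans (qinv_pow_mono q (by omega)))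
    refine ⟨y, ⟨e, hy, hen⟩, ?_⟩
    obtain ⟨d, hd, hdn, hdd⟩ := exists_isCoef_sum (D := D) (Finset.range m) (fun _ => y) (fun _ => e)
      (pow_pos (qinv_pos q) _).le (qinv_pow_lt_one q _).le (fun _ _ => hy) (fun _ _ => hen)
    rw [Finset.sum_const, Finset.card_range] at hd
    rw [Finset.sum_const, Finset.card_range, show m • e = c by
      rw [he, ← Nat.cast_smul_eq_nsmul ℚ_[(q : ℕ)], smul_smul, mul_inv_cancel₀ hmq, one_smul]]
      at hdd
    obtain ⟨e', he', hen'⟩ := hd.sub hc (hdn.trans_lt (qinv_pow_lt_one q _))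
    refine ⟨e', he', hen'.trans ?_⟩
    rw [norm_sub_rev]
    refine hdd.trans ?_
    rw [← pow_add]
    exact qinv_pow_mono q (by omega)

variable (D q)

/-- Units form finitely many classes modulo a neighbourhood. -/
theorem finite_unit_quotient {n : ℕ} (hn : nhd D q n ≤ semiUnit q) :
    Finite (↥(semiUnit q ⊓ fixSub L.grp) ⧸
      (nhd D q n).addSubgroupOf (semiUnit q ⊓ fixSub (A := Semi q) L.grp)) := by
  classical
  obtain ⟨R, hR0, hR⟩ := D.exists_norm_coef_le q
  have hvalR : ∀ x ∈ semiUnit q ⊓ fixSub (A := Semi q) L.grp, ∀ c, IsCoef D x c → ‖c‖ ≤ R := by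
    intro x hx c hc
    refine (hR c 1 zero_le_one fun g => ?_).trans (mul_one R).le
    have h1 : (D.elem q c : GQ → Kq q) g = sval x g + -1 := by
      rw [show D.elem q c = toAlg x - 1 by rw [hc]; abel]
      simp [sub_eq_add_neg]
    rw [h1]
    exact (IsUltrametricDist.norm_add_le_max _ _).trans (by rw [hx.1 g, norm_neg, norm_one, max_self])
  obtain ⟨N, hN⟩ := exists_qinv_pow_lt q (inv_pos.mpr (by linarith : (0 : ℝ) < R + 1))
  set M := N + n + 1 + N with hM
  -- residues of the scaled coefficients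
  have hint : ∀ (c : Coef L q), ‖c‖ ≤ R → ∀ σ, ‖((q : ℕ) : ℚ_[(q : ℕ)]) ^ N * c σ‖ ≤ 1 := by
    intro c hc σ
    rw [norm_mul, norm_pow, Padic.norm_p]
    calc ((q : ℕ) : ℝ)⁻¹ ^ N * ‖c σ‖ ≤ qinv q ^ N * R := by
          gcongr
          · exact (pow_pos (qinv_pos q) _).le
          · exact le_rfl
          · exact (norm_le_pi_norm c σ).trans hc
      _ ≤ (R + 1)⁻¹ * (R + 1) := by gcongr; linarith
      _ = 1 := inv_mul_cancel₀ (by linarith)
  let res : ↥(semiUnit q ⊓ fixSub (A := Semi q) L.grp) → (L.Gal → ZMod ((q : ℕ) ^ M)) :=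
    fun x σ => PadicInt.toZModPow M ⟨_, hint _ (hvalR x.1 x.2 _
      (exists_isCoef (D := D) x.2.2).choose_spec) σ⟩
  haveI : NeZero ((q : ℕ) ^ M) := ⟨pow_ne_zero _ q.2.ne_zero⟩
  have hkey : ∀ x x' : ↥(semiUnit q ⊓ fixSub (A := Semi q) L.grp), res x = res x' →
      x'.1 - x.1 ∈ nhd D q n := by
    intro x x' h
    set c := (exists_isCoef (D := D) x.2.2).choose with hcdef
    set c' := (exists_isCoef (D := D) x'.2.2).choose with hcdef'
    have hc : IsCoef D x.1 c := (exists_isCoef (D := D) x.2.2).choose_spec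
    have hc' : IsCoef D x'.1 c' := (exists_isCoef (D := D) x'.2.2).choose_spec
    have hd : ‖c' - c‖ ≤ qinv q ^ (N + n + 1) := by
      refine (pi_norm_le_iff_of_nonneg (pow_pos (qinv_pos q) _).le).mpr fun σ => ?_
      have h1 := congrFun h σ
      simp only [res] at h1
      rw [← sub_eq_zero, ← map_sub, ← RingHom.mem_ker, PadicInt.ker_toZModPow,
        ← PadicInt.norm_le_pow_iff_mem_span_pow] at h1
      have h2 : ‖((q : ℕ) : ℚ_[(q : ℕ)]) ^ N * (c' σ - c σ)‖ ≤ qinv q ^ M := by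
        rw [show qinv q ^ M = ((q : ℕ) : ℝ) ^ (-(M : ℤ)) by rw [qinv, inv_pow, zpow_neg, zpow_natCast],
          mul_sub, norm_sub_rev]
        simpa [PadicInt.norm_def] using h1
      rw [norm_mul, norm_pow, Padic.norm_p, hM, pow_add (qinv q) (N + n + 1) N,
        mul_comm (qinv q ^ (N + n + 1))] at h2
      exact le_of_mul_le_mul_left h2 (pow_pos (qinv_pos q) _)
    obtain ⟨u, hu⟩ := D.exists_elem q (toAlg_mem_fixed (neg_mem x.2.2))
    have hun : ‖u‖ ≤ R := by
      refine (hR u 1 zero_le_one fun g => ?_).trans (mul_one R).le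
      rw [← hu]
      simp [x.2.1 g]
    have hcoef : IsCoef D (x'.1 - x.1) (D.mul (c' - c) u) := by
      rw [IsCoef, D.elem_mul, map_sub, ← hu, sub_eq_add_neg x'.1, toAlg_add, hc']
      have h1 : toAlg (x.1) * toAlg (-x.1) = 1 := by
        rw [← toAlg_add, add_neg_cancel, isCoef_zero (D := D), map_zero, add_zero]
      rw [hc] at h1
      linear_combination h1
    refine ⟨_, hcoef, (D.norm_mul_le _ _).trans ?_⟩
    calc ‖c' - c‖ * ‖u‖ ≤ qinv q ^ (N + n + 1) * R := by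
          gcongr
          exact (pow_pos (qinv_pos q) _).le
      _ = qinv q ^ (n + 1) * (qinv q ^ N * R) := by ring
      _ ≤ qinv q ^ (n + 1) * ((R + 1)⁻¹ * (R + 1)) := by
          gcongr
          · exact (pow_pos (qinv_pos q) _).le
          · linarith
      _ = qinv q ^ (n + 1) := by rw [inv_mul_cancel₀ (by linarith : R + 1 ≠ 0), mul_one]
  refine Finite.of_surjective (fun r : Set.range res => QuotientAddGroup.mk r.2.choose) ?_
  intro z
  induction z using QuotientAddGroup.induction_on with | _ x => ?_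
  refine ⟨⟨res x, x, rfl⟩, ?_⟩
  set r : Set.range res := ⟨res x, x, rfl⟩
  rw [QuotientAddGroup.eq, AddSubgroup.mem_addSubgroupOf]
  have := hkey r.2.choose x r.2.choose_spec
  simpa [neg_add_eq_sub] using this

/-- A cohomologically trivial open subgroup of the units. -/
theorem exists_unit_subgroup (L : Level) (q : Nat.Primes) (m : ℕ) (hm : m ≠ 0) :
    ∃ V : AddSubgroup (Semi q),
      V ≤ semiUnit q ⊓ fixSub L.grp ∧
      (∀ g : GQ, ∀ x ∈ V, g • x ∈ V) ∧
      Finite (↥(semiUnit q ⊓ fixSub L.grp) ⧸ V.addSubgroupOf (semiUnit q ⊓ fixSub L.grp)) ∧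
      (∀ x ∈ V, ∃ y ∈ semiUnit q ⊓ fixSub L.grp, m • y = x) ∧
      ∀ H : Subgroup GQ, L.grp ≤ H →
        (∀ x ∈ V, x ∈ fixSub (A := Semi q) H → ∃ y ∈ V, normTo H L.grp y = x) ∧
        (∀ f : GQ → Semi q, IsZ1 H L.grp f → (∀ g ∈ H, f g ∈ V) →
          ∃ a ∈ V, ∀ g ∈ H, f g = dd0 a g) ∧
        (∀ c : GQ → GQ → Semi q, IsZ2 H L.grp c → (∀ g ∈ H, ∀ h ∈ H, c g h ∈ V) →
          ∃ b : GQ → Semi q, IsLvl1 H L.grp b ∧ (∀ g ∈ H, b g ∈ V) ∧
            ∀ g ∈ H, ∀ h ∈ H, c g h = dd1 b g h) := by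
  obtain ⟨D⟩ := nonempty_normalData L
  obtain ⟨n₀, hn₀, hex⟩ := exists_nhd_le_semiUnit D q
  obtain ⟨n₁, hle, hdiv⟩ := nhd_divisible (D := D) hex hm
  have hn₁ : nhd D q n₁ ≤ semiUnit q := (nhd_antitone hle).trans hn₀
  have hex' : ∀ i (c : Coef L q), ‖c‖ ≤ qinv q ^ (n₁ + i + 1) → ∃ x : Semi q, IsCoef D x c :=
    fun i c hc => hex c (hc.trans (qinv_pow_mono q (by omega)))
  refine ⟨nhd D q n₁, le_inf hn₁ (nhd_le_fixSub n₁), fun g x hx => smul_mem_nhd hx g,
    finite_unit_quotient D q hn₁, fun x hx => ?_, fun H hH => ⟨fun x hx hxH => ?_, ?_, ?_⟩⟩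
  · obtain ⟨y, hy, hyx⟩ := hdiv x hx
    exact ⟨y, ⟨hn₀ hy, nhd_le_fixSub n₀ hy⟩, hyx⟩
  · exact nhd_norm_surjective hH (hex' 0) hx hxH
  · intro f hf hv
    exact exists_filtered_primitive₁ (completeFiltration_nhd D q (hex' 0) H) (L.lvl hH)
      (fun i f hf hv => nhd_h1_step hH (hex' i) f hf hv) hf hv
  · intro c hc hv
    exact exists_filtered_primitive₂ (completeFiltration_nhd D q (hex' 0) H) (L.lvl hH)
      (fun i c hc hv => nhd_h2_step hH (hex' i) c hc hv) hc hv

end FLTAgent.Global
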