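import Fermat.Agent.Global.Cochain

/-!
Degree two cohomology of a cyclic layer vanishes when the fixed elements are norms.
-/

set_option autoImplicit false

noncomputable section

namespace FLTAgent.Global

variable {Γ : Type*} [Group Γ] {A : Type*} [AddCommGroup A] [DistribMulAction Γ A]
variable {H N : Subgroup Γ}

/-- A 2-cocycle of a cyclic layer with values in `M` splits if its norm sum is a norm from `M`. -/
theorem isB2_of_cyclic_of_sum (hN : Lvl H N) (M : AddSubgroup A) (hMsmul : ∀ g ∈ H, ∀ a ∈ M, g • a ∈ M)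
    (hMfix : ∀ s ∈ N, ∀ a ∈ M, s • a = a) {σ : Γ} (hσ : σ ∈ H) {d : ℕ} (hd : 0 < d)
    (hσd : σ ^ d ∈ N) (hmin : ∀ i < d, ∀ j < d, (σ ^ i)⁻¹ * σ ^ j ∈ N → i = j)
    (hgen : ∀ g ∈ H, ∃ i : ℕ, i < d ∧ (σ ^ i)⁻¹ * g ∈ N)
    {c : Γ → Γ → A} (hc : IsZ2 H N c) (hcM : ∀ g ∈ H, ∀ h ∈ H, c g h ∈ M)
    (hsum : ∃ y ∈ M, ∑ i ∈ Finset.range d, σ ^ i • y = ∑ i ∈ Finset.range d, c (σ ^ i) σ) :
    ∃ b : Γ → A, IsLvl1 H N b ∧ (∀ g ∈ H, b g ∈ M) ∧ ∀ g ∈ H, ∀ h ∈ H, c g h = dd1 b g h := by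
  classical
  have hpow : ∀ i : ℕ, σ ^ i ∈ H := fun i => pow_mem hσ i
  have hlev : ∀ g ∈ H, ∀ h ∈ H, ∀ s ∈ N, c g (h * s) = c g h ∧ c (g * s) h = c g h := by
    intro g hg h hh s hs
    exact ⟨by simpa using hc.1 g hg h hh 1 N.one_mem s hs,
      by simpa using hc.1 g hg h hh s hs 1 N.one_mem⟩
  set n := ∑ i ∈ Finset.range d, c (σ ^ i) σ with hn
  obtain ⟨y, hyM, hy⟩ := hsum
  -- the primitive along `σ`
  let β : ℕ → A := fun i => c 1 1 + ∑ j ∈ Finset.range i, (σ ^ j • y - c (σ ^ j) σ)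
  have hβd : β d = β 0 := by simp [β, Finset.sum_sub_distrib, hy, hn]
  have hβM : ∀ i, β i ∈ M := fun i => add_mem (hcM 1 H.one_mem 1 H.one_mem)
    (sum_mem fun j _ => sub_mem (hMsmul _ (hpow j) y hyM) (hcM _ (hpow j) σ hσ))
  let b : Γ → A := fun g =>
    if h : ∃ i, i < d ∧ (σ ^ i)⁻¹ * g ∈ N then β h.choose else c 1 1
  have hb : ∀ i, i < d → ∀ s ∈ N, b (σ ^ i * s) = β i := by
    intro i hi s hs
    have hex : ∃ j, j < d ∧ (σ ^ j)⁻¹ * (σ ^ i * s) ∈ N := ⟨i, hi, by simpa using hs⟩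
    simp only [b, dif_pos hex]
    obtain ⟨hj, hjs⟩ := hex.choose_spec
    rw [hmin hex.choose hj i hi (by simpa [mul_assoc] using mul_mem hjs (inv_mem hs))]
  have hbg : ∀ g ∈ H, ∀ i, i < d → (σ ^ i)⁻¹ * g ∈ N → b g = β i := fun g _ i hi hs => by
    have := hb i hi _ hs
    rwa [mul_inv_cancel_left] at this
  have hblev : IsLvl1 H N b := fun g hg s hs => by
    obtain ⟨i, hi, hgs⟩ := hgen g hg
    rw [hbg g hg i hi hgs, hbg (g * s) (mul_mem hg (hN.le hs)) i hi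
      (by rw [← mul_assoc]; exact mul_mem hgs hs)]
  refine ⟨b, hblev, fun g hg => ?_, ?_⟩
  · obtain ⟨i, hi, hgs⟩ := hgen g hg
    rw [hbg g hg i hi hgs]; exact hβM i
  -- the difference is a cocycle that vanishes against `σ`
  have hb1 : b 1 = c 1 1 := by
    have := hb 0 hd 1 N.one_mem
    simpa [β] using this
  have hbσ : ∀ g ∈ H, b (g * σ) = g • y + b g - c g σ := by
    intro g hg
    obtain ⟨i, hi, hs⟩ := hgen g hg
    have e1 : g • y = σ ^ i • y := by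
      conv_lhs => rw [show g = σ ^ i * ((σ ^ i)⁻¹ * g) by group, mul_smul, hMfix _ hs y hyM]
    have e2 : c g σ = c (σ ^ i) σ := by
      conv_lhs => rw [show g = σ ^ i * ((σ ^ i)⁻¹ * g) by group]
      exact (hlev _ (hpow i) σ hσ _ hs).2
    have e4 : (σ ^ (i + 1))⁻¹ * (g * σ) ∈ N := by
      have := hN.conj σ hσ _ hs
      simpa [pow_succ, mul_assoc] using this
    have e5 : b (g * σ) = β (i + 1) := by
      rcases Nat.lt_or_ge (i + 1) d with h | h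
      · exact hbg _ (mul_mem hg hσ) _ h e4
      · have hid : i + 1 = d := by omega
        rw [hid, hβd]
        refine hbg _ (mul_mem hg hσ) 0 hd ?_
        rw [hid] at e4
        simpa using mul_mem hσd e4
    rw [e5, hbg g hg i hi hs, e1, e2]
    simp only [β, Finset.sum_range_succ]
    abel
  have hbσ1 : b σ = y := by
    have h := hbσ 1 H.one_mem
    rw [one_mul, one_smul, hb1, hc.left_one hσ, add_sub_cancel_right] at h
    exact h
  set E : Γ → Γ → A := fun g h => c g h - dd1 b g h with hE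
  have hE1 : ∀ g ∈ H, E g 1 = 0 := fun g hg => by
    simp only [hE, dd1, mul_one, hb1, hc.right_one hg]; abel
  have hEσ : ∀ g ∈ H, E g σ = 0 := fun g hg => by
    simp only [hE, dd1, hbσ1, hbσ g hg]; abel
  have hEc : ∀ g ∈ H, ∀ h ∈ H, ∀ j ∈ H,
      g • E h j - E (g * h) j + E g (h * j) - E g h = 0 := fun g hg h hh j hj => by
    have h1 := hc.2 g hg h hh j hj
    simp only [hE, dd1, smul_sub, smul_add, mul_smul, ← mul_assoc]
    rw [← h1]; abel
  have hEpow : ∀ i : ℕ, ∀ g ∈ H, E g (σ ^ i) = 0 := by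
    intro i
    induction i with
    | zero => intro g hg; simpa using hE1 g hg
    | succ i ih =>
      intro g hg
      have h1 := hEc g hg _ (hpow i) σ hσ
      rw [hEσ _ (hpow i), hEσ _ (mul_mem hg (hpow i)), smul_zero, ih g hg, ← pow_succ] at h1
      simpa using h1
  intro g hg h hh
  obtain ⟨i, hi, hs⟩ := hgen h hh
  have h1 := hEpow i g hg
  rw [← sub_eq_zero]
  have hlevE : E g h = E g (σ ^ i) := by
    obtain ⟨u, hu⟩ : ∃ u, (σ ^ i)⁻¹ * h = u := ⟨_, rfl⟩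
    rw [hu] at hs
    obtain rfl : h = σ ^ i * u := by rw [← hu]; group
    simp only [hE, dd1, (hlev g hg _ (hpow i) _ hs).1, hblev _ (hpow i) _ hs]
    rw [← mul_assoc, hblev _ (mul_mem hg (hpow i)) _ hs]
  rw [show c g h - dd1 b g h = E g h from rfl, hlevE, h1]

/-- A 2-cocycle of a cyclic layer with values in `M` splits if `M^H` consists of norms of `M`. -/
theorem isB2_of_cyclic (hN : Lvl H N) (M : AddSubgroup A) (hMsmul : ∀ g ∈ H, ∀ a ∈ M, g • a ∈ M)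
    (hMfix : ∀ s ∈ N, ∀ a ∈ M, s • a = a) {σ : Γ} (hσ : σ ∈ H) {d : ℕ} (hd : 0 < d)
    (hσd : σ ^ d ∈ N) (hmin : ∀ i < d, ∀ j < d, (σ ^ i)⁻¹ * σ ^ j ∈ N → i = j)
    (hgen : ∀ g ∈ H, ∃ i : ℕ, i < d ∧ (σ ^ i)⁻¹ * g ∈ N)
    (hnorm : ∀ n ∈ M, (∀ g ∈ H, g • n = n) → ∃ y ∈ M, ∑ i ∈ Finset.range d, σ ^ i • y = n)
    {c : Γ → Γ → A} (hc : IsZ2 H N c) (hcM : ∀ g ∈ H, ∀ h ∈ H, c g h ∈ M) :
    ∃ b : Γ → A, IsLvl1 H N b ∧ (∀ g ∈ H, b g ∈ M) ∧ ∀ g ∈ H, ∀ h ∈ H, c g h = dd1 b g h := by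
  classical
  have hpow : ∀ i : ℕ, σ ^ i ∈ H := fun i => pow_mem hσ i
  have hlev : ∀ g ∈ H, ∀ h ∈ H, ∀ s ∈ N, c g (h * s) = c g h ∧ c (g * s) h = c g h := by
    intro g hg h hh s hs
    exact ⟨by simpa using hc.1 g hg h hh 1 N.one_mem s hs,
      by simpa using hc.1 g hg h hh s hs 1 N.one_mem⟩
  -- the obstruction
  set n := ∑ i ∈ Finset.range d, c (σ ^ i) σ with hn
  have hnM : n ∈ M := sum_mem fun i _ => hcM _ (hpow i) σ hσ
  have hnσ : σ • n = n := by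
    have h1 : ∀ i ∈ Finset.range d, σ • c (σ ^ i) σ =
        c (σ ^ (i + 1)) σ - (c σ (σ ^ (i + 1)) - c σ (σ ^ i)) := by
      intro i _
      have h2 := hc.2 σ hσ _ (hpow i) σ hσ
      rw [← pow_succ' σ i, ← pow_succ σ i] at h2
      rw [← sub_eq_zero]
      calc σ • c (σ ^ i) σ - (c (σ ^ (i + 1)) σ - (c σ (σ ^ (i + 1)) - c σ (σ ^ i)))
          = σ • c (σ ^ i) σ - c (σ ^ (i + 1)) σ + c σ (σ ^ (i + 1)) - c σ (σ ^ i) := by abel
        _ = 0 := h2
    rw [hn, Finset.smul_sum, Finset.sum_congr rfl h1, Finset.sum_sub_distrib,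
      Finset.sum_range_sub (fun i => c σ (σ ^ i))]
    have e1 : c σ (σ ^ d) = c σ (σ ^ 0) := by
      have := (hlev σ hσ 1 H.one_mem _ hσd).1
      simpa using this
    have e2 : c (σ ^ d) σ = c (σ ^ 0) σ := by
      have := (hlev 1 H.one_mem σ hσ _ hσd).2
      simpa using this
    rw [e1, sub_self, sub_zero]
    have h3 := Finset.sum_range_succ' (fun i => c (σ ^ i) σ) d
    rw [Finset.sum_range_succ, e2] at h3
    exact (add_right_cancel h3).symm
  have hnH : ∀ g ∈ H, g • n = n := by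
    intro g hg
    obtain ⟨i, -, hs⟩ := hgen g hg
    have hiter : ∀ i : ℕ, σ ^ i • n = n := fun i => by
      induction i with
      | zero => simp
      | succ i ih => rw [pow_succ, mul_smul, hnσ, ih]
    rw [show g = σ ^ i * ((σ ^ i)⁻¹ * g) by group, mul_smul, hMfix _ hs n hnM, hiter]
  exact isB2_of_cyclic_of_sum hN M hMsmul hMfix hσ hd hσd hmin hgen hc hcM (hnorm n hnM hnH)

end FLTAgent.Global
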