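import Fermat.Agent.Global.Semilocal.Decomposition
import Fermat.Agent.Global.Semilocal.Cyclic

/-!
At an unramified prime the semilocal units of a level are cohomologically trivial in degree two,
and norms of units are surjective.
-/

set_option autoImplicit false

noncomputable section

namespace FLTAgent.Global

variable {L : Level} {q : Nat.Primes} {H : Subgroup GQ}

lemma IsZ2.apply_mem_fixSub {Γ A : Type*} [Group Γ] [AddCommGroup A] [DistribMulAction Γ A]
    {H N : Subgroup Γ} {c : Γ → Γ → A} (hc : IsZ2 H N c) (hN : Lvl H N) {g h : Γ} (hg : g ∈ H)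
    (hh : h ∈ H) : c g h ∈ fixSub (A := A) N := fun _ hs => hc.smul_eq hN hg hh hs

/-- A primitive of a 2-cocycle of level `N` takes values fixed by `N`. -/
lemma IsZ2.primitive_smul_eq {Γ A : Type*} [Group Γ] [AddCommGroup A] [DistribMulAction Γ A]
    {H N : Subgroup Γ} {c : Γ → Γ → A} (hc : IsZ2 H N c) (hN : Lvl H N) {b : Γ → A}
    (hb : IsLvl1 H N b) (hcb : ∀ g ∈ H, ∀ h ∈ H, c g h = dd1 b g h) {h s : Γ} (hh : h ∈ H)
    (hs : s ∈ N) : s • b h = b h := by
  have h1 := hcb s (hN.le hs) h hh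
  have h2 := hcb 1 H.one_mem 1 H.one_mem
  have e : c s h = c 1 1 := by
    rw [← hc.left_one hh]
    simpa using hc.1 1 H.one_mem h hh s hs 1 N.one_mem
  have e2 : b (s * h) = b h := by
    rw [show s * h = h * (h⁻¹ * s * h) by group]
    exact hb h hh _ (hN.conj h hh s hs)
  have e3 : b s = b 1 := by simpa using hb 1 H.one_mem s hs
  rw [e, h2] at h1
  simp only [dd1, e2, e3, one_smul, mul_one, sub_self, zero_add] at h1
  exact sub_eq_zero.mp (add_right_cancel (h1.symm.trans (zero_add _).symm))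

lemma csum_eq_sum_range {Γ A : Type*} [Group Γ] [AddCommMonoid A] {P N : Subgroup Γ}
    (hN : Lvl P N) {σ : Γ} (hσ : σ ∈ P) {d : ℕ}
    (hmin : ∀ i < d, ∀ j < d, (σ ^ i)⁻¹ * σ ^ j ∈ N → i = j)
    (hgen : ∀ g ∈ P, ∃ i : ℕ, i < d ∧ (σ ^ i)⁻¹ * g ∈ N) {F : Γ → A}
    (hF : ∀ g ∈ P, ∀ s ∈ N, F (g * s) = F g) :
    csum P N F = ∑ i ∈ Finset.range d, F (σ ^ i) := by
  classical
  haveI := hN.fin
  haveI := Fintype.ofFinite (↥P ⧸ N.subgroupOf P)
  rw [csum_eq_sum]
  symm
  refine Finset.sum_bij (fun i _ => (QuotientGroup.mk (⟨σ ^ i, pow_mem hσ i⟩ : P) :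
    ↥P ⧸ N.subgroupOf P)) (fun i _ => Finset.mem_univ _) ?_ ?_ ?_
  · intro i hi j hj hij
    rw [QuotientGroup.eq, Subgroup.mem_subgroupOf] at hij
    exact hmin i (Finset.mem_range.1 hi) j (Finset.mem_range.1 hj) (by simpa using hij)
  · intro c _
    obtain ⟨i, hi, hs⟩ := hgen (rep P N c) (rep_mem P N c)
    refine ⟨i, Finset.mem_range.2 hi, ?_⟩
    conv_rhs => rw [← QuotientGroup.out_eq' c]
    rw [QuotientGroup.eq, Subgroup.mem_subgroupOf]
    simpa [rep] using hs
  · intro i _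
    have h1 := hN.mk_eq (a := (⟨σ ^ i, pow_mem hσ i⟩ : P)) (QuotientGroup.out_eq' _).symm
    have h2 := hF _ (pow_mem hσ i) _ h1
    rw [mul_inv_cancel_left] at h2
    exact h2.symm

/-- Norms of units are surjective when decomposition groups act faithfully on residues. -/
theorem exists_normTo_semiUnit_of_faithful (L : Level) (q : Nat.Primes) {H : Subgroup GQ}
    (hH : L.grp ≤ H) (hG : ∀ g, ResFaithfulOn L q (placeHom L q H g).range) {x : Semi q}
    (hx : x ∈ semiUnit q ⊓ fixSub H) :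
    ∃ y ∈ semiUnit q ⊓ fixSub L.grp, normTo H L.grp y = x := by
  obtain ⟨hxu, hxfix⟩ := hx
  have hN := L.lvl hH
  haveI := finite_orbits L q hH
  haveI := Fintype.ofFinite (DoubleCoset.Quotient (dec q : Set GQ) (H : Set GQ))
  have hxN : x ∈ fixSub (A := Semi q) L.grp := fun s hs => hxfix s (hH hs)
  have hloc : ∀ g : GQ, ∃ y ∈ placeUnit L q g,
      normTo (placeSub L q H g) L.grp y = atPlace L q g x := by
    intro g
    obtain ⟨σ, hσ, d, -, -, hmin, hgen, hnorm⟩ := exists_cyclic_placeSub_of_faithful hH g (hG g)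
    obtain ⟨y, hy, hyn⟩ := hnorm (atPlace L q g x)
      ⟨⟨atPlace_mem_semiUnit hxu, atPlace_mem_fixSub hxN⟩, atPlace_idem g x⟩
      (fun h hh => by rw [← atPlace_smul_of_place hh.2, hxfix h hh.1])
    refine ⟨y, hy, ?_⟩
    rw [normTo, csum_eq_sum_range (hN.sub_left (placeSub_le L q H g) (grp_le_placeSub L q hH g))
      hσ hmin hgen (fun k _ s hs => by rw [mul_smul, hy.1.2 s hs]), hyn]
  choose y hy hyn using hloc
  refine ⟨∑ o : DoubleCoset.Quotient (dec q : Set GQ) (H : Set GQ), y o.out,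
    sum_mem fun o _ => (hy o.out).1, ?_⟩
  rw [normTo, csum_congr H L.grp (G := fun t =>
    ∑ o : DoubleCoset.Quotient (dec q : Set GQ) (H : Set GQ), t • y o.out)
    fun t _ => Finset.smul_sum]
  haveI := hN.fin
  haveI := Fintype.ofFinite (↥H ⧸ L.grp.subgroupOf H)
  rw [csum_eq_sum, Finset.sum_comm]
  conv_rhs => rw [← sum_projAt_atPlace (L := L) hH x]
  refine Finset.sum_congr rfl fun o _ => ?_
  rw [← csum_eq_sum H L.grp (fun t => t • y o.out),
    ← csum_tower hN (placeSub_le L q H o.out) (grp_le_placeSub L q hH o.out)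
    (fun k _ s hs => by rw [mul_smul, (hy o.out).1.2 s hs])]
  refine csum_congr _ _ fun t ht => ?_
  rw [projAt, hxfix _ (inv_mem ht), ← hyn o.out, normTo,
    smul_csum (hN.sub_left (placeSub_le L q H o.out) (grp_le_placeSub L q hH o.out))]
  simp only [mul_smul]

theorem exists_normTo_semiUnit (L : Level) (q : Nat.Primes) (hq : L.UnrAt q) {H : Subgroup GQ}
    (hH : L.grp ≤ H) {x : Semi q} (hx : x ∈ semiUnit q ⊓ fixSub H) :
    ∃ y ∈ semiUnit q ⊓ fixSub L.grp, normTo H L.grp y = x :=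
  exists_normTo_semiUnit_of_faithful L q hH (fun _ => (resFaithful_of_unrAt hq).on _) hx

theorem isB2_semiUnit (L : Level) (q : Nat.Primes) (hq : L.UnrAt q) {H : Subgroup GQ}
    (hH : L.grp ≤ H) {c : GQ → GQ → Semi q} (hc : IsZ2 H L.grp c)
    (hu : ∀ g ∈ H, ∀ h ∈ H, c g h ∈ semiUnit q) :
    ∃ b : GQ → Semi q, IsLvl1 H L.grp b ∧ (∀ g ∈ H, b g ∈ semiUnit q) ∧
      ∀ g ∈ H, ∀ h ∈ H, c g h = dd1 b g h := by
  classical
  have hN := L.lvl hH
  haveI := finite_orbits L q hH
  haveI := Fintype.ofFinite (DoubleCoset.Quotient (dec q : Set GQ) (H : Set GQ))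
  have hloc : ∀ g : GQ, IsB2 H L.grp
      (fun a b => csum H (placeSub L q H g) (fun t => projAt (atPlace L q g) t (c a b))) := by
    intro g
    set P := placeSub L q H g with hP
    have hPH : P ≤ H := placeSub_le L q H g
    have hNP : L.grp ≤ P := grp_le_placeSub L q hH g
    obtain ⟨σ, hσ, d, hd, hσd, hmin, hgen, hnorm⟩ := exists_cyclic_placeSub hq hH g
    have hc' : IsZ2 P L.grp (fun r s => atPlace L q g (c r s)) :=
      ⟨fun r hr s hs u hu' v hv => by simp only [hc.1 r (hPH hr) s (hPH hs) u hu' v hv],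
        fun r hr s hs j hj => by
          rw [← atPlace_smul_of_place hr.2, ← map_sub, ← map_add, ← map_sub,
            hc.2 r (hPH hr) s (hPH hs) j (hPH hj), map_zero]⟩
    obtain ⟨b, hb, -, hcb⟩ := isB2_of_cyclic (hN.sub_left hPH hNP) (placeUnit L q g)
      (fun r hr a ha => smul_mem_placeUnit hH hr ha) (fun s hs a ha => ha.1.2 s hs)
      hσ hd hσd hmin hgen hnorm hc' fun r hr s hs =>
        ⟨⟨atPlace_mem_semiUnit (hu r (hPH hr) s (hPH hs)),
          atPlace_mem_fixSub (hc.apply_mem_fixSub hN (hPH hr) (hPH hs))⟩, atPlace_idem g _⟩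
    exact isB2_projSum hN hPH hNP (hN.fin_quot hPH hNP)
      (fun r hr a => atPlace_smul_of_place hr.2 a) hc hb hcb
  choose β hβ hβc using hloc
  set b₀ : GQ → Semi q :=
    fun k => ∑ o : DoubleCoset.Quotient (dec q : Set GQ) (H : Set GQ), β o.out k with hb₀
  have hb₀lev : IsLvl1 H L.grp b₀ := fun k hk s hs =>
    Finset.sum_congr rfl fun o _ => hβ o.out k hk s hs
  have hcb₀ : ∀ g ∈ H, ∀ h ∈ H, c g h = dd1 b₀ g h := by
    intro g hg h hh
    conv_lhs => rw [← sum_projAt_atPlace (L := L) hH (c g h)]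
    rw [Finset.sum_congr rfl fun o _ => hβc o.out g hg h hh]
    simp only [dd1, hb₀, Finset.sum_add_distrib, Finset.sum_sub_distrib, Finset.smul_sum]
  have hex : ∀ k, ∃ u : Semi q, k ∈ H → IsQPart (b₀ k) u := fun k => by
    by_cases hk : k ∈ H
    · obtain ⟨u, -, hu'⟩ := exists_isQPart hq (L := L) (x := b₀ k)
        (fun s hs => hc.primitive_smul_eq hN hb₀lev hcb₀ hk hs)
      exact ⟨u, fun _ => hu'⟩
    · exact ⟨0, fun h => absurd h hk⟩
  choose u hu₀ using hex
  refine ⟨b₀ - u, hb₀lev.sub fun k hk s hs => ?_, fun k hk => (hu₀ k hk).sub_mem,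
    fun g hg h hh => ?_⟩
  · have h1 := hu₀ (k * s) (mul_mem hk (hH hs))
    rw [hb₀lev k hk s hs] at h1
    exact h1.unique (hu₀ k hk)
  · have h1 : IsQPart (c g h) (dd1 u g h) := by
      rw [hcb₀ g hg h hh]
      exact (((hu₀ h hh).smul g).sub (hu₀ _ (mul_mem hg hh))).add (hu₀ g hg)
    rw [dd1_sub, h1.unique (isQPart_of_mem_semiUnit (hu g hg h hh)), sub_zero]
    exact hcb₀ g hg h hh

end FLTAgent.Global
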