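import Fermat.Agent.Global.Adele

/-!
Simultaneous approximation of `q`-adic numbers by rational numbers.
-/

set_option autoImplicit false

noncomputable section

namespace FLTAgent.Global

lemma norm_prime_eq_one {q r : Nat.Primes} (h : r ≠ q) :
    ‖((r : ℕ) : ℚ_[(q : ℕ)])‖ = 1 :=
  Padic.norm_natCast_eq_one_iff.2
    ((Nat.coprime_primes q.2 r.2).2 fun e => h (Subtype.ext e.symm))

theorem exists_rat_approx (T : Finset Nat.Primes) (c : ∀ q : Nat.Primes, ℚ_[(q : ℕ)])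
    (ε : Nat.Primes → ℝ) (hε : ∀ q ∈ T, 0 < ε q) :
    ∃ r : ℚ, ∀ q ∈ T, ‖(r : ℚ_[(q : ℕ)]) - c q‖ ≤ ε q := by
  classical
  have hs : ∀ q : Nat.Primes, ∃ r : ℚ, q ∈ T → ‖c q - (r : ℚ_[(q : ℕ)])‖ < ε q := fun q => by
    by_cases hq : q ∈ T
    · obtain ⟨r, hr⟩ := Padic.rat_dense (p := (q : ℕ)) (c q) (hε q hq)
      exact ⟨r, fun _ => hr⟩
    · exact ⟨0, fun h => absurd h hq⟩
  choose s hs using hs
  have hK : ∀ᶠ K in Filter.atTop, ∀ q ∈ T, ∀ r ∈ T,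
      (((q : ℕ) : ℝ)⁻¹) ^ K * ‖(s r : ℚ_[(q : ℕ)])‖ ≤ ε q := by
    simp only [Filter.eventually_all_finset]
    intro q hq r _
    have h := (tendsto_pow_atTop_nhds_zero_of_lt_one (inv_nonneg.2 (Nat.cast_nonneg (q : ℕ)))
      (inv_lt_one_of_one_lt₀ (by exact_mod_cast q.2.one_lt : (1 : ℝ) < ((q : ℕ) : ℝ)))).mul_const
      ‖(s r : ℚ_[(q : ℕ)])‖
    rw [zero_mul] at h
    exact h.eventually (Iic_mem_nhds (hε q hq))
  obtain ⟨K, hK, hK1⟩ := (hK.and (Filter.eventually_ge_atTop 1)).exists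
  let A : Nat.Primes → ℕ := fun q => ∏ r ∈ T.erase q, (r : ℕ) ^ K
  let w : Nat.Primes → ℚ := fun q => (A q : ℚ) / ((A q : ℚ) + ((q : ℕ) : ℚ) ^ K)
  refine ⟨∑ r ∈ T, s r * w r, fun q hq => ?_⟩
  have hqK : ‖((q : ℕ) : ℚ_[(q : ℕ)]) ^ K‖ = (((q : ℕ) : ℝ)⁻¹) ^ K := by
    rw [norm_pow, Padic.norm_p]
  have hlt : (((q : ℕ) : ℝ)⁻¹) ^ K < 1 :=
    pow_lt_one₀ (inv_nonneg.2 (Nat.cast_nonneg _))
      (inv_lt_one_of_one_lt₀ (by exact_mod_cast q.2.one_lt)) (by omega)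
  have hA1 : ‖(A q : ℚ_[(q : ℕ)])‖ = 1 := by
    simp only [A, Nat.cast_prod, Nat.cast_pow, norm_prod, norm_pow]
    exact Finset.prod_eq_one fun r hr => by rw [norm_prime_eq_one (Finset.ne_of_mem_erase hr), one_pow]
  have hw1 : ‖(w q : ℚ_[(q : ℕ)]) - 1‖ ≤ (((q : ℕ) : ℝ)⁻¹) ^ K := by
    have hd : ‖(A q : ℚ_[(q : ℕ)]) + ((q : ℕ) : ℚ_[(q : ℕ)]) ^ K‖ = 1 := by
      rw [IsUltrametricDist.norm_add_eq_max_of_norm_ne_norm (by rw [hA1, hqK]; exact hlt.ne'),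
        hA1, hqK, max_eq_left hlt.le]
    simp only [w, Rat.cast_div, Rat.cast_add, Rat.cast_natCast, Rat.cast_pow]
    rw [div_sub_one (fun h => by simp [h] at hd), norm_div, hd, div_one, sub_add_cancel_left,
      norm_neg, hqK]
  have hw0 : ∀ r ∈ T, r ≠ q → ‖(w r : ℚ_[(q : ℕ)])‖ ≤ (((q : ℕ) : ℝ)⁻¹) ^ K := by
    intro r _ hr
    have hA0 : ‖(A r : ℚ_[(q : ℕ)])‖ ≤ (((q : ℕ) : ℝ)⁻¹) ^ K := by
      simp only [A, Nat.cast_prod, Nat.cast_pow, norm_prod, norm_pow]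
      rw [← Finset.mul_prod_erase _ _ (Finset.mem_erase.2 ⟨hr.symm, hq⟩), Padic.norm_p]
      refine (mul_le_of_le_one_right (by positivity) (Finset.prod_le_one (fun _ _ => by positivity)
        fun i hi => ?_))
      rw [norm_prime_eq_one (Finset.ne_of_mem_erase hi), one_pow]
    have hr1 : ‖((r : ℕ) : ℚ_[(q : ℕ)]) ^ K‖ = 1 := by
      rw [norm_pow, norm_prime_eq_one hr, one_pow]
    have hd : ‖(A r : ℚ_[(q : ℕ)]) + ((r : ℕ) : ℚ_[(q : ℕ)]) ^ K‖ = 1 := by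
      rw [IsUltrametricDist.norm_add_eq_max_of_norm_ne_norm
        (by rw [hr1]; exact (hA0.trans_lt hlt).ne), hr1, max_eq_right (hA0.trans_lt hlt).le]
    simp only [w, Rat.cast_div, Rat.cast_add, Rat.cast_natCast, Rat.cast_pow]
    rw [norm_div, hd, div_one]
    exact hA0
  rw [Rat.cast_sum, ← Finset.add_sum_erase _ _ hq, add_sub_right_comm]
  refine (IsUltrametricDist.norm_add_le_max _ _).trans (max_le ?_ ?_)
  · rw [Rat.cast_mul,
      show (s q : ℚ_[(q : ℕ)]) * (w q : ℚ_[(q : ℕ)]) - c q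
        = ((s q : ℚ_[(q : ℕ)]) - c q) + (s q : ℚ_[(q : ℕ)]) * ((w q : ℚ_[(q : ℕ)]) - 1) by ring]
    refine (IsUltrametricDist.norm_add_le_max _ _).trans (max_le ?_ ?_)
    · rw [norm_sub_rev]; exact (hs q hq).le
    · rw [norm_mul, mul_comm]
      exact (mul_le_mul_of_nonneg_right hw1 (norm_nonneg _)).trans (hK q hq q hq)
  · refine IsUltrametricDist.norm_sum_le_of_forall_le_of_nonneg (hε q hq).le fun r hr => ?_
    rw [Rat.cast_mul, norm_mul, mul_comm]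
    exact (mul_le_mul_of_nonneg_right (hw0 r (Finset.mem_of_mem_erase hr)
      (Finset.ne_of_mem_erase hr)) (norm_nonneg _)).trans (hK q hq r (Finset.mem_of_mem_erase hr))

end FLTAgent.Global
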