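import Fermat.Agent.Global.Semilocal.UnitSubgroup
import Fermat.Agent.Global.Semilocal.RatApprox

/-!
Weak approximation of ideles of a level by principal ideles, up to `m`-th powers of units.
-/

set_option autoImplicit false

noncomputable section

namespace FLTAgent.Global

open FLTAgent.Semilocal

variable {L : Level} (D : NormalData L) (q : Nat.Primes)

/-- Deep neighbourhoods have no `m`-torsion. -/
theorem nhd_torsionFree {m : ℕ} (hm : m ≠ 0) :
    ∃ n, ∀ z ∈ nhd D q n, m • z = 0 → z = 0 := by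
  have hmq : (m : ℚ_[(q : ℕ)]) ≠ 0 := Nat.cast_ne_zero.mpr hm
  obtain ⟨n, hn⟩ := exists_qinv_pow_lt q (norm_pos_iff.mpr hmq)
  refine ⟨n, fun z ⟨c, hc, hcn⟩ h0 => ?_⟩
  have hc1 : ‖c‖ ≤ 1 := hcn.trans (qinv_pow_lt_one q n).le
  obtain ⟨d, hd, -, hdd⟩ := exists_isCoef_sum (D := D) (Finset.range m) (fun _ => z) (fun _ => c)
    (norm_nonneg c) hc1 (fun _ _ => hc) (fun _ _ => le_rfl)
  rw [Finset.sum_const, Finset.card_range, h0] at hd
  rw [Finset.sum_const, Finset.card_range, hd.ext isCoef_zero, zero_sub, norm_neg,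
    ← Nat.cast_smul_eq_nsmul ℚ_[(q : ℕ)], norm_smul] at hdd
  rcases eq_or_ne c 0 with rfl | hne
  · exact toAlg_injective (hc.trans (isCoef_zero (D := D)).symm)
  · have h1 := le_of_mul_le_mul_right hdd (norm_pos_iff.mpr hne)
    exact absurd (h1.trans (hcn.trans (qinv_pow_mono q n.le_succ))) (not_le.mpr hn)

/-- Nearby coefficients give elements differing by `m`-th powers of units. -/
theorem exists_approx_bound {H : Subgroup GQ} (hH : L.grp ≤ H) {m : ℕ} (hm : m ≠ 0)
    {x : Semi q} (hx : x ∈ fixSub (A := Semi q) H) {c : Coef L q} (hc : toAlg x = D.elem q c) :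
    ∃ ε : ℝ, 0 < ε ∧ ∀ d : Coef L q, ‖d - c‖ ≤ ε →
      (∀ g, (D.elem q d : GQ → Kq q) g ≠ 0) ∧
      ∀ z : Semi q, z ∈ fixSub (A := Semi q) H → toAlg z = D.elem q d →
        ∃ y ∈ semiUnit q ⊓ fixSub H, x - z = m • y := by
  obtain ⟨n₀, hn₀, hex⟩ := exists_nhd_le_semiUnit D q
  obtain ⟨nt, hnt⟩ := nhd_torsionFree D q hm
  have hex' : ∀ e : Coef L q, ‖e‖ ≤ qinv q ^ (max n₀ nt + 1) → ∃ w : Semi q, IsCoef D w e :=
    fun e he => hex e (he.trans (qinv_pow_mono q (by omega)))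
  obtain ⟨n₁, hle, hdiv⟩ := nhd_divisible (D := D) hex' hm
  have hxN : x ∈ fixSub (A := Semi q) L.grp := fun s hs => hx s (hH hs)
  obtain ⟨u, hu⟩ := D.exists_elem q (toAlg_mem_fixed (AddSubgroup.neg_mem _ hxN))
  have hu0 : 0 < ‖u‖ + 1 := by positivity
  refine ⟨qinv q ^ (n₁ + 1) / (‖u‖ + 1), div_pos (pow_pos (qinv_pos q) _) hu0, fun d hd => ?_⟩
  set e : Coef L q := D.mul (d - c) u with he
  have hen : ‖e‖ ≤ qinv q ^ (n₁ + 1) := by
    refine (D.norm_mul_le _ _).trans ?_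
    calc ‖d - c‖ * ‖u‖ ≤ qinv q ^ (n₁ + 1) / (‖u‖ + 1) * (‖u‖ + 1) :=
          mul_le_mul hd (by linarith) (norm_nonneg _) (by
            exact (div_pos (pow_pos (qinv_pos q) _) hu0).le)
      _ = _ := div_mul_cancel₀ _ hu0.ne'
  have key : D.elem q d * toAlg (-x) = 1 + D.elem q e := by
    have h1 : toAlg x * toAlg (-x) = 1 := by
      rw [← toAlg_add, add_neg_cancel, isCoef_zero (D := D), map_zero, add_zero]
    rw [he, D.elem_mul, map_sub, ← hu, ← hc]
    linear_combination h1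
  obtain ⟨w, hw⟩ := hex' e (hen.trans (qinv_pow_mono q (by omega)))
  refine ⟨fun g h0 => sval_ne_zero w g ?_, fun z hz hzd => ?_⟩
  · rw [← toAlg_apply, hw, ← key]
    simp [h0]
  have hcoef : IsCoef D (z - x) e := by rw [IsCoef, sub_eq_add_neg, toAlg_add, hzd, key]
  obtain ⟨y, hy, hyx⟩ := hdiv (z - x) ⟨e, hcoef, hen⟩
  refine ⟨-y, ⟨AddSubgroup.neg_mem _ (hn₀ (nhd_antitone (le_max_left _ _) hy)),
    AddSubgroup.neg_mem _ fun h hh => sub_eq_zero.mp (hnt _ ?_ ?_)⟩, ?_⟩
  · exact sub_mem (nhd_antitone (le_max_right _ _) (smul_mem_nhd hy h))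
      (nhd_antitone (le_max_right _ _) hy)
  · rw [nsmul_sub, ← smul_comm, hyx, smul_sub, hz h hh, hx h hh, sub_self]
  · rw [neg_nsmul, hyx, neg_sub]

theorem exists_principal_approx (L : Level) {H : Subgroup GQ} (hH : L.grp ≤ H) (m : ℕ) (hm : m ≠ 0)
    (T : Finset Nat.Primes) {x : Idele} (hx : x ∈ fixSub (A := Idele) H) :
    ∃ a ∈ fixSub (A := QMul) H, ∀ q ∈ T,
      ∃ y ∈ semiUnit q ⊓ fixSub H, comp q (x - principal a) = m • y := by
  classical
  rcases T.eq_empty_or_nonempty with rfl | ⟨q₀, hq₀⟩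
  · exact ⟨0, AddSubgroup.zero_mem _, fun q hq => absurd hq (Finset.notMem_empty q)⟩
  obtain ⟨D⟩ := nonempty_normalData L
  have hxq : ∀ q, comp q x ∈ fixSub (A := Semi q) H := fun q h hh => by
    rw [← comp_smul, hx h hh]
  have hc : ∀ q, ∃ c : Coef L q, toAlg (comp q x) = D.elem q c := fun q =>
    D.exists_elem q (toAlg_mem_fixed fun s hs => hxq q s (hH hs))
  choose c hc using hc
  have hcH : ∀ q σ, c q (rightRep L H σ) = c q σ := by
    intro q σ
    have h1 : coefAct (rightLift L H σ) (c q) = c q := by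
      refine D.elem_injective q ?_
      rw [← D.smul_elem, ← hc q, ← toAlg_smul, hxq q _ (rightLift_mem L H σ)]
    have h2 := congrFun h1 σ
    rw [coefAct, res_rightLift] at h2
    simpa using h2
  choose ε hε hb using fun q => exists_approx_bound D q hH hm (hxq q) (hc q)
  choose r₀ hr₀ using fun σ => exists_rat_approx T (fun q => c q σ) ε fun q _ => hε q
  let r : L.Gal → ℚ := fun σ => r₀ (rightRep L H σ)
  have hr : ∀ g ∈ H, ∀ σ, r (L.res g * σ) = r σ := fun g hg σ => by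
    simp only [r, rightRep_mul hg]
  let d : ∀ q : Nat.Primes, Coef L q := fun q σ => (r σ : ℚ_[(q : ℕ)])
  have hd : ∀ q ∈ T, ‖d q - c q‖ ≤ ε q := fun q hq =>
    (pi_norm_le_iff_of_nonneg (hε q).le).2 fun σ => by
      rw [Pi.sub_apply, ← hcH q σ]
      exact hr₀ _ q hq
  set af : QQbar := ∑ σ, r σ • ((D.base σ : L.fld) : QQbar) with haf
  have hdiag : ∀ q : Nat.Primes, (diag af : semilocalAlg (q : ℕ)) = D.elem q (d q) := fun q => by
    rw [D.elem_apply]
    ext g
    simp [haf, d, Algebra.smul_def, Finset.sum_apply]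
  have ha0 : af ≠ 0 := fun h0 => by
    refine (hb q₀ (d q₀) (hd q₀ hq₀)).1 1 ?_
    rw [← hdiag, diag_apply, h0, map_zero, map_zero]
  have hafix : ∀ h ∈ H, h af = af := fun h hh => by
    rw [haf, map_sum]
    refine Fintype.sum_equiv (Equiv.mulLeft (L.res h)) _ _ fun σ => ?_
    rw [map_rat_smul, ← L.coe_res, D.map_base, Equiv.coe_mulLeft, hr h hh]
  refine ⟨Additive.ofMul (Units.mk0 af ha0), fun g hg =>
    Additive.toMul.injective (Units.ext (hafix g hg)), fun q hq => ?_⟩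
  obtain ⟨y, hy, hyx⟩ := (hb q (d q) (hd q hq)).2 (comp q (principal (Additive.ofMul (Units.mk0 af ha0))))
    (fun h hh => semi_ext fun g => by
      rw [sval_smul, sval_principal, sval_principal]
      exact congrArg (fun t => emb q (g t)) (hafix h hh))
    (by rw [← hdiag]; ext g; simp only [toAlg_apply, sval_principal, diag_apply]; rfl)
  exact ⟨y, hy, by rw [map_sub, hyx]⟩

end FLTAgent.Global
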