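import Fermat.Agent.Global.Semilocal.Basic

/-!
A `ℚ`-basis of `F` gives a `ℚ_q`-basis of the semilocal algebra of `F`.
-/

set_option autoImplicit false

namespace FLTAgent.Semilocal

open Finset

local notation "Qb" => AlgebraicClosure ℚ
local notation "Γℚ" => AlgebraicClosure ℚ ≃ₐ[ℚ] AlgebraicClosure ℚ

variable {q : ℕ} [Fact q.Prime] {F : IntermediateField ℚ (AlgebraicClosure ℚ)}
  [FiniteDimensional ℚ F]

lemma eq_zero_of_forall_sum_embedding {ι : Type*} [Fintype ι] (b : Module.Basis ι ℚ F)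
    (c : ι → PadicAlgCl q)
    (h : ∀ g : Γℚ, ∑ i, c i * padicEmbedding q (g (b i : Qb)) = 0) : c = 0 := by
  classical
  haveI : IsAlgClosure ℚ Qb := ⟨inferInstance, AlgebraicClosure.isAlgebraic ℚ⟩
  haveI : Normal ℚ Qb := IsAlgClosure.normal ℚ Qb
  obtain ⟨e⟩ : Nonempty (ι ≃ (F →ₐ[ℚ] Qb)) := by
    refine ⟨(Fintype.equivOfCardEq ?_)⟩
    rw [AlgHom.card ℚ F Qb, Module.finrank_eq_card_basis b]
  have hdet : (Algebra.embeddingsMatrixReindex ℚ Qb (b : ι → F) e).det ≠ 0 := by
    intro h0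
    have h1 := Algebra.discr_eq_det_embeddingsMatrixReindex_pow_two ℚ Qb (b : ι → F) e
    rw [h0, zero_pow two_ne_zero, map_eq_zero] at h1
    exact Algebra.discr_not_zero_of_basis ℚ b h1
  set M := (Algebra.embeddingsMatrixReindex ℚ Qb (b : ι → F) e).map (padicEmbedding q) with hM
  have hdet' : M.det ≠ 0 := by
    rw [hM, ← AlgHom.mapMatrix_apply, ← AlgHom.map_det]
    simpa using hdet
  refine Matrix.eq_zero_of_vecMul_eq_zero hdet' ?_
  funext j
  have hext : ∀ x : F, (e j).liftNormal Qb x = e j x := fun x =>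
    (e j).liftNormal_commutes Qb x
  have := h (AlgEquiv.ofBijective ((e j).liftNormal Qb) (Algebra.IsAlgebraic.algHom_bijective _))
  simpa [Matrix.vecMul, dotProduct, hM, Algebra.embeddingsMatrixReindex,
    Algebra.embeddingsMatrix, hext] using this

lemma exists_sum_embedding {ι : Type*} [Fintype ι] (b : Module.Basis ι ℚ F)
    {f : semilocalAlg q} (hf : f ∈ semilocalFixed q F.fixingSubgroup) :
    ∃ c : ι → PadicAlgCl q, ∀ g : Γℚ,
      ∑ i, c i * padicEmbedding q (g (b i : Qb)) = (f : Γℚ → PadicAlgCl q) g := by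
  classical
  haveI : IsAlgClosure ℚ Qb := ⟨inferInstance, AlgebraicClosure.isAlgebraic ℚ⟩
  haveI : Normal ℚ Qb := IsAlgClosure.normal ℚ Qb
  let ext : (F →ₐ[ℚ] Qb) → Γℚ := fun σ =>
    AlgEquiv.ofBijective (σ.liftNormal Qb) (Algebra.IsAlgebraic.algHom_bijective _)
  let T : (ι → PadicAlgCl q) →ₗ[PadicAlgCl q] ((F →ₐ[ℚ] Qb) → PadicAlgCl q) :=
    { toFun := fun c σ => ∑ i, c i * padicEmbedding q (σ (b i))
      map_add' := fun c d => by funext σ; simp [add_mul, sum_add_distrib]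
      map_smul' := fun r c => by funext σ; simp [mul_sum, mul_assoc] }
  have hT : ∀ (g : Γℚ) (c : ι → PadicAlgCl q),
      ∑ i, c i * padicEmbedding q (g (b i : Qb)) = T c (g.toAlgHom.comp F.val) := fun g c => rfl
  have hinj : Function.Injective T := by
    rw [← LinearMap.ker_eq_bot, LinearMap.ker_eq_bot']
    intro c hc
    refine eq_zero_of_forall_sum_embedding b c fun g => ?_
    rw [hT, hc]; rfl
  obtain ⟨c, hc⟩ := (LinearMap.injective_iff_surjective_of_finrank_eq_finrank (by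
      rw [Module.finrank_fintype_fun_eq_card, Module.finrank_fintype_fun_eq_card,
        AlgHom.card ℚ F Qb, Module.finrank_eq_card_basis b])).mp hinj
    (fun σ => (f : Γℚ → PadicAlgCl q) (ext σ))
  refine ⟨c, fun g => ?_⟩
  rw [hT, hc]
  set σ := g.toAlgHom.comp F.val
  show (f : Γℚ → PadicAlgCl q) (ext σ) = _
  have hs : g⁻¹ * ext σ ∈ F.fixingSubgroup := by
    rw [IntermediateField.mem_fixingSubgroup_iff]
    intro x hx
    have h1 : ext σ x = g x := σ.liftNormal_commutes Qb ⟨x, hx⟩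
    rw [AlgEquiv.mul_apply, h1, ← AlgEquiv.mul_apply, inv_mul_cancel, AlgEquiv.one_apply]
  have h2 := congrArg (fun z : semilocalAlg q => (z : Γℚ → PadicAlgCl q) g) (hf _ hs)
  simpa [mul_inv_cancel_left] using h2

/-- A basis of `F` spans the semilocal algebra over `ℚ_q`. -/
theorem exists_coeffs {ι : Type*} [Fintype ι] (b : Module.Basis ι ℚ F)
    {f : semilocalAlg q} (hf : f ∈ semilocalFixed q F.fixingSubgroup) :
    ∃ c : ι → ℚ_[q], f = ∑ i, c i • diag (b i : Qb) := by
  haveI : IsAlgClosure ℚ_[q] (PadicAlgCl q) :=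
    ⟨inferInstance, AlgebraicClosure.isAlgebraic _⟩
  haveI : Normal ℚ_[q] (PadicAlgCl q) := IsAlgClosure.normal ℚ_[q] _
  haveI : IsGalois ℚ_[q] (PadicAlgCl q) := ⟨⟩
  obtain ⟨c, hc⟩ := exists_sum_embedding b hf
  have hfix : ∀ (τ : PadicAlgCl q ≃ₐ[ℚ_[q]] PadicAlgCl q) i, τ (c i) = c i := by
    intro τ i
    have h0 := eq_zero_of_forall_sum_embedding b (fun i => τ (c i) - c i) fun g => by
      obtain ⟨g', rfl⟩ : ∃ g', g = localGaloisToGlobal q τ * g' :=
        ⟨(localGaloisToGlobal q τ)⁻¹ * g, (mul_inv_cancel_left _ g).symm⟩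
      simp only [sub_mul, sum_sub_distrib]
      rw [hc, f.2 τ g', sub_eq_zero, ← hc g', map_sum]
      refine Finset.sum_congr rfl fun i _ => ?_
      rw [map_mul, AlgEquiv.mul_apply, padicEmbedding_localGaloisToGlobal]
    exact sub_eq_zero.mp (congrFun h0 i)
  have hrat : ∀ i, ∃ r : ℚ_[q], algebraMap ℚ_[q] (PadicAlgCl q) r = c i := fun i =>
    IntermediateField.mem_bot.mp ((InfiniteGalois.mem_bot_iff_fixed _).mpr fun τ => hfix τ i)
  choose r hr using hrat
  refine ⟨r, Subtype.ext (funext fun g => ?_)⟩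
  rw [← hc g]
  simp [Algebra.smul_def, hr, Finset.sum_apply]

/-- The coefficients are unique. -/
theorem coeffs_injective {ι : Type*} [Fintype ι] (b : Module.Basis ι ℚ F) {c d : ι → ℚ_[q]}
    (h : ∑ i, c i • (diag (b i : Qb) : semilocalAlg q) = ∑ i, d i • diag (b i : Qb)) :
    c = d := by
  have h0 := eq_zero_of_forall_sum_embedding b
    (fun i => algebraMap ℚ_[q] (PadicAlgCl q) (c i - d i)) fun g => by
      have := congrArg (fun z : semilocalAlg q => (z : Γℚ → PadicAlgCl q) g) h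
      simp [Algebra.smul_def, Finset.sum_apply] at this
      simpa [sub_mul, sub_eq_zero] using this
  funext i
  exact sub_eq_zero.mp ((map_eq_zero _).mp (congrFun h0 i))

end FLTAgent.Semilocal
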