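import Fermat.Agent.Global.Adele
import Fermat.Agent.Global.Semilocal.Basis

/-!
Levels: finiteness, and the passage from `Semi q` to the semilocal algebra.
-/

set_option autoImplicit false

noncomputable section

namespace FLTAgent.Global

open FLTAgent.Semilocal

theorem Level.finite_quotient (L : Level) : Finite (GQ ⧸ L.grp) := by
  haveI := L.fin
  let φ : GQ ⧸ L.grp → (L.fld →ₐ[ℚ] QQbar) := Quotient.lift
    (fun g : GQ => (g : QQbar →ₐ[ℚ] QQbar).comp L.fld.val) (by
      intro a b hab
      have hab := QuotientGroup.leftRel_apply.mp hab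
      rw [Level.grp, IntermediateField.mem_fixingSubgroup_iff] at hab
      refine AlgHom.ext fun x => ?_
      have := congrArg a (hab x.1 x.2)
      rw [← AlgEquiv.mul_apply, mul_inv_cancel_left] at this
      exact this.symm)
  refine Finite.of_injective φ ?_
  intro a b h
  induction a using QuotientGroup.induction_on with | _ a => ?_
  induction b using QuotientGroup.induction_on with | _ b => ?_
  rw [QuotientGroup.eq, Level.grp, IntermediateField.mem_fixingSubgroup_iff]
  intro x hx
  have : a x = b x := DFunLike.congr_fun h ⟨x, hx⟩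
  rw [AlgEquiv.mul_apply, ← this, ← AlgEquiv.mul_apply, inv_mul_cancel, AlgEquiv.one_apply]

theorem Level.lvl (L : Level) {H : Subgroup GQ} (hH : L.grp ≤ H) : Lvl H L.grp where
  le := hH
  conj g _ s hs := by simpa using L.grp_normal.conj_mem s hs g⁻¹
  fin := by
    haveI := L.finite_quotient
    haveI : L.grp.FiniteIndex := L.grp.finiteIndex_of_finite_quotient
    haveI : (L.grp.subgroupOf H).FiniteIndex := inferInstance
    exact Subgroup.finite_quotient_of_finiteIndex

theorem finite_places (L : Level) (q : Nat.Primes) :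
    Finite (DoubleCoset.Quotient (dec q : Set GQ) (L.grp : Set GQ)) := by
  haveI := L.finite_quotient
  refine Finite.of_surjective (fun x : GQ ⧸ L.grp => Quotient.liftOn' x
    (fun g => DoubleCoset.mk (dec q) L.grp g) ?_) ?_
  · intro a b hab
    rw [QuotientGroup.leftRel_apply] at hab
    exact (DoubleCoset.eq _ _ a b).mpr ⟨1, (dec q).one_mem, a⁻¹ * b, hab, by simp⟩
  · intro y
    induction y using Quotient.inductionOn' with | h g => exact ⟨QuotientGroup.mk g, rfl⟩

variable {q : Nat.Primes}

/-- An element of `Semi q` as an element of the semilocal algebra. -/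
def toAlg (x : Semi q) : semilocalAlg (q : ℕ) := ⟨sval x, fun τ g => sval_loc x τ g⟩

@[simp] lemma toAlg_apply (x : Semi q) (g : GQ) : (toAlg x : GQ → Kq q) g = sval x g := rfl

lemma toAlg_smul (h : GQ) (x : Semi q) : toAlg (h • x) = h • toAlg x := by
  ext g; simp

lemma toAlg_add (x y : Semi q) : toAlg (x + y) = toAlg x * toAlg y := by
  ext g; simp

lemma toAlg_injective : Function.Injective (toAlg (q := q)) := fun _ _ h =>
  semi_ext fun g => congrArg (fun z : semilocalAlg (q : ℕ) => (z : GQ → Kq q) g) h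

lemma toAlg_mem_fixed {N : Subgroup GQ} {x : Semi q} (hx : x ∈ fixSub (A := Semi q) N) :
    toAlg x ∈ semilocalFixed (q : ℕ) N := fun s hs => by rw [← toAlg_smul, hx s hs]

/-- A nowhere vanishing element of finite level is a unit of the semilocal group. -/
def ofAlg (L : Level) (f : semilocalAlg (q : ℕ)) (hf : f ∈ semilocalFixed (q : ℕ) L.grp)
    (h0 : ∀ g, (f : GQ → Kq q) g ≠ 0) : Semi q :=
  ⟨fun g => Additive.ofMul (Units.mk0 ((f : GQ → Kq q) g) (h0 g)), fun τ g => f.2 τ g,
    ⟨L, fun g s hs => by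
      apply Additive.toMul.injective; apply Units.ext
      exact congrArg (fun z : semilocalAlg (q : ℕ) => (z : GQ → Kq q) g) (hf s hs)⟩⟩

@[simp] lemma sval_ofAlg (L : Level) (f : semilocalAlg (q : ℕ))
    (hf : f ∈ semilocalFixed (q : ℕ) L.grp) (h0 : ∀ g, (f : GQ → Kq q) g ≠ 0) (g : GQ) :
    sval (ofAlg L f hf h0) g = (f : GQ → Kq q) g := rfl

lemma ofAlg_mem_fixSub (L : Level) (f : semilocalAlg (q : ℕ))
    (hf : f ∈ semilocalFixed (q : ℕ) L.grp) (h0 : ∀ g, (f : GQ → Kq q) g ≠ 0) :
    ofAlg L f hf h0 ∈ fixSub (A := Semi q) L.grp := fun s hs =>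
  semi_ext fun g => congrArg (fun z : semilocalAlg (q : ℕ) => (z : GQ → Kq q) g) (hf s hs)

lemma map_mem_fld (L : Level) (g : GQ) {x : QQbar} (hx : x ∈ L.fld) : g x ∈ L.fld := by
  haveI := L.gal
  haveI : Normal ℚ L.fld := IsGalois.to_normal
  have : g x = (AlgEquiv.restrictNormal g L.fld ⟨x, hx⟩ : QQbar) :=
    (AlgEquiv.restrictNormal_commutes g L.fld ⟨x, hx⟩).symm
  rw [this]
  exact (AlgEquiv.restrictNormal g L.fld ⟨x, hx⟩).2

theorem exists_finite_sval (L : Level) (q : Nat.Primes) :
    ∃ E : IntermediateField ℚ_[(q : ℕ)] (Kq q), FiniteDimensional ℚ_[(q : ℕ)] E ∧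
      ∀ x ∈ fixSub (A := Semi q) L.grp, ∀ g, sval x g ∈ E := by
  haveI := L.fin
  let b := Module.finBasis ℚ L.fld
  refine ⟨IntermediateField.adjoin _ (Set.range fun i => emb q (b i : QQbar)), ?_, ?_⟩
  · haveI : Finite (Set.range fun i => emb q (b i : QQbar)) := Set.finite_range _
    exact IntermediateField.finiteDimensional_adjoin fun x _ => Algebra.IsIntegral.isIntegral x
  · intro x hx g
    obtain ⟨c, hc⟩ := exists_coeffs b (toAlg_mem_fixed hx)
    rw [← toAlg_apply, hc]
    simp only [AddSubmonoidClass.coe_finsetSum, SetLike.val_smul, Finset.sum_apply, Pi.smul_apply,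
      diag_apply]
    refine sum_mem fun i _ => ?_
    rw [Algebra.smul_def]
    refine mul_mem (IntermediateField.algebraMap_mem _ _) ?_
    have hg := map_mem_fld L g (b i).2
    have hrepr := b.sum_repr ⟨g (b i : QQbar), hg⟩
    have h2 : padicEmbedding (q : ℕ) (g (b i : QQbar)) =
        ∑ j, algebraMap ℚ (Kq q) (b.repr ⟨g (b i : QQbar), hg⟩ j) * emb q (b j : QQbar) := by
      conv_lhs => rw [show g (b i : QQbar) = ((⟨g (b i : QQbar), hg⟩ : L.fld) : QQbar) from rfl,
        ← hrepr]
      simp [Algebra.smul_def]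
    rw [h2]
    refine sum_mem fun j _ => mul_mem ?_ (IntermediateField.subset_adjoin _ _ ⟨j, rfl⟩)
    rw [IsScalarTower.algebraMap_apply ℚ ℚ_[(q : ℕ)] (Kq q)]
    exact IntermediateField.algebraMap_mem _ _

end FLTAgent.Global
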