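import Fermat.Agent.Global.Semilocal.Levels

/-!
Hilbert 90 for the semilocal groups and for `ℚ̄ˣ`.
-/

set_option autoImplicit false

noncomputable section

namespace FLTAgent.Global

open FLTAgent.Semilocal

/-- Choice of `y` with all Poincaré series nonvanishing. -/
lemma exists_generic {ι κ : Type*} [Finite ι] [Finite κ] {Ω : Type*} [Field Ω] [Algebra ℚ Ω]
    (F : IntermediateField ℚ QQbar) (a : ι → κ → Ω) (ha : ∀ i k, a i k ≠ 0)
    (σ : ι → κ → (F →ₐ[ℚ] Ω)) (hσ : ∀ i, Function.Injective (σ i)) [Nonempty κ] :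
    ∃ y : F, ∀ i, (∑ᶠ k, a i k * σ i k y) ≠ 0 := by
  classical
  have := Fintype.ofFinite κ
  have := Fintype.ofFinite ι
  let W : ι → (F →ₗ[ℚ] Ω) := fun i => ∑ k, a i k • (σ i k).toLinearMap
  have hW : ∀ i y, W i y = ∑ k, a i k * σ i k y := fun i y => by simp [W]
  have hne : ∀ i, LinearMap.ker (W i) ≠ ⊤ := by
    intro i htop
    have hli := (linearIndependent_monoidHom F Ω).comp (fun k => ((σ i k : F →ₐ[ℚ] Ω) : F →* Ω))
      (fun k k' h => hσ i (AlgHom.ext fun y => DFunLike.congr_fun h y))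
    have h0 : ∑ k, a i k • (((σ i k : F →ₐ[ℚ] Ω) : F →* Ω) : F → Ω) = 0 := by
      funext y
      have : y ∈ LinearMap.ker (W i) := htop ▸ Submodule.mem_top
      rw [LinearMap.mem_ker, hW] at this
      simpa using this
    exact ha i (Classical.arbitrary κ)
      (Fintype.linearIndependent_iff.mp hli (a i) h0 (Classical.arbitrary κ))
  obtain ⟨y, hy⟩ : ∃ y : F, y ∉ ⋃ i, (LinearMap.ker (W i) : Set F) := by
    by_contra hall
    push Not at hall
    obtain ⟨i, hi⟩ := Subspace.exists_eq_top_of_iUnion_eq_univ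
      (p := fun i => LinearMap.ker (W i)) (Set.eq_univ_of_forall hall)
    exact hne i hi
  refine ⟨y, fun i h => hy ?_⟩
  rw [finsum_eq_sum_of_fintype] at h
  simp only [Set.mem_iUnion]
  exact ⟨i, by simpa [hW] using h⟩

/-- Embeddings of a level attached to distinct cosets are distinct. -/
lemma injective_rep_restrict (L : Level) {H : Subgroup GQ} {Ω : Type*} [Field Ω] [Algebra ℚ Ω]
    (φ : QQbar →ₐ[ℚ] Ω) (x : GQ) :
    Function.Injective (fun k : ↥H ⧸ L.grp.subgroupOf H =>
      (φ.comp ((x * rep H L.grp k : GQ) : QQbar →ₐ[ℚ] QQbar)).comp L.fld.val) := by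
  intro k k' h
  rw [← QuotientGroup.out_eq' k, ← QuotientGroup.out_eq' k', QuotientGroup.eq,
    Subgroup.mem_subgroupOf]
  refine (IntermediateField.mem_fixingSubgroup_iff _ _).mpr ?_
  intro y hy
  have h1 : φ ((x * rep H L.grp k) y) = φ ((x * rep H L.grp k') y) := DFunLike.congr_fun h ⟨y, hy⟩
  have h2 := φ.injective h1
  rw [AlgEquiv.mul_apply, AlgEquiv.mul_apply] at h2
  have h3 : rep H L.grp k y = rep H L.grp k' y := x.injective h2
  simp only [Subgroup.coe_mul, Subgroup.coe_inv, AlgEquiv.mul_apply]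
  rw [show ((k'.out : H) : GQ) y = rep H L.grp k y from h3.symm]
  exact (rep H L.grp k).symm_apply_apply y

theorem isB1_semi (L : Level) (q : Nat.Primes) {H : Subgroup GQ} (hH : L.grp ≤ H)
    {f : GQ → Semi q} (hf : IsZ1 H L.grp f) : IsB1 H f := by
  classical
  haveI := L.finite_quotient
  haveI := (L.lvl hH).fin
  let r : GQ ⧸ L.grp → GQ := fun i => i.out
  obtain ⟨y, hy⟩ := exists_generic L.fld
    (fun (i : GQ ⧸ L.grp) (k : ↥H ⧸ L.grp.subgroupOf H) => sval (f (rep H L.grp k)) (r i))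
    (fun i k => sval_ne_zero _ _)
    (fun i k => ((emb q).comp ((r i * rep H L.grp k : GQ) : QQbar →ₐ[ℚ] QQbar)).comp L.fld.val)
    (fun i => injective_rep_restrict L (emb q) (r i))
  set F : GQ → semilocalAlg (q : ℕ) :=
    fun t => toAlg (f t) * t • (diag (y : QQbar) : semilocalAlg (q : ℕ)) with hF
  have hfixf : ∀ t ∈ H, f t ∈ fixSub (A := Semi q) L.grp := fun t ht s hs =>
    hf.smul_eq (L.lvl hH) ht hs
  have hdiag : ∀ t : GQ,
      t • (diag (y : QQbar) : semilocalAlg (q : ℕ)) ∈ semilocalFixed (q : ℕ) L.grp := fun t => by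
    rw [diag_smul]; exact diag_mem_fixed (map_mem_fld L t y.2)
  have hFfix : ∀ t ∈ H, F t ∈ semilocalFixed (q : ℕ) L.grp := fun t ht =>
    mul_mem (toAlg_mem_fixed (hfixf t ht)) (hdiag t)
  set B := csum H L.grp F with hB
  have hBfix : B ∈ semilocalFixed (q : ℕ) L.grp := by
    rw [hB, csum]
    exact finsum_induction (fun z => z ∈ semilocalFixed (q : ℕ) L.grp) (zero_mem _)
      (fun _ _ => add_mem) fun k => hFfix _ (rep_mem H L.grp k)
  have hcomm : ∀ (z : GQ), (B : GQ → Kq q) z =
      ∑ᶠ k : ↥H ⧸ L.grp.subgroupOf H, (F (rep H L.grp k) : GQ → Kq q) z := fun z => by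
    have := Fintype.ofFinite (↥H ⧸ L.grp.subgroupOf H)
    rw [hB, csum, finsum_eq_sum_of_fintype, finsum_eq_sum_of_fintype]
    simp
  have hB0 : ∀ z, (B : GQ → Kq q) z ≠ 0 := by
    intro z
    have hz : (r (QuotientGroup.mk z))⁻¹ * z ∈ L.grp := by
      rw [← QuotientGroup.eq]; exact QuotientGroup.out_eq' _
    have hzz : (B : GQ → Kq q) z = (B : GQ → Kq q) (r (QuotientGroup.mk z)) := by
      have := congrArg (fun w : semilocalAlg (q : ℕ) => (w : GQ → Kq q) (r (QuotientGroup.mk z)))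
        (hBfix _ hz)
      simpa using this
    rw [hzz, hcomm]
    have h := hy (QuotientGroup.mk z)
    simp [hF, emb, AlgEquiv.mul_apply] at h ⊢
    exact h
  refine ⟨-ofAlg L B hBfix hB0, fun g hg => ?_⟩
  have key : toAlg (f g) * g • B = B := by
    have hlevel : ∀ t ∈ H, ∀ s ∈ L.grp, F (t * s) = F t := fun t ht s hs => by
      simp only [hF, hf.1 t ht s hs, mul_smul]
      rw [(diag_mem_fixed (F := L.fld) y.2) s hs]
    conv_rhs => rw [hB, ← csum_mul_left hlevel hg]
    rw [hB]
    have e1 : g • csum H L.grp F = csum H L.grp (fun t => g • F t) :=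
      map_csum H L.grp (L.lvl hH).fin (DistribSMul.toAddMonoidHom (semilocalAlg (q : ℕ)) g) F
    have e2 : ∀ (c : semilocalAlg (q : ℕ)) (G : GQ → semilocalAlg (q : ℕ)),
        c * csum H L.grp G = csum H L.grp (fun t => c * G t) := fun c G =>
      map_csum H L.grp (L.lvl hH).fin (AddMonoidHom.mulLeft c) G
    rw [e1, e2]
    refine csum_congr H L.grp fun t ht => ?_
    simp only [hF, hf.2 g hg t ht, toAlg_add, toAlg_smul, smul_mul', mul_smul]
    ring
  refine semi_ext fun z => ?_
  have := congrArg (fun w : semilocalAlg (q : ℕ) => (w : GQ → Kq q) z) key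
  simp only [MulMemClass.coe_mul, Pi.mul_apply, toAlg_apply, smul_semilocal_apply] at this
  simp only [dd0, sub_eq_add_neg, neg_neg, smul_neg, sval_add, sval_neg, sval_smul, sval_ofAlg]
  field_simp [hB0]
  exact this

theorem isB1_qmul (L : Level) {H : Subgroup GQ} (hH : L.grp ≤ H)
    {f : GQ → QMul} (hf : IsZ1 H L.grp f) : IsB1 H f := by
  classical
  haveI := (L.lvl hH).fin
  obtain ⟨y, hy⟩ := exists_generic L.fld
    (fun (_ : Unit) (k : ↥H ⧸ L.grp.subgroupOf H) => qval (f (rep H L.grp k)))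
    (fun i k => qval_ne_zero _)
    (fun _ k => ((AlgHom.id ℚ QQbar).comp
      ((1 * rep H L.grp k : GQ) : QQbar →ₐ[ℚ] QQbar)).comp L.fld.val)
    (fun _ => injective_rep_restrict L (AlgHom.id ℚ QQbar) 1)
  set F : GQ → QQbar := fun t => qval (f t) * t (y : QQbar) with hF
  have hB0 : csum H L.grp F ≠ 0 := by
    have h := hy ()
    simp [csum, hF] at h ⊢
    exact h
  refine ⟨-Additive.ofMul (Units.mk0 _ hB0), fun g hg => ?_⟩
  have key : qval (f g) * g (csum H L.grp F) = csum H L.grp F := by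
    have hlevel : ∀ t ∈ H, ∀ s ∈ L.grp, F (t * s) = F t := fun t ht s hs => by
      simp only [hF, hf.1 t ht s hs, AlgEquiv.mul_apply]
      rw [(IntermediateField.mem_fixingSubgroup_iff _ _).mp hs y y.2]
    conv_rhs => rw [← csum_mul_left hlevel hg]
    have e1 : g (csum H L.grp F) = csum H L.grp (fun t => g (F t)) :=
      map_csum H L.grp (L.lvl hH).fin (g.toAlgHom.toRingHom.toAddMonoidHom) F
    have e2 : ∀ (c : QQbar) (G : GQ → QQbar),
        c * csum H L.grp G = csum H L.grp (fun t => c * G t) := fun c G =>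
      map_csum H L.grp (L.lvl hH).fin (AddMonoidHom.mulLeft c) G
    rw [e1, e2]
    refine csum_congr H L.grp fun t ht => ?_
    simp only [hF, hf.2 g hg t ht, qval_add, qval_smul, AlgEquiv.mul_apply, map_mul]
    ring
  apply Additive.toMul.injective; apply Units.ext
  show qval (f g) = qval (dd0 _ g)
  simp only [dd0, sub_eq_add_neg, neg_neg, smul_neg, qval_add]
  show qval (f g) = ((Units.map (g : QQbar →* QQbar)) (Units.mk0 _ hB0))⁻¹.val * _
  rw [Units.val_inv_eq_inv_val]
  simp only [Units.coe_map, MonoidHom.coe_coe, Units.val_mk0, qval, toMul_ofMul]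
  have hg0 : g (csum H L.grp F) ≠ 0 := by simpa using hB0
  rw [eq_comm, inv_mul_eq_iff_eq_mul₀ hg0, mul_comm]
  exact key.symm

theorem exists_fix_toCl_eq (L : Level) {H : Subgroup GQ} (hH : L.grp ≤ H) {c : Cl}
    (hc : c ∈ fixSub (A := Cl) H) : ∃ x ∈ fixSub (A := Idele) H, toCl x = c := by
  obtain ⟨x, rfl⟩ := toCl_surjective c
  have hg : ∀ g ∈ H, ∃ a, principal a = g • x - x := fun g hg => by
    rw [← toCl_eq_zero_iff, map_sub, ← smul_toCl, hc g hg, sub_self]
  choose! a ha using hg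
  obtain ⟨L', hL'⟩ := x.2.1
  set M := L.sup L'
  have hMH : M.grp ≤ H := (L.sup_grp_le L').trans (inf_le_left.trans hH)
  have hfix : ∀ s ∈ M.grp, s • x = x := fun s hs =>
    idele_ext fun q => hL' q s (L.sup_grp_le L' hs).2
  have hz : IsZ1 H M.grp a := by
    refine ⟨fun g hg s hs => principal_injective ?_, fun g hg h hh => principal_injective ?_⟩
    · rw [ha _ (mul_mem hg (hMH hs)), ha g hg, mul_smul, hfix s hs]
    · rw [ha _ (mul_mem hg hh), map_add, principal_smul, ha g hg, ha h hh, smul_sub, mul_smul]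
      abel
  obtain ⟨b, hb⟩ := isB1_qmul M hMH hz
  refine ⟨x - principal b, fun g hg => ?_, ?_⟩
  · have := congrArg principal (hb g hg)
    rw [ha g hg, dd0, map_sub, principal_smul] at this
    rw [smul_sub, ← sub_eq_zero]
    calc g • x - g • principal b - (x - principal b)
        = (g • x - x) - (g • principal b - principal b) := by abel
      _ = 0 := by rw [this, sub_self]
  · rw [map_sub, toCl_eq_zero_iff.mpr ⟨b, rfl⟩, sub_zero]

end FLTAgent.Global
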