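import Fermat.Agent.Global.Semilocal.LocalField
import Fermat.Agent.Global.Csum

/-!
The places of a level over a prime, the decomposition of a semilocal element into its local
components, and the decomposition groups as Galois groups of the completion.
-/

set_option autoImplicit false

noncomputable section

namespace FLTAgent.Global

open FLTAgent.Semilocal

variable (L : Level) (q : Nat.Primes)

/-- The place of `L` over `q` attached to an element of `G_ℚ`. -/
def place (g : GQ) : DoubleCoset.Quotient (dec q : Set GQ) (L.grp : Set GQ) :=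
  DoubleCoset.mk (dec q) L.grp g

variable {L q}

lemma place_eq_iff {g z : GQ} :
    place L q g = place L q z ↔ ∃ τ : Gq q, ∃ s ∈ L.grp, z = loc q τ * g * s := by
  refine (DoubleCoset.eq (dec q) L.grp g z).trans ⟨?_, ?_⟩
  · rintro ⟨_, ⟨τ, rfl⟩, s, hs, rfl⟩; exact ⟨τ, s, hs, rfl⟩
  · rintro ⟨τ, s, hs, rfl⟩; exact ⟨_, ⟨τ, rfl⟩, s, hs, rfl⟩

lemma place_mul_congr {z w : GQ} (h : place L q z = place L q w) (k : GQ) :
    place L q (z * k) = place L q (w * k) := by
  obtain ⟨τ, s, hs, rfl⟩ := place_eq_iff.1 h
  exact place_eq_iff.2 ⟨τ, k⁻¹ * s * k, by simpa using L.grp_normal.conj_mem s hs k⁻¹, by group⟩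

lemma place_loc_mul (τ : Gq q) (z : GQ) : place L q (loc q τ * z) = place L q z :=
  (place_eq_iff.2 ⟨τ, 1, L.grp.one_mem, by simp⟩).symm

lemma place_mul_grp (z : GQ) {s : GQ} (hs : s ∈ L.grp) : place L q (z * s) = place L q z :=
  (place_eq_iff.2 ⟨1, s, hs, by simp⟩).symm

variable (L q)

/-- The decomposition group inside `H` of the place of `g`. -/
def placeSub (H : Subgroup GQ) (g : GQ) : Subgroup GQ where
  carrier := {h | h ∈ H ∧ place L q (g * h) = place L q g}
  one_mem' := ⟨H.one_mem, by rw [mul_one]⟩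
  mul_mem' {h k} hh hk := ⟨mul_mem hh.1 hk.1, by
    rw [← mul_assoc, place_mul_congr hh.2 k, hk.2]⟩
  inv_mem' {h} hh := ⟨inv_mem hh.1, by
    simpa using (place_mul_congr hh.2 h⁻¹).symm⟩

lemma placeSub_le (H : Subgroup GQ) (g : GQ) : placeSub L q H g ≤ H := fun _ h => h.1

lemma grp_le_placeSub {H : Subgroup GQ} (hH : L.grp ≤ H) (g : GQ) : L.grp ≤ placeSub L q H g :=
  fun _ hs => ⟨hH hs, place_mul_grp g hs⟩

open scoped Classical in
/-- The component at the place of `g`. -/
def atPlace (g : GQ) : Semi q →+ Semi q where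
  toFun x := ⟨fun z => if place L q z = place L q g then x.1 z else 0, fun τ z => by
      simp only [place_loc_mul]
      split_ifs with h
      · exact x.2.1 τ z
      · simp, by
      obtain ⟨L', hL'⟩ := x.2.2
      refine ⟨L.sup L', fun z s hs => ?_⟩
      have h := L.sup_grp_le L' hs
      simp only [place_mul_grp z h.1, hL' z s h.2]⟩
  map_zero' := by ext z; simp
  map_add' x y := by
    ext z
    simp only [AddSubgroup.coe_add, Pi.add_apply]
    split_ifs <;> simp

variable {L q}

open scoped Classical in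
lemma sval_atPlace (g : GQ) (x : Semi q) (z : GQ) :
    sval (atPlace L q g x) z = if place L q z = place L q g then sval x z else 1 := by
  show (((if place L q z = place L q g then x.1 z else 0 : Additive (Kq q)ˣ).toMul : (Kq q)ˣ) : Kq q) = _
  split_ifs <;> rfl

lemma atPlace_idem (g : GQ) (x : Semi q) : atPlace L q g (atPlace L q g x) = atPlace L q g x := by
  refine semi_ext fun z => ?_
  rw [sval_atPlace]
  split_ifs with h
  · rfl
  · rw [sval_atPlace, if_neg h]

lemma atPlace_smul_of_place {g k : GQ} (hk : place L q (g * k) = place L q g) (x : Semi q) :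
    atPlace L q g (k • x) = k • atPlace L q g x := by
  refine semi_ext fun z => ?_
  have hiff : place L q (z * k) = place L q g ↔ place L q z = place L q g := by
    refine ⟨fun h => ?_, fun h => by rw [place_mul_congr h k, hk]⟩
    have h1 := place_mul_congr h k⁻¹
    have h2 := place_mul_congr hk k⁻¹
    rw [mul_inv_cancel_right] at h1 h2
    rw [h1, ← h2]
  rw [sval_atPlace, sval_smul, sval_smul, sval_atPlace]
  by_cases h : place L q z = place L q g
  · rw [if_pos h, if_pos (hiff.2 h)]
  · rw [if_neg h, if_neg fun h' => h (hiff.1 h')]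

lemma atPlace_mem_fixSub {g : GQ} {x : Semi q} (hx : x ∈ fixSub (A := Semi q) L.grp) :
    atPlace L q g x ∈ fixSub (A := Semi q) L.grp := fun s hs => by
  rw [← atPlace_smul_of_place (place_mul_grp g hs), hx s hs]

lemma atPlace_mem_semiUnit {g : GQ} {x : Semi q} (hx : x ∈ semiUnit q) :
    atPlace L q g x ∈ semiUnit q := fun z => by
  rw [sval_atPlace]
  split_ifs
  · exact hx z
  · exact norm_one

lemma sval_mul_grp {x : Semi q} (hx : x ∈ fixSub (A := Semi q) L.grp) (z : GQ) {s : GQ}
    (hs : s ∈ L.grp) : sval x (z * s) = sval x z := by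
  rw [← sval_smul, hx s hs]

lemma eq_of_sval_eq {g : GQ} {x y : Semi q} (hx : x ∈ fixSub (A := Semi q) L.grp)
    (hy : y ∈ fixSub (A := Semi q) L.grp) (hex : atPlace L q g x = x) (hey : atPlace L q g y = y)
    (h : sval x g = sval y g) : x = y := by
  refine semi_ext fun z => ?_
  by_cases hz : place L q z = place L q g
  · obtain ⟨τ, s, hs, rfl⟩ := place_eq_iff.1 hz.symm
    rw [sval_mul_grp hx _ hs, sval_mul_grp hy _ hs, sval_loc, sval_loc, h]
  · rw [← hex, ← hey, sval_atPlace, sval_atPlace, if_neg hz, if_neg hz]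

lemma sval_sum {ι : Type*} (s : Finset ι) (x : ι → Semi q) (z : GQ) :
    sval (∑ i ∈ s, x i) z = ∏ i ∈ s, sval (x i) z := by
  classical
  induction s using Finset.induction_on with
  | empty => simp
  | insert i s hi ih => rw [Finset.sum_insert hi, Finset.prod_insert hi, sval_add, ih]

theorem finite_orbits (L : Level) (q : Nat.Primes) {H : Subgroup GQ} (hH : L.grp ≤ H) :
    Finite (DoubleCoset.Quotient (dec q : Set GQ) (H : Set GQ)) := by
  haveI := L.finite_quotient
  refine Finite.of_surjective (fun x : GQ ⧸ L.grp => Quotient.liftOn' x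
    (fun g => DoubleCoset.mk (dec q) H g) ?_) ?_
  · intro a b hab
    rw [QuotientGroup.leftRel_apply] at hab
    exact (DoubleCoset.eq _ _ a b).mpr ⟨1, (dec q).one_mem, a⁻¹ * b, hH hab, by simp⟩
  · intro y
    induction y using Quotient.inductionOn' with | h g => exact ⟨QuotientGroup.mk g, rfl⟩

/-- A semilocal element is the sum of its components, orbit by orbit. -/
theorem sum_projAt_atPlace {H : Subgroup GQ} (hH : L.grp ≤ H)
    [Fintype (DoubleCoset.Quotient (dec q : Set GQ) (H : Set GQ))] (x : Semi q) :
    ∑ o : DoubleCoset.Quotient (dec q : Set GQ) (H : Set GQ),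
      csum H (placeSub L q H o.out) (fun t => projAt (atPlace L q o.out) t x) = x := by
  classical
  have hfin : ∀ g, Finite (↥H ⧸ (placeSub L q H g).subgroupOf H) := fun g =>
    (L.lvl hH).fin_quot (placeSub_le L q H g) (grp_le_placeSub L q hH g)
  refine semi_ext fun z => ?_
  have hval : ∀ g t, sval (projAt (atPlace L q g) t x) z
      = if place L q (z * t) = place L q g then sval x z else 1 := fun g t => by
    rw [projAt, sval_smul, sval_atPlace, sval_smul, mul_inv_cancel_right]
  set o := DoubleCoset.mk (dec q) H z with ho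
  rw [sval_sum, Finset.prod_eq_single o]
  · haveI := Fintype.ofFinite (↥H ⧸ (placeSub L q H o.out).subgroupOf H)
    rw [csum_eq_sum, sval_sum]
    have h1 : DoubleCoset.mk (dec q) H o.out = DoubleCoset.mk (dec q) H z :=
      (DoubleCoset.out_eq' (dec q) H o).trans ho
    obtain ⟨_, ⟨τ, rfl⟩, h, hh, hz⟩ := (DoubleCoset.eq _ _ _ _).1 h1
    set c : ↥H ⧸ (placeSub L q H o.out).subgroupOf H := QuotientGroup.mk ⟨h⁻¹, inv_mem hh⟩ with hc
    have hbase : place L q (z * h⁻¹) = place L q o.out := by
      rw [hz, mul_inv_cancel_right, place_loc_mul]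
    rw [Finset.prod_eq_single c]
    · rw [hval, if_pos]
      have hp : h * rep H _ c ∈ placeSub L q H o.out := by
        have := (QuotientGroup.out_eq' c).symm
        rw [hc, QuotientGroup.eq, Subgroup.mem_subgroupOf] at this
        simpa [rep] using this
      have h3 := place_mul_congr hbase (h * rep H _ c)
      rw [hp.2, mul_assoc, inv_mul_cancel_left] at h3
      exact h3
    · intro c' _ hne
      rw [hval, if_neg]
      intro hp
      refine hne ?_
      rw [hc, ← QuotientGroup.out_eq' c', QuotientGroup.eq, Subgroup.mem_subgroupOf]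
      have h2 := place_mul_congr hbase.symm (h * rep H _ c')
      rw [mul_assoc z, inv_mul_cancel_left, hp] at h2
      have hmem : h * rep H _ c' ∈ placeSub L q H o.out := ⟨mul_mem hh (rep_mem H _ _), h2⟩
      have := inv_mem hmem
      simpa [rep] using this
    · simp
  · intro o' _ hne
    haveI := Fintype.ofFinite (↥H ⧸ (placeSub L q H o'.out).subgroupOf H)
    rw [csum_eq_sum, sval_sum]
    refine Finset.prod_eq_one fun c _ => ?_
    rw [hval, if_neg]
    intro hp
    refine hne ?_
    obtain ⟨τ, s, hs, he⟩ := place_eq_iff.1 hp.symm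
    rw [ho, ← DoubleCoset.out_eq' (dec q) H o']
    exact (DoubleCoset.eq _ _ _ _).2 ⟨_, ⟨τ, rfl⟩, s * (rep H _ c)⁻¹,
      mul_mem (hH hs) (inv_mem (rep_mem H _ _)), by rw [← mul_assoc, ← he, mul_inv_cancel_right]⟩
  · simp

end FLTAgent.Global
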