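import Fermat.Agent.Global.Semilocal.Levels

/-!
Elements of the semilocal group fixed by `H` with prescribed values at one orbit of places,
`p`-th roots of principal units at `q ≠ p`, and the `p`-torsion.
-/

set_option autoImplicit false

noncomputable section

namespace FLTAgent.Global

open FLTAgent.Semilocal

variable {L : Level} {q : Nat.Primes} {H : Subgroup GQ}

lemma sval_mul_fix {x : Semi q} (hx : x ∈ fixSub (A := Semi q) H) (g : GQ) {s : GQ} (hs : s ∈ H) :
    sval x (g * s) = sval x g := by rw [← sval_smul, hx s hs]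

lemma exists_loc_of_orbit {g z : GQ}
    (h : DoubleCoset.mk (dec q) H g = DoubleCoset.mk (dec q) H z) :
    ∃ τ : Gq q, ∃ s ∈ H, z = loc q τ * g * s := by
  obtain ⟨_, ⟨τ, rfl⟩, s, hs, rfl⟩ := (DoubleCoset.eq _ _ _ _).1 h
  exact ⟨τ, s, hs, rfl⟩

lemma orbit_eq_of_loc {g : GQ} (τ : Gq q) {s : GQ} (hs : s ∈ H) :
    DoubleCoset.mk (dec q) H g = DoubleCoset.mk (dec q) H (loc q τ * g * s) :=
  (DoubleCoset.eq _ _ _ _).2 ⟨_, ⟨τ, rfl⟩, s, hs, rfl⟩

lemma sval_orbit {x : Semi q} (hx : x ∈ fixSub (A := Semi q) H) (τ : Gq q) (g : GQ) {s : GQ}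
    (hs : s ∈ H) : sval x (loc q τ * g * s) = τ (sval x g) := by
  rw [sval_mul_fix hx _ hs, sval_loc]

lemma semi_eq_of_orbits {x y : Semi q} (hx : x ∈ fixSub (A := Semi q) H)
    (hy : y ∈ fixSub (A := Semi q) H)
    (h : ∀ o : DoubleCoset.Quotient (dec q : Set GQ) (H : Set GQ), sval x o.out = sval y o.out) :
    x = y := semi_ext fun z => by
  obtain ⟨τ, s, hs, e⟩ := exists_loc_of_orbit (g := (DoubleCoset.mk (dec q) H z).out) (z := z)
    (DoubleCoset.out_eq' (dec q) H _)
  rw [e, sval_orbit hx τ _ hs, sval_orbit hy τ _ hs, h]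

/-- Prescribing the value at one orbit of places. -/
theorem exists_semi_value (L : Level) (hH : L.grp ≤ H) (g : GQ) (w : Kq q) (hw0 : w ≠ 0)
    (hw : ∀ τ : Gq q, ∀ h ∈ H, loc q τ * g = g * h → τ w = w) :
    ∃ z ∈ fixSub (A := Semi q) H, sval z g = w ∧ (‖w‖ = 1 → z ∈ semiUnit q) ∧
      ∀ g', DoubleCoset.mk (dec q) H g' ≠ DoubleCoset.mk (dec q) H g → sval z g' = 1 := by
  classical
  let f : GQ → Kq q := fun z =>
    if h : ∃ τ : Gq q, ∃ s ∈ H, z = loc q τ * g * s then h.choose w else 1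
  have hf : ∀ (τ : Gq q) (s : GQ), s ∈ H → f (loc q τ * g * s) = τ w := by
    intro τ s hs
    have hex : ∃ τ' : Gq q, ∃ s' ∈ H, loc q τ * g * s = loc q τ' * g * s' := ⟨τ, s, hs, rfl⟩
    obtain ⟨s', hs', e⟩ := hex.choose_spec
    simp only [f, dif_pos hex]
    generalize hex.choose = τ' at e ⊢
    have h1 : loc q (τ⁻¹ * τ') * g = g * (s * s'⁻¹) := by
      rw [map_mul, map_inv, mul_assoc, inv_mul_eq_iff_eq_mul, ← mul_assoc g,
        ← mul_assoc (loc q τ), ← mul_assoc (loc q τ), e]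
      group
    have h2 := congrArg (τ ·) (hw _ _ (mul_mem hs (inv_mem hs')) h1)
    simpa [AlgEquiv.mul_apply, AlgEquiv.aut_inv] using h2
  have hf0 : ∀ z, DoubleCoset.mk (dec q) H z ≠ DoubleCoset.mk (dec q) H g → f z = 1 := fun z hz =>
    dif_neg fun ⟨τ, s, hs, e⟩ => hz (e ▸ (orbit_eq_of_loc τ hs).symm)
  have hcases : ∀ z, (∃ τ : Gq q, ∃ s ∈ H, z = loc q τ * g * s) ∨
      DoubleCoset.mk (dec q) H z ≠ DoubleCoset.mk (dec q) H g := fun z =>
    (em _).imp_right fun h he => h (exists_loc_of_orbit he.symm)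
  have heq : ∀ (τ : Gq q) (z : GQ), f (loc q τ * z) = τ (f z) := by
    intro τ z
    rcases hcases z with ⟨τ', s, hs, rfl⟩ | hz
    · rw [show loc q τ * (loc q τ' * g * s) = loc q (τ * τ') * g * s by rw [map_mul]; group,
        hf _ s hs, hf _ s hs, AlgEquiv.mul_apply]
    · have : DoubleCoset.mk (dec q) H (loc q τ * z) = DoubleCoset.mk (dec q) H z :=
        ((orbit_eq_of_loc τ H.one_mem).trans (by rw [mul_one])).symm
      rw [hf0 z hz, hf0 _ (this ▸ hz), map_one]
  have hfix : ∀ z, ∀ s ∈ H, f (z * s) = f z := by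
    intro z s hs
    rcases hcases z with ⟨τ', s', hs', rfl⟩ | hz
    · rw [show loc q τ' * g * s' * s = loc q τ' * g * (s' * s) by group,
        hf _ _ (mul_mem hs' hs), hf _ _ hs']
    · have : DoubleCoset.mk (dec q) H (z * s) = DoubleCoset.mk (dec q) H z :=
        ((orbit_eq_of_loc (g := z) (1 : Gq q) hs).trans (by rw [map_one, one_mul])).symm
      rw [hf0 z hz, hf0 _ (this ▸ hz)]
  let F : semilocalAlg (q : ℕ) := ⟨f, heq⟩
  have hF : F ∈ semilocalFixed (q : ℕ) L.grp := fun s hs => by ext z; exact hfix z s (hH hs)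
  have h0 : ∀ z, (F : GQ → Kq q) z ≠ 0 := by
    intro z
    show f z ≠ 0
    rcases hcases z with ⟨τ, s, hs, rfl⟩ | hz
    · rw [hf τ s hs]
      exact (map_ne_zero_iff _ τ.injective).mpr hw0
    · rw [hf0 z hz]; exact one_ne_zero
  refine ⟨ofAlg L F hF h0, fun s hs => semi_ext fun z => hfix z s hs, ?_, fun h1 z => ?_, hf0⟩
  · show f g = w
    simpa using hf 1 1 H.one_mem
  · show ‖f z‖ = 1
    rcases hcases z with ⟨τ, s, hs, rfl⟩ | hz
    · rw [hf τ s hs, norm_gq, h1]
    · rw [hf0 z hz, norm_one]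

lemma sval_nsmul (m : ℕ) (x : Semi q) (g : GQ) : sval (m • x) g = sval x g ^ m := by
  induction m with
  | zero => simp
  | succ m ih => rw [succ_nsmul, sval_add, ih, pow_succ]

lemma norm_natCast_kq {n : ℕ} (h : (q : ℕ).Coprime n) : ‖(n : Kq q)‖ = 1 := by
  rw [← map_natCast (algebraMap ℚ_[(q : ℕ)] (Kq q)), norm_algebraMap',
    Padic.norm_natCast_eq_one_iff.2 h]

/-- A root of unity of order prime to `q` congruent to `1` is `1`. -/
lemma eq_one_of_pow_eq_one {p : ℕ} (hp : (q : ℕ).Coprime p) {t : Kq q} (ht : t ^ p = 1)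
    (ht1 : ‖t - 1‖ < 1) : t = 1 := by
  have hi : ∀ i : ℕ, ‖t ^ i - 1‖ < 1 := fun i => by
    induction i with
    | zero => simp
    | succ i ih =>
      rw [show t ^ (i + 1) - 1 = t * (t ^ i - 1) + (t - 1) by ring]
      have hn : ‖t‖ = 1 := by
        rw [show t = 1 + (t - 1) by ring, IsUltrametricDist.norm_add_eq_max_of_norm_ne_norm
          (by rw [norm_one]; exact ht1.ne'), norm_one, max_eq_left ht1.le]
      exact (IsUltrametricDist.norm_add_le_max _ _).trans_lt
        (max_lt (by rw [norm_mul, hn, one_mul]; exact ih) ht1)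
  have hs : ∑ i ∈ Finset.range p, t ^ i ≠ 0 := by
    intro h0
    have h1 : ‖∑ i ∈ Finset.range p, (t ^ i - 1)‖ < 1 := by
      rcases (Finset.range p).eq_empty_or_nonempty with hc | hc
      · simp [hc]
      · obtain ⟨i, -, hle⟩ := IsUltrametricDist.exists_norm_finsetSum_le_of_nonempty hc
          (fun i => t ^ i - 1)
        exact hle.trans_lt (hi i)
    rw [Finset.sum_sub_distrib, h0, zero_sub, norm_neg, Finset.sum_const, Finset.card_range,
      nsmul_eq_mul, mul_one, norm_natCast_kq hp] at h1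
    exact lt_irrefl _ h1
  have := geom_sum_mul t p
  rw [ht, sub_self, mul_eq_zero] at this
  exact sub_eq_zero.mp (this.resolve_left hs)

/-- Principal units have a unique principal `p`-th root. -/
theorem exists_principal_root {p : ℕ} (hp0 : 0 < p) (hp : (q : ℕ).Coprime p) {u : Kq q}
    (hu : ‖u - 1‖ < 1) :
    ∃ v : Kq q, v ^ p = u ∧ ‖v - 1‖ < 1 ∧ ∀ τ : Gq q, τ u = u → τ v = v := by
  set f : Polynomial (Kq q) := Polynomial.X ^ p - Polynomial.C u with hf
  have hm : f.Monic := Polynomial.monic_X_pow_sub_C u hp0.ne'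
  have he := Polynomial.Splits.eval_eq_prod_roots_of_monic (IsAlgClosed.splits f) hm 1
  have : ∃ v ∈ f.roots, ‖v - 1‖ < 1 := by
    by_contra hall
    push Not at hall
    have h1 : 1 ≤ ‖(f.roots.map fun v => 1 - v).prod‖ := by
      rw [show ‖(f.roots.map fun v => 1 - v).prod‖ = ((f.roots.map fun v => 1 - v).map (‖·‖)).prod from
        map_multiset_prod (normHom : Kq q →*₀ ℝ) _, Multiset.map_map]
      refine Multiset.one_le_prod fun a ha => ?_
      obtain ⟨v, hv, rfl⟩ := Multiset.mem_map.1 ha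
      simpa [norm_sub_rev] using hall v hv
    rw [← he, hf] at h1
    simp only [Polynomial.eval_sub, Polynomial.eval_pow, Polynomial.eval_X, one_pow,
      Polynomial.eval_C] at h1
    rw [norm_sub_rev] at h1
    exact absurd h1 (not_le.2 hu)
  obtain ⟨v, hv, hv1⟩ := this
  have hvp : v ^ p = u := by
    have := (Polynomial.mem_roots hm.ne_zero).1 hv
    simpa [hf, sub_eq_zero] using this
  have hvn : ‖v‖ = 1 := by
    rw [show v = 1 + (v - 1) by ring, IsUltrametricDist.norm_add_eq_max_of_norm_ne_norm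
      (by rw [norm_one]; exact hv1.ne'), norm_one, max_eq_left hv1.le]
  have hv0 : v ≠ 0 := fun h => by simp [h] at hvn
  refine ⟨v, hvp, hv1, fun τ hτ => ?_⟩
  have ht : (τ v / v) ^ p = 1 := by
    rw [div_pow, ← map_pow, hvp, hτ, ← hvp, div_self (pow_ne_zero _ hv0)]
  have ht1 : ‖τ v / v - 1‖ < 1 := by
    rw [div_sub_one hv0, norm_div, hvn, div_one,
      show τ v - v = τ (v - 1) + -(v - 1) by rw [map_sub, map_one]; ring]
    exact (IsUltrametricDist.norm_add_le_max _ _).trans_lt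
      (max_lt (by rwa [norm_gq]) (by rwa [norm_neg]))
  exact (div_eq_one_iff_eq hv0).1 (eq_one_of_pow_eq_one hp ht ht1)

/-- A unit at `q ≠ p` is a `p`-th power as soon as it is one modulo the maximal ideal. -/
theorem exists_nsmul_of_residue (L : Level) (q : Nat.Primes) {H : Subgroup GQ} (hH : L.grp ≤ H)
    {p : ℕ} (hp : p.Prime) (hqp : (q : ℕ) ≠ p) {x y : Semi q} (hx : x ∈ semiUnit q ⊓ fixSub H)
    (hy : y ∈ semiUnit q ⊓ fixSub H) {g : GQ} (hg : ‖sval x g - sval y g ^ p‖ < 1) :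
    ∃ z ∈ semiUnit q ⊓ fixSub H, sval (p • z) g = sval x g := by
  have hyn : ‖sval y g ^ p‖ = 1 := by rw [norm_pow, hy.1 g, one_pow]
  have hy0 : sval y g ^ p ≠ 0 := pow_ne_zero _ (sval_ne_zero y g)
  obtain ⟨v, hv, hv1, hvfix⟩ := exists_principal_root hp.pos
    ((Nat.coprime_primes q.2 hp).2 hqp) (u := sval x g / sval y g ^ p)
    (by rwa [div_sub_one hy0, norm_div, hyn, div_one])
  have hfix : ∀ x' : Semi q, x' ∈ fixSub (A := Semi q) H → ∀ τ : Gq q, ∀ h ∈ H,
      loc q τ * g = g * h → τ (sval x' g) = sval x' g := fun x' hx' τ h hh e => by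
    rw [← sval_loc, e, sval_mul_fix hx' _ hh]
  have hwn : ‖sval y g * v‖ = 1 := by
    rw [norm_mul, hy.1 g, one_mul, show v = 1 + (v - 1) by ring,
      IsUltrametricDist.norm_add_eq_max_of_norm_ne_norm (by rw [norm_one]; exact hv1.ne'), norm_one,
      max_eq_left hv1.le]
  obtain ⟨z, hz, hzg, hzu, -⟩ := exists_semi_value L hH g (sval y g * v)
    (fun h => by simp [h] at hwn) fun τ h hh e => by
      rw [map_mul, hfix y hy.2 τ h hh e,
        hvfix τ (by rw [map_div₀, map_pow, hfix x hx.2 τ h hh e, hfix y hy.2 τ h hh e])]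
  refine ⟨z, ⟨hzu hwn, hz⟩, ?_⟩
  rw [sval_nsmul, hzg, mul_pow, hv, mul_div_cancel₀ _ hy0]

/-- The `p`-torsion: roots of unity at each orbit of places. -/
theorem card_semi_torsion (L : Level) (q : Nat.Primes) {H : Subgroup GQ} (hH : L.grp ≤ H)
    [Finite (DoubleCoset.Quotient (dec q : Set GQ) (H : Set GQ))]
    {p : ℕ} (hp : p.Prime) {ζ : QQbar} (hζ : IsPrimitiveRoot ζ p) (hζH : ∀ s ∈ H, s ζ = ζ) :
    Nat.card {x : Semi q // x ∈ fixSub (A := Semi q) H ∧ p • x = 0}
      = p ^ Nat.card (DoubleCoset.Quotient (dec q : Set GQ) (H : Set GQ)) := by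
  classical
  haveI := Fintype.ofFinite (DoubleCoset.Quotient (dec q : Set GQ) (H : Set GQ))
  haveI : NeZero p := ⟨hp.ne_zero⟩
  set O := DoubleCoset.Quotient (dec q : Set GQ) (H : Set GQ)
  let μ : Type := {w : Kq q // w ^ p = 1}
  have hprim : ∀ g : GQ, IsPrimitiveRoot (emb q (g ζ)) p := fun g =>
    (hζ.map_of_injective (f := g) g.injective).map_of_injective (f := emb q) (emb q).injective
  have hμ : Nat.card μ = p := by
    have e : μ ≃ ↥(Polynomial.nthRootsFinset p (1 : Kq q)) :=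
      Equiv.subtypeEquivRight fun w => (Polynomial.mem_nthRootsFinset hp.pos _).symm
    rw [Nat.card_congr e, Nat.card_eq_fintype_card, Fintype.card_coe,
      (hprim 1).card_nthRootsFinset]
  let φ : {x : Semi q // x ∈ fixSub (A := Semi q) H ∧ p • x = 0} → (O → μ) := fun x o =>
    ⟨sval x.1 o.out, by rw [← sval_nsmul, x.2.2, sval_zero]⟩
  have hbij : Function.Bijective φ := by
    refine ⟨fun x y h => Subtype.ext (semi_eq_of_orbits x.2.1 y.2.1 fun o =>
      congrArg Subtype.val (congrFun h o)), fun v => ?_⟩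
    have hex : ∀ o : O, ∃ z : Semi q, z ∈ fixSub (A := Semi q) H ∧ sval z o.out = (v o).1 ∧
        ∀ g', DoubleCoset.mk (dec q) H g' ≠ DoubleCoset.mk (dec q) H o.out → sval z g' = 1 := by
      intro o
      obtain ⟨k, -, hk⟩ := (hprim o.out).eq_pow_of_pow_eq_one (v o).2
      obtain ⟨z, hz, hzg, -, hz1⟩ := exists_semi_value L hH o.out (v o).1
        (fun h => by simpa [h, hp.ne_zero] using (v o).2) fun τ h hh e => by
          have : τ (emb q (o.out ζ)) = emb q (o.out ζ) := by
            rw [← emb_loc, ← AlgEquiv.mul_apply, e, AlgEquiv.mul_apply, hζH h hh]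
          rw [← hk, map_pow, this]
      exact ⟨z, hz, hzg, hz1⟩
    choose z hz hzg hz1 using hex
    have hsum : ∀ o : O, sval (∑ o', z o') o.out = (v o).1 := fun o => by
      have : ∀ s : Finset O, sval (∑ o' ∈ s, z o') o.out = ∏ o' ∈ s, sval (z o') o.out := fun s => by
        induction s using Finset.induction_on with
        | empty => simp
        | insert i s hi ih => rw [Finset.sum_insert hi, Finset.prod_insert hi, sval_add, ih]
      rw [this, Finset.prod_eq_single o _ (fun h => absurd (Finset.mem_univ o) h), hzg]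
      intro o' _ hne
      refine hz1 o' _ fun he => hne ?_
      rw [DoubleCoset.out_eq', DoubleCoset.out_eq'] at he
      exact he.symm
    have hfix : ∑ o', z o' ∈ fixSub (A := Semi q) H := sum_mem fun o _ => hz o
    refine ⟨⟨∑ o', z o', hfix, semi_eq_of_orbits (nsmul_mem hfix p) (zero_mem _) fun o => ?_⟩,
      funext fun o => Subtype.ext (hsum o)⟩
    rw [sval_nsmul, hsum, sval_zero, (v o).2]
  rw [Nat.card_congr (Equiv.ofBijective φ hbij), Nat.card_fun, hμ]

end FLTAgent.Global
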