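import Fermat.Agent.Global.Semilocal.LocalResidue
import Fermat.Agent.Global.Semilocal.Hilbert90
import Fermat.Agent.Frobenius.Unramified
import Fermat.Agent.Global.Csum

/-!
Valuations of semilocal elements at an unramified prime, powers of `q`, and the vanishing of the
first cohomology of units.
-/

set_option autoImplicit false

noncomputable section

namespace FLTAgent.Global

open FLTAgent.Semilocal

variable {L : Level} {q : Nat.Primes}

lemma sval_mem_valField {x : Semi q} (hx : x ∈ fixSub (A := Semi q) L.grp) (g : GQ) :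
    sval x g ∈ valField L q := by
  haveI := L.fin
  obtain ⟨c, hc⟩ := exists_coeffs (Module.finBasis ℚ L.fld) (toAlg_mem_fixed hx)
  rw [← toAlg_apply, hc]
  simp only [AddSubmonoidClass.coe_finsetSum, SetLike.val_smul, Finset.sum_apply, Pi.smul_apply,
    diag_apply]
  refine sum_mem fun i _ => ?_
  rw [Algebra.smul_def]
  exact mul_mem (IntermediateField.algebraMap_mem _ _)
    (emb_mem_valField (map_mem_fld L g (Module.finBasis ℚ L.fld i).2))

theorem exists_sval_norm_eq (L : Level) (q : Nat.Primes) (hq : L.UnrAt q) {x : Semi q}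
    (hx : x ∈ fixSub (A := Semi q) L.grp) (g : GQ) :
    ∃ n : ℤ, ‖sval x g‖ = ((q : ℕ) : ℝ) ^ n :=
  exists_norm_eq_zpow (resFaithful_of_unrAt hq) (x := ⟨_, sval_mem_valField hx g⟩)
    fun h => sval_ne_zero x g (congrArg Subtype.val h)

/-- powers of `q` with prescribed exponents (no ramification hypothesis) -/
theorem exists_qpow (L : Level) (q : Nat.Primes) (n : GQ → ℤ)
    (hl : ∀ (τ : Gq q) (g : GQ), n (loc q τ * g) = n g) (hr : ∀ g, ∀ s ∈ L.grp, n (g * s) = n g) :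
    ∃ x ∈ fixSub (A := Semi q) L.grp, ∀ g, sval x g = ((q : ℕ) : Kq q) ^ n g := by
  let f : semilocalAlg (q : ℕ) := ⟨fun g => ((q : ℕ) : Kq q) ^ n g, fun τ g => by
    show _ ^ n (loc q τ * g) = _
    rw [hl, map_zpow₀, map_natCast]⟩
  have hf : f ∈ semilocalFixed (q : ℕ) L.grp := fun s hs => by
    ext g
    show ((q : ℕ) : Kq q) ^ n (g * s) = _
    rw [hr g s hs]
  have h0 : ∀ g, (f : GQ → Kq q) g ≠ 0 := fun g =>
    zpow_ne_zero _ (Nat.cast_ne_zero.mpr q.2.ne_zero)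
  exact ⟨ofAlg L f hf h0, ofAlg_mem_fixSub L f hf h0, fun g => rfl⟩

lemma norm_natCast_self (q : Nat.Primes) : ‖((q : ℕ) : Kq q)‖ = ((q : ℕ) : ℝ)⁻¹ := by
  rw [← map_natCast (algebraMap ℚ_[(q : ℕ)] (Kq q)), norm_algebraMap', Padic.norm_p]

lemma qzpow_inj {n m : ℤ} (h : ((q : ℕ) : ℝ) ^ n = ((q : ℕ) : ℝ) ^ m) : n = m :=
  zpow_right_injective₀ (by exact_mod_cast q.2.pos) (by exact_mod_cast q.2.ne_one) h

/-- `u` is the part of `x` made of powers of `q`. -/
def IsQPart (x u : Semi q) : Prop :=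
  ∀ g, ∃ n : ℤ, sval u g = ((q : ℕ) : Kq q) ^ n ∧ ‖sval x g‖ = ‖sval u g‖

lemma IsQPart.unique {x u u' : Semi q} (h : IsQPart x u) (h' : IsQPart x u') : u = u' :=
  semi_ext fun g => by
    obtain ⟨n, hn, hnx⟩ := h g
    obtain ⟨m, hm, hmx⟩ := h' g
    rw [hnx, hn, hm, norm_zpow, norm_zpow, norm_natCast_self, inv_zpow', inv_zpow'] at hmx
    rw [hn, hm, neg_inj.mp (qzpow_inj hmx)]

lemma IsQPart.add {x y u v : Semi q} (h : IsQPart x u) (h' : IsQPart y v) :
    IsQPart (x + y) (u + v) := fun g => by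
  obtain ⟨n, hn, hnx⟩ := h g
  obtain ⟨m, hm, hmx⟩ := h' g
  exact ⟨n + m, by rw [sval_add, hn, hm, zpow_add₀ (Nat.cast_ne_zero.mpr q.2.ne_zero)],
    by rw [sval_add, sval_add, norm_mul, norm_mul, hnx, hmx]⟩

lemma IsQPart.neg {x u : Semi q} (h : IsQPart x u) : IsQPart (-x) (-u) := fun g => by
  obtain ⟨n, hn, hnx⟩ := h g
  exact ⟨-n, by rw [sval_neg, hn, zpow_neg], by rw [sval_neg, sval_neg, norm_inv, norm_inv, hnx]⟩

lemma IsQPart.sub {x y u v : Semi q} (h : IsQPart x u) (h' : IsQPart y v) :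
    IsQPart (x - y) (u - v) := by
  rw [sub_eq_add_neg, sub_eq_add_neg]; exact h.add h'.neg

lemma IsQPart.smul {x u : Semi q} (h : IsQPart x u) (k : GQ) : IsQPart (k • x) (k • u) :=
  fun g => h (g * k)

lemma isQPart_of_mem_semiUnit {x : Semi q} (hx : x ∈ semiUnit q) : IsQPart x 0 := fun g =>
  ⟨0, by simp, by simp [hx g]⟩

lemma IsQPart.sub_mem {x u : Semi q} (h : IsQPart x u) : x - u ∈ semiUnit q := fun g => by
  obtain ⟨n, -, hnx⟩ := h g
  rw [sub_eq_add_neg, sval_add, sval_neg, norm_mul, norm_inv, hnx,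
    mul_inv_cancel₀ (norm_ne_zero_iff.mpr (sval_ne_zero u g))]

theorem exists_isQPart (hq : L.UnrAt q) {x : Semi q} (hx : x ∈ fixSub (A := Semi q) L.grp) :
    ∃ u ∈ fixSub (A := Semi q) L.grp, IsQPart x u := by
  choose n hn using exists_sval_norm_eq L q hq hx
  have hl : ∀ (τ : Gq q) (g : GQ), -n (loc q τ * g) = -n g := fun τ g => by
    refine neg_inj.mpr (qzpow_inj (q := q) ?_)
    rw [← hn, ← hn, sval_loc, norm_gq]
  have hr : ∀ g, ∀ s ∈ L.grp, -n (g * s) = -n g := fun g s hs => by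
    refine neg_inj.mpr (qzpow_inj (q := q) ?_)
    rw [← hn, ← hn, ← sval_smul, hx s hs]
  obtain ⟨u, hu, hun⟩ := exists_qpow L q (fun g => -n g) hl hr
  refine ⟨u, hu, fun g => ⟨-n g, hun g, ?_⟩⟩
  rw [hn, hun, norm_zpow, norm_natCast_self, inv_zpow', neg_neg]

theorem isB1_semiUnit (L : Level) (q : Nat.Primes) (hq : L.UnrAt q) {H : Subgroup GQ}
    (hH : L.grp ≤ H) {f : GQ → Semi q} (hf : IsZ1 H L.grp f) (hu : ∀ g ∈ H, f g ∈ semiUnit q) :
    ∃ a ∈ semiUnit q ⊓ fixSub L.grp, ∀ g ∈ H, f g = dd0 a g := by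
  obtain ⟨a, ha⟩ := isB1_semi L q hH hf
  have hafix : a ∈ fixSub (A := Semi q) L.grp := fun s hs => by
    have := ha s (hH hs)
    rw [hf.apply_of_mem hs, dd0] at this
    exact sub_eq_zero.mp this.symm
  obtain ⟨u, hufix, hua⟩ := exists_isQPart hq hafix
  refine ⟨a - u, ⟨hua.sub_mem, AddSubgroup.sub_mem _ hafix hufix⟩, fun g hg => ?_⟩
  have h2 : IsQPart (f g) (g • u - u) := by
    rw [ha g hg, dd0]; exact (hua.smul g).sub hua
  have h3 := h2.unique (isQPart_of_mem_semiUnit (hu g hg))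
  rw [ha g hg]
  simp only [dd0, smul_sub]
  rw [sub_eq_zero.mp h3]
  abel

/-- Only finitely many primes ramify in a level. -/
theorem finite_ramified (L : Level) : {q : Nat.Primes | ¬ L.UnrAt q}.Finite := by
  haveI := L.fin
  haveI := L.gal
  haveI : Normal ℚ L.fld := IsGalois.to_normal
  haveI : NumberField L.fld := ⟨⟩
  have hd : (NumberField.discr L.fld).natAbs ≠ 0 :=
    Int.natAbs_ne_zero.mpr (NumberField.discr_ne_zero L.fld)
  refine Set.Finite.of_finite_image (f := fun q : Nat.Primes => (q : ℕ))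
    ((NumberField.discr L.fld).natAbs.divisors.finite_toSet.subset ?_) Subtype.val_injective.injOn
  rintro _ ⟨q, hq, rfl⟩
  refine Nat.mem_divisors.mpr ⟨?_, hd⟩
  by_contra hdvd
  refine hq fun A hA => ?_
  exact Frobenius.inertia_le_fixingSubgroup_of_not_dvd_discr L.fld q.2
    (fun h => hdvd (Int.natCast_dvd.mp h)) hA

theorem isB1_idele (L : Level) {H : Subgroup GQ} (hH : L.grp ≤ H)
    {f : GQ → Idele} (hf : IsZ1 H L.grp f) : IsB1 H f := by
  classical
  have hN := L.lvl hH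
  haveI := hN.fin
  have hz : ∀ q, IsZ1 H L.grp (fun g => comp q (f g)) := fun q =>
    ⟨fun g hg s hs => by simp only [hf.1 g hg s hs],
      fun g hg h hh => by simp only [hf.2 g hg h hh, map_add, comp_smul]⟩
  set bad : Set Nat.Primes := {q | ¬ L.UnrAt q} ∪
    ⋃ x : ↥H ⧸ L.grp.subgroupOf H, {q | comp q (f (rep H L.grp x)) ∉ semiUnit q} with hbad
  have hfin : bad.Finite :=
    (finite_ramified L).union (Set.finite_iUnion fun x => (f (rep H L.grp x)).2.2)
  have hgood : ∀ q ∉ bad, L.UnrAt q ∧ ∀ g ∈ H, comp q (f g) ∈ semiUnit q := by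
    intro q hq
    simp only [hbad, Set.mem_union, Set.mem_iUnion, Set.mem_ofPred_eq, not_or, not_exists,
      not_not] at hq
    refine ⟨hq.1, fun g hg => ?_⟩
    have h1 := hq.2 (QuotientGroup.mk ⟨g, hg⟩)
    have h2 := hN.mk_eq (QuotientGroup.out_eq'
      (QuotientGroup.mk ⟨g, hg⟩ : ↥H ⧸ L.grp.subgroupOf H))
    rwa [← hf.1 _ (rep_mem H L.grp _) _ h2, rep, mul_inv_cancel_left] at h1
  have hex : ∀ q, ∃ a : Semi q, (a ∈ fixSub (A := Semi q) L.grp ∧ (q ∉ bad → a ∈ semiUnit q)) ∧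
      ∀ g ∈ H, comp q (f g) = dd0 a g := by
    intro q
    by_cases hq : q ∈ bad
    · obtain ⟨a, ha⟩ := isB1_semi L q hH (hz q)
      refine ⟨a, ⟨fun s hs => ?_, fun h => absurd hq h⟩, ha⟩
      have := ha s (hH hs)
      have h0 : (fun g => comp q (f g)) s = (0 : Semi q) := (hz q).apply_of_mem hs
      simp only at h0 this
      rw [h0, dd0] at this
      exact sub_eq_zero.mp this.symm
    · obtain ⟨a, ⟨hau, hafix⟩, ha⟩ := isB1_semiUnit L q (hgood q hq).1 hH (hz q) (hgood q hq).2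
      exact ⟨a, ⟨hafix, fun _ => hau⟩, ha⟩
  choose a ha ha' using hex
  refine ⟨⟨a, ⟨L, fun q s hs => (ha q).1 s hs⟩, hfin.subset fun q hq => ?_⟩,
    fun g hg => idele_ext fun q => ?_⟩
  · by_contra h
    exact hq ((ha q).2 h)
  · rw [ha' q g hg, dd0, dd0, map_sub, comp_smul]
    rfl

end FLTAgent.Global
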