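import Fermat.Agent.Global.Semilocal.SemiValue
import Fermat.Agent.Global.Semilocal.Approx
import Fermat.Agent.Global.Semilocal.Valuation
import Fermat.Agent.Global.Herbrand

/-!
The index of `p`-th powers in the semilocal group of the fixed field of `H`.
-/

set_option autoImplicit false

noncomputable section

namespace FLTAgent.Global

open FLTAgent.Semilocal

/-! ### Abstract indices -/

section abstract

variable {X : Type*} [AddCommGroup X]

/-- `[U : pU] = |U[p]| [W : pW]` for a torsion-free subgroup `W` of finite index. -/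
lemma relIndex_nsmul_of_finiteIndex (p : ℕ) {U W : AddSubgroup X} (hWU : W ≤ U)
    (hfin : W.relIndex U ≠ 0) (htf : ∀ w ∈ W, p • w = 0 → w = 0) :
    (U.map (nsmulAddMonoidHom p)).relIndex U
      = Nat.card ↥(U ⊓ (nsmulAddMonoidHom p : X →+ X).ker)
        * (W.map (nsmulAddMonoidHom p)).relIndex W := by
  set f : X →+ X := nsmulAddMonoidHom p with hf
  have hU : U.map f ≤ U := by rintro _ ⟨u, hu, rfl⟩; exact nsmul_mem hu p
  have hW : W.map f ≤ W := by rintro _ ⟨u, hu, rfl⟩; exact nsmul_mem hu p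
  have h1 := AddSubgroup.relIndex_mul_relIndex (W.map f) (U.map f) U (AddSubgroup.map_mono hWU) hU
  have h2 := AddSubgroup.relIndex_mul_relIndex (W.map f) W U hW hWU
  have h3 := relIndex_map_mul f hWU
  have h4 : W.relIndex (U ⊓ f.ker) = Nat.card ↥(U ⊓ f.ker) := by
    rw [← AddSubgroup.inf_relIndex_right, show W ⊓ (U ⊓ f.ker) = ⊥ from eq_bot_iff.2
      fun w ⟨hw, _, hk⟩ => htf w hw hk, AddSubgroup.relIndex_bot_left]
  rw [h4] at h3
  have hne : (W.map f).relIndex (U.map f) ≠ 0 := fun h => hfin (by rw [h3, h, zero_mul])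
  refine Nat.eq_of_mul_eq_mul_left (Nat.pos_of_ne_zero hne) ?_
  rw [h1, ← h2, h3]
  ring

/-- `[X : pX] = [ν X : p ν X] [K : pK]` for a map to a torsion-free group with kernel `K`. -/
lemma index_nsmul_of_hom {Z : Type*} [AddCommGroup Z] (p : ℕ) (ν : X →+ Z)
    (htf : ∀ z : Z, p • z = 0 → z = 0) :
    (nsmulAddMonoidHom p : X →+ X).range.index
      = (ν.range.map (nsmulAddMonoidHom p)).relIndex ν.range
        * (ν.ker.map (nsmulAddMonoidHom p)).relIndex ν.ker := by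
  set f : X →+ X := nsmulAddMonoidHom p with hf
  have e1 : (f.range ⊔ ν.ker).index = (ν.range.map (nsmulAddMonoidHom p)).relIndex ν.range := by
    rw [← AddSubgroup.comap_map_eq, AddSubgroup.index_comap]
    congr 1
    ext z
    constructor
    · rintro ⟨_, ⟨x, rfl⟩, rfl⟩
      exact ⟨ν x, ⟨x, rfl⟩, (map_nsmul ν p x).symm⟩
    · rintro ⟨_, ⟨x, rfl⟩, rfl⟩
      exact ⟨f x, ⟨x, rfl⟩, map_nsmul ν p x⟩
  have e2 : f.range.relIndex (f.range ⊔ ν.ker) = (ν.ker.map f).relIndex ν.ker := by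
    rw [AddSubgroup.relIndex_sup_left, ← AddSubgroup.inf_relIndex_right]
    congr 1
    ext x
    constructor
    · rintro ⟨⟨y, rfl⟩, hy⟩
      refine ⟨y, htf _ ?_, rfl⟩
      rw [← map_nsmul]
      exact hy
    · rintro ⟨y, hy, rfl⟩
      exact ⟨⟨y, rfl⟩, nsmul_mem hy p⟩
  rw [← e1, ← e2, mul_comm, AddSubgroup.relIndex_mul_index le_sup_left]

end abstract

lemma index_nsmul_pi (ι : Type*) [Finite ι] (m : ℕ) [NeZero m] :
    (nsmulAddMonoidHom m : (ι → ℤ) →+ (ι → ℤ)).range.index = m ^ Nat.card ι := by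
  haveI := Fintype.ofFinite ι
  let φ : (ι → ℤ) →+ (ι → ZMod m) :=
    { toFun := fun x i => (x i : ZMod m)
      map_zero' := by ext; simp
      map_add' := fun x y => by ext; simp }
  have hsurj : Function.Surjective φ := fun y => ⟨fun i => ((y i).val : ℤ), by ext i; simp [φ]⟩
  have hker : φ.ker = (nsmulAddMonoidHom m : (ι → ℤ) →+ (ι → ℤ)).range := by
    ext x
    simp only [AddMonoidHom.mem_ker, AddMonoidHom.mem_range, nsmulAddMonoidHom_apply]
    constructor
    · intro h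
      choose k hk using fun i => (ZMod.intCast_zmod_eq_zero_iff_dvd _ m).mp (congrFun h i)
      exact ⟨k, funext fun i => by simp [hk i]⟩
    · rintro ⟨y, rfl⟩
      ext i; simp [φ]
  rw [← hker, AddSubgroup.index_ker, AddMonoidHom.range_eq_top.mpr hsurj, AddSubgroup.card_top,
    Nat.card_fun, Nat.card_zmod]

variable {L : Level} {q : Nat.Primes} {H : Subgroup GQ}

/-- The valuations have a common denominator. -/
lemma exists_norm_pow_zpow (L : Level) (q : Nat.Primes) :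
    ∃ M : ℕ, 0 < M ∧ ∀ x ∈ fixSub (A := Semi q) L.grp, ∀ g,
      ∃ n : ℤ, ‖sval x g‖ ^ M = ((q : ℕ) : ℝ) ^ n := by
  obtain ⟨E, hE, hval⟩ := exists_finite_sval L q
  refine ⟨(Module.finrank ℚ_[(q : ℕ)] E).factorial, Nat.factorial_pos _, fun x hx g => ?_⟩
  set y := sval x g
  have hy : IsIntegral ℚ_[(q : ℕ)] y := Algebra.IsIntegral.isIntegral y
  set d := (minpoly ℚ_[(q : ℕ)] y).natDegree with hd
  have hd0 : 0 < d := minpoly.natDegree_pos hy
  have hle : d ≤ Module.finrank ℚ_[(q : ℕ)] E := by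
    have := minpoly.natDegree_le (A := ℚ_[(q : ℕ)]) (⟨y, hval x hx g⟩ : E)
    rwa [IntermediateField.minpoly_eq] at this
  obtain ⟨e, he⟩ := Nat.dvd_factorial hd0 hle
  have h0 : (minpoly ℚ_[(q : ℕ)] y).coeff 0 ≠ 0 :=
    minpoly.coeff_zero_ne_zero hy (sval_ne_zero x g)
  have hpow : ‖y‖ ^ d = ‖(minpoly ℚ_[(q : ℕ)] y).coeff 0‖ := by
    have h := spectralNorm.spectralNorm_eq_norm_coeff_zero_rpow (K := ℚ_[(q : ℕ)]) (L := Kq q) y
    rw [PadicAlgCl.spectralNorm_eq, ← hd, one_div] at h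
    rw [h, ← Real.rpow_natCast, Real.rpow_inv_rpow (norm_nonneg _) (by exact_mod_cast hd0.ne')]
  refine ⟨-((minpoly ℚ_[(q : ℕ)] y).coeff 0).valuation * (e : ℤ), ?_⟩
  rw [he, pow_mul, hpow, Padic.norm_eq_zpow_neg_valuation h0, ← zpow_natCast, ← zpow_mul]

/-! ### The neighbourhoods -/

variable (D : NormalData L)

/-- Multiplication by `m` scales small coefficients exactly. -/
lemma norm_coef_nsmul {z : Semi q} {c d : Coef L q} {m : ℕ} (hz : IsCoef D z c)
    (hd : IsCoef D (m • z) d) (hc : ‖c‖ < ‖(m : ℚ_[(q : ℕ)])‖) :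
    ‖d‖ = ‖(m : ℚ_[(q : ℕ)])‖ * ‖c‖ := by
  have hc1 : ‖c‖ ≤ 1 := hc.le.trans (by
    simpa using Padic.norm_int_le_one (p := (q : ℕ)) m)
  obtain ⟨d', hd', -, hdd⟩ := exists_isCoef_sum (D := D) (Finset.range m) (fun _ => z) (fun _ => c)
    (norm_nonneg c) hc1 (fun _ _ => hz) (fun _ _ => le_rfl)
  rw [Finset.sum_const, Finset.card_range] at hd'
  rw [Finset.sum_const, Finset.card_range, hd'.ext hd, ← Nat.cast_smul_eq_nsmul ℚ_[(q : ℕ)]] at hdd
  rcases eq_or_ne c 0 with rfl | hne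
  · simp only [norm_zero, mul_zero, smul_zero, sub_zero] at hdd ⊢
    exact le_antisymm hdd (norm_nonneg _)
  · have hlt : ‖d - (m : ℚ_[(q : ℕ)]) • c‖ < ‖(m : ℚ_[(q : ℕ)])‖ * ‖c‖ :=
      hdd.trans_lt (mul_lt_mul_of_pos_right hc (norm_pos_iff.2 hne))
    rw [← sub_add_cancel d ((m : ℚ_[(q : ℕ)]) • c)]
    refine le_antisymm ((norm_coef_add_le _ _).trans (max_le hlt.le (norm_smul _ c).le)) ?_
    by_contra hcon
    push Not at hcon
    have h1 := norm_coef_add_le (d - (m : ℚ_[(q : ℕ)]) • c + (m : ℚ_[(q : ℕ)]) • c)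
      (-(d - (m : ℚ_[(q : ℕ)]) • c))
    rw [add_neg_eq_iff_eq_add.2 (add_comm _ _), norm_smul, norm_neg] at h1
    exact absurd h1 (not_le.2 (max_lt hcon hlt))

/-- `H`-fixed elements of `nhd n`, inside the `H`-fixed semilocal group. -/
def nhdFix (H : Subgroup GQ) (n : ℕ) : AddSubgroup ↥(fixSub (A := Semi q) H) :=
  (nhd D q n).comap (fixSub (A := Semi q) H).subtype

lemma mem_nhdFix {n : ℕ} {x : ↥(fixSub (A := Semi q) H)} :
    x ∈ nhdFix D H n ↔ (x : Semi q) ∈ nhd D q n := Iff.rfl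

/-- Deep neighbourhoods: `p`-torsion free, and `p W_n = W_{n+a}`, `p = q^a u`. -/
theorem exists_nhdFix_nsmul (H : Subgroup GQ) {p a : ℕ} (hp : p ≠ 0)
    (ha : ‖(p : ℚ_[(q : ℕ)])‖ = qinv q ^ a) :
    ∃ n, nhd D q n ≤ semiUnit q ∧
      (∀ c : Coef L q, ‖c‖ ≤ qinv q ^ (n + 1) → ∃ x : Semi q, IsCoef D x c) ∧
      (∀ w ∈ nhdFix (q := q) D H n, p • w = 0 → w = 0) ∧
      (nhdFix (q := q) D H n).map (nsmulAddMonoidHom p) = nhdFix D H (n + a) := by
  obtain ⟨n₀', hn₀', hex⟩ := exists_nhd_le_semiUnit D q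
  set n₀ := max n₀' a with hn₀
  have hex₀ : ∀ c : Coef L q, ‖c‖ ≤ qinv q ^ (n₀ + 1) → ∃ x : Semi q, IsCoef D x c :=
    fun c hc => hex c (hc.trans (qinv_pow_mono q (by omega)))
  have hpn : qinv q ^ (n₀ + 1) < ‖(p : ℚ_[(q : ℕ)])‖ := by
    rw [ha]; exact pow_lt_pow_right_of_lt_one₀ (qinv_pos q) (qinv_lt_one q) (by omega)
  have htor : ∀ z ∈ nhd D q n₀, p • z = 0 → z = 0 := by
    rintro z ⟨c, hc, hcn⟩ h0
    have h := norm_coef_nsmul D (m := p) hc (h0 ▸ isCoef_zero) (hcn.trans_lt hpn)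
    rw [norm_zero, eq_comm, mul_eq_zero, ha] at h
    have hc0 : c = 0 := norm_eq_zero.1 (h.resolve_left (pow_pos (qinv_pos q) a).ne')
    subst hc0
    exact toAlg_injective (hc.trans (isCoef_zero (D := D)).symm)
  obtain ⟨n₁, hle, hdiv⟩ := nhd_divisible (D := D) hex₀ hp
  refine ⟨n₁, (nhd_antitone (by omega)).trans hn₀',
    fun c hc => hex c (hc.trans (qinv_pow_mono q (by omega))), fun w hw h0 => ?_, ?_⟩
  · refine Subtype.ext (htor _ (nhd_antitone hle hw) ?_)
    rw [← AddSubmonoidClass.coe_nsmul, h0]; rfl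
  ext x
  constructor
  · rintro ⟨w, hw, rfl⟩
    obtain ⟨c, hc, hcn⟩ := hw
    show p • (w : Semi q) ∈ nhd D q (n₁ + a)
    obtain ⟨d, hd⟩ := exists_isCoef (D := D) (nsmul_mem hc.mem_fixSub p)
    refine ⟨d, hd, ?_⟩
    rw [norm_coef_nsmul D hc hd ((hcn.trans (qinv_pow_mono q (by omega))).trans_lt hpn), ha,
      show qinv q ^ (n₁ + a + 1) = qinv q ^ a * qinv q ^ (n₁ + 1) by ring]
    exact mul_le_mul_of_nonneg_left hcn (pow_pos (qinv_pos q) a).le
  · intro hx
    obtain ⟨d, hd, hdn⟩ := mem_nhdFix D |>.1 hx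
    have hx' : (x : Semi q) ∈ nhd D q (n₁ + a) := hx
    obtain ⟨y, hy, hyx⟩ := hdiv _ (nhd_antitone (Nat.le_add_right n₁ a) hx')
    have hyH : y ∈ fixSub (A := Semi q) H := fun h hh => by
      refine sub_eq_zero.mp (htor _ (sub_mem (smul_mem_nhd hy h) hy) ?_)
      rw [nsmul_sub, ← smul_comm, hyx, x.2 h hh, sub_self]
    obtain ⟨c, hc, hcn⟩ := hy
    have h2 := norm_coef_nsmul D hc (hyx ▸ hd) (hcn.trans_lt hpn)
    refine ⟨⟨y, hyH⟩, ⟨c, hc, ?_⟩, Subtype.ext hyx⟩
    rw [h2, ha, show qinv q ^ (n₁ + a + 1) = qinv q ^ a * qinv q ^ (n₁ + 1) by ring] at hdn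
    exact le_of_mul_le_mul_left hdn (pow_pos (qinv_pos q) a)

lemma norm_lt_of_pow_lt {t : ℚ_[(q : ℕ)]} {k : ℕ} (h : ‖t‖ < qinv q ^ k) :
    ‖t‖ ≤ qinv q ^ (k + 1) := by
  have e : ∀ j : ℕ, qinv q ^ j = ((q : ℕ) : ℝ) ^ (-(j : ℤ)) := fun j => by
    rw [qinv, inv_pow, zpow_neg, zpow_natCast]
  rw [e] at h ⊢
  rw [Padic.norm_le_pow_iff_norm_lt_pow_add_one]
  rwa [show -((k + 1 : ℕ) : ℤ) + 1 = -(k : ℤ) by push_cast; ring]

open scoped Classical in
/-- One layer of the filtration. -/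
theorem relIndex_nhdFix_succ (hH : L.grp ≤ H) {n : ℕ}
    (hex : ∀ c : Coef L q, ‖c‖ ≤ qinv q ^ (n + 1) → ∃ x : Semi q, IsCoef D x c) :
    (nhdFix (q := q) D H (n + 1)).relIndex (nhdFix D H n) = (q : ℕ) ^ H.index := by
  set W := nhdFix (q := q) D H n with hW
  let R := QuotientGroup.rightRel (H.map L.res)
  let I := Quotient R
  choose κ hκ hκn using fun w : W => mem_nhdFix D |>.1 w.2
  have hqn : qinv q ^ (n + 1) ≠ 0 := (pow_pos (qinv_pos q) _).ne'
  set Q : ℚ_[(q : ℕ)] := ((q : ℕ) : ℚ_[(q : ℕ)]) ^ (n + 1) with hQ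
  have hQn : ‖Q‖ = qinv q ^ (n + 1) := by rw [hQ, norm_pow, Padic.norm_p]; rfl
  have hQ0 : Q ≠ 0 := fun h => hqn (by rw [← hQn, h, norm_zero])
  have hint : ∀ (w : W) σ, ‖κ w σ / Q‖ ≤ 1 := fun w σ => by
    rw [norm_div, hQn, div_le_one (pow_pos (qinv_pos q) _)]
    exact (norm_le_pi_norm _ σ).trans (hκn w)
  have hinv : ∀ (w : W) σ, κ w (rightRep L H σ) = κ w σ := by
    intro w σ
    have h1 := (hκ w).smul (rightLift L H σ)
    rw [w.1.2 _ (rightLift_mem L H σ)] at h1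
    have h2 := congrFun ((hκ w).ext h1) σ
    rw [coefAct, res_rightLift] at h2
    simpa using h2.symm
  let φ : W →+ (I → ZMod (q : ℕ)) := AddMonoidHom.mk'
    (fun w i => PadicInt.toZMod ⟨κ w i.out / Q, hint w i.out⟩) fun w v => funext fun i => by
      rw [Pi.add_apply, ← map_add, ← sub_eq_zero, ← map_sub, ← RingHom.mem_ker,
        PadicInt.ker_toZMod, IsLocalRing.mem_maximalIdeal, PadicInt.mem_nonunits, PadicInt.norm_def]
      have h1 := (hκ (w + v)).ext ((hκ w).add (hκ v))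
      simp only [PadicInt.coe_sub, PadicInt.coe_add, h1, Pi.add_apply]
      rw [show (κ w i.out + κ v i.out + D.mul (κ w) (κ v) i.out) / Q - (κ w i.out / Q + κ v i.out / Q)
        = D.mul (κ w) (κ v) i.out / Q by ring, norm_div, hQn, div_lt_one (pow_pos (qinv_pos q) _)]
      refine ((norm_le_pi_norm _ _).trans (D.norm_mul_le _ _)).trans_lt ?_
      calc ‖κ w‖ * ‖κ v‖ ≤ qinv q ^ (n + 1) * qinv q ^ (n + 1) :=
            mul_le_mul (hκn w) (hκn v) (norm_nonneg _) (pow_pos (qinv_pos q) _).le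
        _ < qinv q ^ (n + 1) * 1 :=
            mul_lt_mul_of_pos_left (qinv_pow_lt_one q n) (pow_pos (qinv_pos q) _)
        _ = _ := mul_one _
  have hker : φ.ker = (nhdFix (q := q) D H (n + 1)).addSubgroupOf W := by
    ext w
    rw [AddMonoidHom.mem_ker, AddSubgroup.mem_addSubgroupOf, mem_nhdFix]
    have hzero : ∀ i : I, φ w i = 0 ↔ ‖κ w i.out‖ < qinv q ^ (n + 1) := fun i => by
      show PadicInt.toZMod _ = 0 ↔ _
      rw [← RingHom.mem_ker, PadicInt.ker_toZMod, IsLocalRing.mem_maximalIdeal,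
        PadicInt.mem_nonunits, PadicInt.norm_def]
      simp only [norm_div, hQn, div_lt_one (pow_pos (qinv_pos q) (n + 1))]
    constructor
    · intro h
      refine ⟨κ w, hκ w, (pi_norm_le_iff_of_nonneg (pow_pos (qinv_pos q) _).le).2 fun σ => ?_⟩
      rw [← hinv]
      exact norm_lt_of_pow_lt ((hzero (Quotient.mk R σ)).1 (congrFun h _))
    · rintro ⟨c, hc, hcn⟩
      refine funext fun i => (hzero i).2 ?_
      rw [(hκ w).ext hc]
      exact ((norm_le_pi_norm c _).trans hcn).trans_lt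
        (pow_lt_pow_right_of_lt_one₀ (qinv_pos q) (qinv_lt_one q) (by omega))
  have hsurj : Function.Surjective φ := by
    intro v
    let c : Coef L q := fun σ => Q * ((v (Quotient.mk R σ)).val : ℚ_[(q : ℕ)])
    have hcn : ‖c‖ ≤ qinv q ^ (n + 1) :=
      (pi_norm_le_iff_of_nonneg (pow_pos (qinv_pos q) _).le).2 fun σ => by
        rw [norm_mul, hQn]
        refine mul_le_of_le_one_right (pow_pos (qinv_pos q) _).le ?_
        simpa using Padic.norm_int_le_one (p := (q : ℕ)) ((v (Quotient.mk R σ)).val : ℤ)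
    obtain ⟨x, hx⟩ := hex c hcn
    have hxH : x ∈ fixSub (A := Semi q) H := fun g hg => by
      refine toAlg_injective ((hx.smul g).trans ?_)
      rw [hx]
      congr 2
      funext σ
      show Q * _ = Q * _
      have e : Quotient.mk R ((L.res g)⁻¹ * σ) = Quotient.mk R σ := by
        refine Quotient.sound (QuotientGroup.rightRel_apply.mpr ?_)
        rw [mul_inv_rev, inv_inv, mul_inv_cancel_left]
        exact ⟨g, hg, rfl⟩
      rw [e]
    let w : W := ⟨⟨x, hxH⟩, c, hx, hcn⟩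
    refine ⟨w, funext fun i => ?_⟩
    show PadicInt.toZMod ⟨κ w i.out / Q, _⟩ = v i
    have e1 : κ w i.out / Q = ((v i).val : ℚ_[(q : ℕ)]) := by
      rw [(hκ w).ext hx]
      show Q * _ / Q = _
      rw [Quotient.out_eq, mul_div_cancel_left₀ _ hQ0]
    have e2 : (⟨κ w i.out / Q, hint w i.out⟩ : ℤ_[(q : ℕ)]) = ((v i).val : ℤ_[(q : ℕ)]) :=
      Subtype.ext (by rw [PadicInt.coe_natCast]; exact e1)
    rw [e2, map_natCast, ZMod.natCast_zmod_val]
  rw [AddSubgroup.relIndex, ← hker, AddSubgroup.index_ker, AddMonoidHom.range_eq_top.2 hsurj,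
    AddSubgroup.card_top, Nat.card_fun, Nat.card_zmod]
  congr 1
  have hk : (L.res).ker ≤ H := fun g hg => hH ((L.res_eq_one_iff g).1 hg)
  rw [← Subgroup.index_map_eq H L.res_surjective hk, Subgroup.index]
  exact Nat.card_congr (QuotientGroup.quotientRightRelEquivQuotientLeftRel _)

/-! ### The index -/

theorem card_semi_mod (L : Level) (q : Nat.Primes) {H : Subgroup GQ} (hH : L.grp ≤ H)
    {p : ℕ} (hp : p.Prime) {ζ : QQbar} (hζ : IsPrimitiveRoot ζ p) (hζH : ∀ s ∈ H, s ζ = ζ) :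
    Nat.card (↥(fixSub (A := Semi q) H) ⧸ (nsmulAddMonoidHom p : _ →+ ↥(fixSub (A := Semi q) H)).range)
      = p ^ (2 * Nat.card (DoubleCoset.Quotient (dec q : Set GQ) (H : Set GQ))
          + if (q : ℕ) = p then H.index else 0) := by
  classical
  obtain ⟨D⟩ := nonempty_normalData L
  set O := DoubleCoset.Quotient (dec q : Set GQ) (H : Set GQ) with hO
  haveI hOf : Finite O := by
    haveI := finite_places L q
    refine Finite.of_surjective (fun x : DoubleCoset.Quotient (dec q : Set GQ) (L.grp : Set GQ) =>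
      Quotient.liftOn' x (fun g => DoubleCoset.mk (dec q) H g) fun a b hab => ?_) fun y => ?_
    · obtain ⟨d, hd, s, hs, rfl⟩ := DoubleCoset.rel_iff.1 hab
      exact (DoubleCoset.eq _ _ _ _).2 ⟨d, hd, s, hH hs, rfl⟩
    · induction y using Quotient.inductionOn' with | h g => exact ⟨DoubleCoset.mk _ _ g, rfl⟩
  haveI := Fintype.ofFinite O
  haveI : Fact p.Prime := ⟨hp⟩
  let V := ↥(fixSub (A := Semi q) H)
  have hfixN : ∀ x : V, (x : Semi q) ∈ fixSub (A := Semi q) L.grp := fun x s hs => x.2 s (hH hs)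
  obtain ⟨M, hM0, hM⟩ := exists_norm_pow_zpow L q
  choose k hk using fun (x : V) (o : O) => hM x.1 (hfixN x) o.out
  have hq0 : ((q : ℕ) : ℝ) ≠ 0 := by exact_mod_cast q.2.ne_zero
  have hinj : ∀ a b : ℤ, ((q : ℕ) : ℝ) ^ a = ((q : ℕ) : ℝ) ^ b → a = b := fun a b h =>
    zpow_right_injective₀ (by exact_mod_cast q.2.pos) (by exact_mod_cast q.2.ne_one) h
  let ν : V →+ (O → ℤ) := AddMonoidHom.mk' k fun x y => funext fun o => hinj _ _ (by
    rw [Pi.add_apply, zpow_add₀ hq0, ← hk, ← hk, ← hk, AddSubgroup.coe_add, sval_add, norm_mul,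
      mul_pow])
  have hker : ∀ x : V, x ∈ ν.ker ↔ (x : Semi q) ∈ semiUnit q := by
    intro x
    constructor
    · intro h z
      have h1 := hk x (DoubleCoset.mk (dec q) H z)
      rw [show k x _ = 0 from congrFun h _, zpow_zero,
        pow_eq_one_iff_of_nonneg (norm_nonneg _) hM0.ne'] at h1
      obtain ⟨τ, s, hs, e⟩ := exists_loc_of_orbit (g := (DoubleCoset.mk (dec q) H z).out) (z := z)
        (DoubleCoset.out_eq' (dec q) H _)
      rw [e, sval_orbit x.2 τ _ hs, norm_gq, h1]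
    · intro h
      refine funext fun o => hinj _ _ ?_
      show _ ^ k x o = _ ^ (0 : ℤ)
      rw [← hk, h o.out, one_pow, zpow_zero]
  -- the value group has full rank
  have hA : (nsmulAddMonoidHom M : (O → ℤ) →+ (O → ℤ)).range ≤ ν.range := by
    rintro _ ⟨v, rfl⟩
    have hex : ∀ o : O, ∃ z : V, ν z = Pi.single o (M : ℤ) := by
      intro o
      obtain ⟨z, hz, hzg, -, hz1⟩ := exists_semi_value L hH o.out
        (((q : ℕ) : Kq q))⁻¹ (inv_ne_zero (Nat.cast_ne_zero.2 q.2.ne_zero))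
        fun τ _ _ _ => by simp
      refine ⟨⟨z, hz⟩, funext fun o' => hinj _ _ ?_⟩
      show _ ^ k ⟨z, hz⟩ o' = _
      rw [← hk]
      rcases eq_or_ne o' o with rfl | hne
      · rw [hzg, Pi.single_eq_same, norm_inv, norm_natCast_self, inv_inv, zpow_natCast]
      · rw [Pi.single_eq_of_ne hne, zpow_zero, hz1 _ fun h => hne (by
          rwa [DoubleCoset.out_eq', DoubleCoset.out_eq'] at h), norm_one, one_pow]
    choose z hz using hex
    refine ⟨∑ o, v o • z o, ?_⟩
    rw [map_sum]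
    simp only [map_zsmul, hz]
    funext o'
    simp [Finset.sum_apply, Pi.single_apply, mul_comm]
  haveI : NeZero M := ⟨hM0.ne'⟩
  have hAidx : ν.range.relIndex ⊤ ≠ 0 := by
    rw [AddSubgroup.relIndex_top_right]
    exact ne_zero_of_dvd_ne_zero (by rw [index_nsmul_pi]; exact pow_ne_zero _ hM0.ne')
      (AddSubgroup.index_dvd_of_le hA)
  have htfZ : ∀ z : O → ℤ, p • z = 0 → z = 0 := fun z h => funext fun o => by
    have := congrFun h o
    simpa [hp.ne_zero] using this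
  have hA' : (ν.range.map (nsmulAddMonoidHom p)).relIndex ν.range = p ^ Nat.card O := by
    have h := relIndex_nsmul_of_finiteIndex p (le_top : ν.range ≤ ⊤) hAidx fun w _ hw => htfZ w hw
    rw [← AddMonoidHom.range_eq_map, AddSubgroup.relIndex_top_right, index_nsmul_pi, top_inf_eq,
      show (nsmulAddMonoidHom p : (O → ℤ) →+ (O → ℤ)).ker = ⊥ from
        eq_bot_iff.2 fun w hw => htfZ w hw, AddSubgroup.card_bot, one_mul] at h
    exact h.symm
  -- the units
  set a := padicValNat (q : ℕ) p with ha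
  have hpa : ‖(p : ℚ_[(q : ℕ)])‖ = qinv q ^ a := by
    rw [Padic.norm_eq_zpow_neg_valuation (Nat.cast_ne_zero.2 hp.ne_zero), Padic.valuation_natCast,
      ← ha, qinv, inv_pow, zpow_neg, zpow_natCast]
  obtain ⟨n, hn, hex, htf, hmap⟩ := exists_nhdFix_nsmul D H (a := a) hp.ne_zero hpa
  have hWK : nhdFix (q := q) D H n ≤ ν.ker := fun w hw => (hker w).2 (hn hw)
  have hWidx : (nhdFix (q := q) D H n).relIndex ν.ker ≠ 0 := by
    haveI := finite_unit_quotient D q hn
    rw [nhdFix, AddSubgroup.relIndex_comap]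
    refine fun h0 => ?_
    have := AddSubgroup.relIndex_eq_zero_of_le_right (L := semiUnit q ⊓ fixSub (A := Semi q) L.grp)
      (by rintro _ ⟨w, hw, rfl⟩; exact ⟨(hker w).1 hw, hfixN w⟩) h0
    rw [AddSubgroup.relIndex] at this
    exact AddSubgroup.FiniteIndex.index_ne_zero (H := (nhd D q n).addSubgroupOf _)
      (self := AddSubgroup.finiteIndex_of_finite_quotient) this
  have hU := relIndex_nsmul_of_finiteIndex p hWK hWidx htf
  have htors : Nat.card ↥(ν.ker ⊓ (nsmulAddMonoidHom p : V →+ V).ker) = p ^ Nat.card O := by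
    rw [← card_semi_torsion L q hH hp hζ hζH]
    refine Nat.card_congr
      { toFun := fun x => ⟨x.1.1, x.1.2, congrArg Subtype.val x.2.2⟩
        invFun := fun x => ⟨⟨x.1, x.2.1⟩, (hker _).2 ?_, Subtype.ext x.2.2⟩
        left_inv := fun x => rfl
        right_inv := fun x => rfl }
    intro g
    have h1 : ‖sval x.1 g‖ ^ p = 1 := by rw [← norm_pow, ← sval_nsmul, x.2.2, sval_zero, norm_one]
    exact (pow_eq_one_iff_of_nonneg (norm_nonneg _) hp.ne_zero).1 h1
  have hlayer : ((nhdFix (q := q) D H n).map (nsmulAddMonoidHom p)).relIndex (nhdFix D H n)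
      = p ^ (if (q : ℕ) = p then H.index else 0) := by
    rw [hmap]
    split_ifs with hqp
    · have : a = 1 := by rw [ha, hqp]; exact padicValNat_self
      rw [this, relIndex_nhdFix_succ D hH hex, hqp]
    · have : a = 0 := by
        rw [ha]
        exact padicValNat.eq_zero_of_not_dvd fun h => hqp ((Nat.prime_dvd_prime_iff_eq q.2 hp).1 h)
      rw [this, Nat.add_zero, AddSubgroup.relIndex_self, pow_zero]
  rw [← AddSubgroup.index_eq_card, index_nsmul_of_hom p ν htfZ, hA', hU, htors, hlayer, ← pow_add,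
    ← pow_add]
  congr 1
  ring

end FLTAgent.Global
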