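import Fermat.Agent.Global.Cochain

/-!
Successive approximation: vanishing of `H¹` and `H²` for complete filtered modules.
-/

set_option autoImplicit false

namespace FLTAgent.Semilocal

open Finset FLTAgent.Global

variable {Γ : Type*} [Group Γ] {A : Type*} [AddCommGroup A] [DistribMulAction Γ A]
variable {H N : Subgroup Γ}

/-- A separated complete filtration by `H`-stable subgroups fixed by `N`. -/
structure CompleteFiltration (H N : Subgroup Γ) (F : ℕ → AddSubgroup A) : Prop where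
  antitone : Antitone F
  stable : ∀ n, ∀ g ∈ H, ∀ a ∈ F n, g • a ∈ F n
  fixed : ∀ a ∈ F 0, ∀ s ∈ N, s • a = a
  separated : ∀ a, (∀ n, a ∈ F n) → a = 0
  complete : ∀ x : ℕ → A, (∀ i, x i ∈ F i) → ∃ y, ∀ n, y - ∑ i ∈ range n, x i ∈ F n

/-- Approximate vanishing in degree one implies vanishing. -/
theorem exists_filtered_primitive₁ {F : ℕ → AddSubgroup A} (hF : CompleteFiltration H N F)
    (hN : Lvl H N)
    (step : ∀ n, ∀ f : Γ → A, IsZ1 H N f → (∀ g ∈ H, f g ∈ F n) →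
      ∃ a ∈ F n, ∀ g ∈ H, f g - dd0 a g ∈ F (n + 1))
    {f : Γ → A} (hf : IsZ1 H N f) (hf0 : ∀ g ∈ H, f g ∈ F 0) :
    ∃ a ∈ F 0, ∀ g ∈ H, f g = dd0 a g := by
  let P : ℕ → Type _ := fun n => {f : Γ → A // IsZ1 H N f ∧ ∀ g ∈ H, f g ∈ F n}
  have hstep : ∀ n (f₀ : P n), ∃ (a : A) (f₁ : P (n + 1)),
      a ∈ F n ∧ ∀ g ∈ H, f₀.1 g = f₁.1 g + dd0 a g := by
    rintro n ⟨f₀, hz, hv⟩
    obtain ⟨a, ha, ha'⟩ := step n f₀ hz hv
    refine ⟨a, ⟨fun g => f₀ g - dd0 a g, ⟨fun g hg s hs => ?_, fun g hg h hh => ?_⟩, ha'⟩, ha,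
      fun g _ => by simp⟩
    · simp [hz.1 g hg s hs, dd0, mul_smul, hF.fixed a (hF.antitone n.zero_le ha) s hs]
    · simp only [hz.2 g hg h hh, dd0, smul_sub, mul_smul]; abel
  choose X Nx hX hNx using hstep
  let seq : ∀ n, P n := fun n => Nat.rec (motive := P) ⟨f, hf, hf0⟩ (fun i f₀ => Nx i f₀) n
  obtain ⟨y, hy⟩ := hF.complete (fun i => X i (seq i)) fun i => hX i _
  refine ⟨y, by simpa using hy 0, fun g hg => ?_⟩
  refine sub_eq_zero.mp (hF.separated _ fun n => ?_)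
  have htel : ∀ n, f g = (seq n).1 g + dd0 (∑ i ∈ range n, X i (seq i)) g := by
    intro n
    induction n with
    | zero => simp [seq, dd0]
    | succ n ih =>
      rw [ih, hNx n (seq n) g hg, sum_range_succ]
      simp only [dd0, smul_add]
      show (seq (n + 1)).1 g + _ + _ = _
      abel
  rw [htel n, show ∀ s z : A, z + dd0 s g - dd0 y g = z - dd0 (y - s) g from
    fun s z => by simp only [dd0, smul_sub]; abel]
  exact sub_mem ((seq n).2.2 g hg) (sub_mem (hF.stable n g hg _ (hy n)) (hy n))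

/-- Approximate vanishing in degree two implies vanishing. -/
theorem exists_filtered_primitive₂ {F : ℕ → AddSubgroup A} (hF : CompleteFiltration H N F)
    (hN : Lvl H N)
    (step : ∀ n, ∀ c : Γ → Γ → A, IsZ2 H N c → (∀ g ∈ H, ∀ h ∈ H, c g h ∈ F n) →
      ∃ b : Γ → A, IsLvl1 H N b ∧ (∀ g ∈ H, b g ∈ F n) ∧
        ∀ g ∈ H, ∀ h ∈ H, c g h - dd1 b g h ∈ F (n + 1))
    {c : Γ → Γ → A} (hc : IsZ2 H N c) (hc0 : ∀ g ∈ H, ∀ h ∈ H, c g h ∈ F 0) :
    ∃ b : Γ → A, IsLvl1 H N b ∧ (∀ g ∈ H, b g ∈ F 0) ∧ ∀ g ∈ H, ∀ h ∈ H, c g h = dd1 b g h := by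
  classical
  let P : ℕ → Type _ := fun n => {c : Γ → Γ → A // IsZ2 H N c ∧ ∀ g ∈ H, ∀ h ∈ H, c g h ∈ F n}
  have hstep : ∀ n (c₀ : P n), ∃ (b : Γ → A) (c₁ : P (n + 1)),
      (IsLvl1 H N b ∧ ∀ g ∈ H, b g ∈ F n) ∧
        ∀ g ∈ H, ∀ h ∈ H, c₀.1 g h = c₁.1 g h + dd1 b g h := by
    rintro n ⟨c₀, hz, hv⟩
    obtain ⟨b, hb, hbv, hb'⟩ := step n c₀ hz hv
    exact ⟨b, ⟨fun g h => c₀ g h - dd1 b g h, hz.sub (isZ2_dd1 hN hb
      fun g hg s hs => hF.fixed _ (hF.antitone n.zero_le (hbv g hg)) s hs), hb'⟩, ⟨hb, hbv⟩,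
      fun g _ h _ => by simp⟩
  choose X Nx hX hNx using hstep
  let seq : ∀ n, P n := fun n => Nat.rec (motive := P) ⟨c, hc, hc0⟩ (fun i c₀ => Nx i c₀) n
  -- complete along coset representatives
  have hcpl : ∀ g, ∃ y, g ∈ H → ∀ n, y - ∑ i ∈ range n, X i (seq i) g ∈ F n := fun g => by
    by_cases hg : g ∈ H
    · obtain ⟨y, hy⟩ := hF.complete (fun i => X i (seq i) g) fun i => (hX i _).2 g hg
      exact ⟨y, fun _ => hy⟩
    · exact ⟨0, fun h => absurd h hg⟩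
  choose y hy using hcpl
  have hlvl : IsLvl1 H N y := fun g hg s hs => by
    refine sub_eq_zero.mp (hF.separated _ fun n => ?_)
    have e : ∑ i ∈ range n, X i (seq i) (g * s) = ∑ i ∈ range n, X i (seq i) g :=
      sum_congr rfl fun i _ => (hX i _).1 g hg s hs
    rw [← sub_sub_sub_cancel_right _ _ (∑ i ∈ range n, X i (seq i) g)]
    nth_rw 1 [← e]
    exact sub_mem (hy (g * s) (mul_mem hg (hN.le hs)) n) (hy g hg n)
  refine ⟨y, hlvl, fun g hg => by simpa using hy g hg 0, fun g hg h hh => ?_⟩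
  refine sub_eq_zero.mp (hF.separated _ fun n => ?_)
  set p : Γ → A := fun g => ∑ i ∈ range n, X i (seq i) g with hp
  have htel : ∀ n, c g h = (seq n).1 g h + dd1 (fun g => ∑ i ∈ range n, X i (seq i) g) g h := by
    intro n
    induction n with
    | zero => simp [seq, dd1]
    | succ n ih =>
      rw [ih, hNx n (seq n) g hg h hh]
      simp only [dd1, sum_range_succ, smul_add]
      show (seq (n + 1)).1 g h + _ + _ = _
      abel
  rw [htel n, ← hp, show ∀ z : A, z + dd1 p g h - dd1 y g h = z - dd1 (y - p) g h from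
    fun z => by simp only [dd1, Pi.sub_apply, smul_sub]; abel]
  refine sub_mem ((seq n).2.2 g hg h hh) ?_
  simp only [dd1, Pi.sub_apply]
  exact add_mem (sub_mem (hF.stable n g hg _ (hy h hh n)) (hy (g * h) (mul_mem hg hh) n))
    (hy g hg n)

end FLTAgent.Semilocal
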