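import Fermat.Prelude.Def_GaloisRep_CompletionBridge
import Fermat.Agent.Global.Semilocal.Acyclic

/-!
The semilocal algebra `ℚ̄ ⊗ ℚ_q` as equivariant functions `G_ℚ → ℚ̄_q`.
-/

set_option autoImplicit false

namespace FLTAgent.Semilocal

open FLTAgent.Global

local notation "Qb" => AlgebraicClosure ℚ
local notation "Γℚ" => AlgebraicClosure ℚ ≃ₐ[ℚ] AlgebraicClosure ℚ

variable (q : ℕ) [Fact q.Prime]

/-- Functions `f : G_ℚ → ℚ̄_q` with `f (loc τ * g) = τ (f g)`. -/
noncomputable def semilocalAlg : Subalgebra ℚ_[q] (Γℚ → PadicAlgCl q) where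
  carrier := {f | ∀ (τ : PadicAlgCl q ≃ₐ[ℚ_[q]] PadicAlgCl q) (g : Γℚ),
    f (localGaloisToGlobal q τ * g) = τ (f g)}
  mul_mem' ha hb τ g := by simp only [Pi.mul_apply, ha τ g, hb τ g, map_mul]
  one_mem' τ g := by simp
  add_mem' ha hb τ g := by simp only [Pi.add_apply, ha τ g, hb τ g, map_add]
  zero_mem' τ g := by simp
  algebraMap_mem' r τ g := by simp

variable {q}

lemma mem_semilocalAlg_iff {f : Γℚ → PadicAlgCl q} :
    f ∈ semilocalAlg q ↔ ∀ (τ : PadicAlgCl q ≃ₐ[ℚ_[q]] PadicAlgCl q) (g : Γℚ),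
      f (localGaloisToGlobal q τ * g) = τ (f g) := Iff.rfl

/-- Right translation. -/
noncomputable def translateFun (g : Γℚ) (f : semilocalAlg q) : semilocalAlg q :=
  ⟨fun x => (f : Γℚ → PadicAlgCl q) (x * g), fun τ x => by
    show (f : Γℚ → PadicAlgCl q) _ = τ ((f : Γℚ → PadicAlgCl q) _)
    rw [mul_assoc]; exact f.2 τ (x * g)⟩

noncomputable instance semilocalSMul : SMul Γℚ (semilocalAlg q) := ⟨translateFun⟩

@[simp] lemma smul_semilocal_apply (g : Γℚ) (f : semilocalAlg q) (x : Γℚ) :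
    ((g • f : semilocalAlg q) : Γℚ → PadicAlgCl q) x = (f : Γℚ → PadicAlgCl q) (x * g) := rfl

noncomputable instance semilocalAction : MulSemiringAction Γℚ (semilocalAlg q) where
  one_smul f := by ext x; simp
  mul_smul g h f := by ext x; simp [mul_assoc]
  smul_zero g := by ext x; simp
  smul_add g a b := by ext x; simp
  smul_one g := by ext x; simp
  smul_mul g a b := by ext x; simp

/-- The `N`-fixed part: for `N = G_F` this is `F ⊗ ℚ_q`. -/
noncomputable def semilocalFixed (q : ℕ) [Fact q.Prime] (N : Subgroup Γℚ) :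
    Subalgebra ℚ_[q] (semilocalAlg q) where
  carrier := {f | ∀ s ∈ N, s • f = f}
  mul_mem' ha hb s hs := by rw [smul_mul', ha s hs, hb s hs]
  one_mem' s _ := smul_one s
  add_mem' ha hb s hs := by rw [smul_add, ha s hs, hb s hs]
  zero_mem' s _ := smul_zero s
  algebraMap_mem' r s _ := by ext x; rfl

/-- The diagonal embedding of `ℚ̄`. -/
noncomputable def diag (x : Qb) : semilocalAlg q :=
  ⟨fun g => padicEmbedding q (g x), fun τ g => by
    show padicEmbedding q ((localGaloisToGlobal q τ * g) x) = τ (padicEmbedding q (g x))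
    rw [AlgEquiv.mul_apply]
    exact padicEmbedding_localGaloisToGlobal q τ (g x)⟩

@[simp] lemma diag_apply (x : Qb) (g : Γℚ) :
    ((diag x : semilocalAlg q) : Γℚ → PadicAlgCl q) g = padicEmbedding q (g x) := rfl

lemma diag_smul (g : Γℚ) (x : Qb) : (g • diag x : semilocalAlg q) = diag (g x) := by
  ext h; simp [AlgEquiv.mul_apply]

lemma diag_add (x y : Qb) : (diag (x + y) : semilocalAlg q) = diag x + diag y := by
  ext h; simp

lemma diag_mul (x y : Qb) : (diag (x * y) : semilocalAlg q) = diag x * diag y := by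
  ext h; simp

lemma diag_mem_fixed {F : IntermediateField ℚ Qb} {x : Qb} (hx : x ∈ F) :
    diag x ∈ semilocalFixed q F.fixingSubgroup := fun s hs => by
  rw [diag_smul, (IntermediateField.mem_fixingSubgroup_iff _ _).mp hs x hx]

end FLTAgent.Semilocal
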