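import Fermat.Agent.Global.Semilocal.LocalResidue

/-!
Norms and traces on the integers of an unramified completion.
-/

set_option autoImplicit false

noncomputable section

namespace FLTAgent.Global

variable {L : Level} {q : Nat.Primes}

lemma isCyclic_locGal (hF : ResFaithful L q) : IsCyclic (LocGal L q) := by
  haveI := finite_resField L q
  exact isCyclic_of_injective _ (resGal_injective hF)

variable (L q) in
/-- On `G` only the identity acts trivially on the residues. -/
def ResFaithfulOn (G : Subgroup (LocGal L q)) : Prop :=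
  ∀ σ ∈ G, (∀ y : valField L q, ‖(y : Kq q)‖ ≤ 1 → ‖((σ y : Kq q)) - y‖ < 1) → σ = 1

lemma ResFaithful.on (hF : ResFaithful L q) (G : Subgroup (LocGal L q)) : ResFaithfulOn L q G :=
  fun σ _ h => hF σ h

lemma resGal_injective_on {G : Subgroup (LocGal L q)} (hG : ResFaithfulOn L q G) :
    Function.Injective (resGal.comp G.subtype) := by
  rw [injective_iff_map_eq_one]
  rintro ⟨σ, hσ⟩ h
  refine Subtype.ext (hG σ hσ fun y hy => ?_)
  have h1 := DFunLike.congr_fun h (res₀ ⟨y, hy⟩)
  rw [MonoidHom.comp_apply, Subgroup.subtype_apply, resGal_mk, AlgEquiv.one_apply,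
    Ideal.Quotient.eq] at h1
  exact h1

lemma isCyclic_of_resFaithfulOn {G : Subgroup (LocGal L q)} (hG : ResFaithfulOn L q G) :
    IsCyclic G := by
  haveI := finite_resField L q
  exact isCyclic_of_injective _ (resGal_injective_on hG)

open scoped Classical in
lemma exists_res_trace_ne_zero {G : Subgroup (LocGal L q)} (hG : ResFaithfulOn L q G) :
    ∃ v : ResField L q, ∑ σ : G, resGal (σ : LocGal L q) v ≠ 0 := by
  by_contra h
  push Not at h
  have hinj : Function.Injective fun σ : G =>
      ((resGal (σ : LocGal L q) : ResField L q →+* ResField L q) : ResField L q →* ResField L q) :=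
    fun σ τ hστ => resGal_injective_on hG (AlgEquiv.ext fun x => DFunLike.congr_fun hστ x)
  have hli := (linearIndependent_monoidHom (ResField L q) (ResField L q)).comp _ hinj
  have h0 := Fintype.linearIndependent_iff.mp hli (fun _ => 1) (funext fun v => by simpa using h v) 1
  exact one_ne_zero h0

open scoped Classical in
/-- Existence of an integral element of trace `1`. -/
theorem exists_trace_one {G : Subgroup (LocGal L q)} (hG : ResFaithfulOn L q G) :
    ∃ z : valInt L q, ∑ σ : G, ((σ : LocGal L q) (z : valField L q)) = 1 := by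
  obtain ⟨v, hv⟩ := exists_res_trace_ne_zero hG
  obtain ⟨y, rfl⟩ := Ideal.Quotient.mk_surjective (I := valMax L q) v
  set S : valInt L q := ∑ σ : G, galInt (σ : LocGal L q) y with hS
  have hS0 : res₀ S ≠ 0 := by
    rw [hS]
    show Ideal.Quotient.mk (valMax L q) _ ≠ 0
    rw [map_sum]
    exact hv
  have hS1 := norm_eq_one_of_res₀_ne_zero hS0
  have hSf : ∀ τ : G, (τ : LocGal L q) (S : valField L q) = S := fun τ => by
    rw [hS, AddSubmonoidClass.coe_finsetSum, map_sum]
    exact Fintype.sum_equiv (Equiv.mulLeft τ) _ _ fun σ => rfl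
  have hS0' : (S : valField L q) ≠ 0 := fun h => by simp [h] at hS1
  refine ⟨⟨(y : valField L q) / S, ?_⟩, ?_⟩
  · show ‖(((y : valField L q) / S : valField L q) : Kq q)‖ ≤ 1
    rw [IntermediateField.coe_div, norm_div, hS1, div_one]
    exact y.2
  · simp only [map_div₀, hSf, ← Finset.sum_div]
    rw [div_eq_one_iff_eq hS0', hS, AddSubmonoidClass.coe_finsetSum]
    rfl

open scoped Classical in
lemma exists_res_norm_eq {G : Subgroup (LocGal L q)} (hG : ResFaithfulOn L q G) {v : ResField L q}
    (hv : ∀ σ : G, resGal (σ : LocGal L q) v = v) :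
    ∃ w : ResField L q, ∏ σ : G, resGal (σ : LocGal L q) w = v := by
  haveI := finite_resField L q
  set G' := G.map resGal with hG'
  set k' := IntermediateField.fixedField G' with hk'
  have hfix : k'.fixingSubgroup = G' := IntermediateField.fixingSubgroup_fixedField G'
  have hvk : v ∈ k' := by
    rw [hk', IntermediateField.mem_fixedField_iff]
    rintro _ ⟨σ, hσ, rfl⟩
    exact hv ⟨σ, hσ⟩
  haveI : IsGalois k' (ResField L q) := inferInstance
  obtain ⟨w, hw⟩ := FiniteField.norm_surjective k' (ResField L q) ⟨v, hvk⟩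
  refine ⟨w, ?_⟩
  have h1 := Algebra.norm_eq_prod_automorphisms k' w
  rw [hw] at h1
  have hin : ∀ σ : G, resGal (σ : LocGal L q) ∈ k'.fixingSubgroup := fun σ => by
    rw [hfix]; exact ⟨σ, σ.2, rfl⟩
  let e : G → (ResField L q ≃ₐ[k'] ResField L q) := fun σ =>
    IntermediateField.fixingSubgroupEquiv k' ⟨_, hin σ⟩
  have hbij : Function.Bijective e := by
    constructor
    · intro σ τ h
      exact resGal_injective_on hG
        (congrArg Subtype.val ((IntermediateField.fixingSubgroupEquiv k').injective h))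
    · intro f
      obtain ⟨⟨g, hg⟩, rfl⟩ := (IntermediateField.fixingSubgroupEquiv k').surjective f
      have hg' := hg
      rw [hfix] at hg'
      obtain ⟨σ, hσ, rfl⟩ := hg'
      exact ⟨⟨σ, hσ⟩, rfl⟩
  rw [show v = algebraMap k' (ResField L q) ⟨v, hvk⟩ from rfl, h1]
  exact Fintype.prod_bijective e hbij _ _ fun σ => rfl

lemma norm_prod_one_add_sub_le {ι : Type*} (s : Finset ι) (a : ι → Kq q) {r : ℝ} (hr0 : 0 ≤ r)
    (hr1 : r ≤ 1) (ha : ∀ i ∈ s, ‖a i‖ ≤ r) :
    ‖∏ i ∈ s, (1 + a i) - 1‖ ≤ r ∧ ‖∏ i ∈ s, (1 + a i) - (1 + ∑ i ∈ s, a i)‖ ≤ r * r := by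
  classical
  induction s using Finset.induction_on with
  | empty => simp [hr0, mul_self_nonneg]
  | insert i s hi ih =>
    obtain ⟨h1, h2⟩ := ih fun j hj => ha j (Finset.mem_insert_of_mem hj)
    have hai := ha i (Finset.mem_insert_self i s)
    set P := ∏ j ∈ s, (1 + a j)
    rw [Finset.prod_insert hi, Finset.sum_insert hi]
    have hm : ‖a i * (P - 1)‖ ≤ r * r := by
      rw [norm_mul]; exact mul_le_mul hai h1 (norm_nonneg _) hr0
    refine ⟨?_, ?_⟩
    · rw [show (1 + a i) * P - 1 = (P - 1) + a i + a i * (P - 1) by ring]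
      refine (IsUltrametricDist.norm_add_le_max _ _).trans (max_le
        ((IsUltrametricDist.norm_add_le_max _ _).trans (max_le h1 hai))
        (hm.trans (mul_le_of_le_one_left hr0 hr1)))
    · rw [show (1 + a i) * P - (1 + (a i + ∑ j ∈ s, a j))
        = (P - (1 + ∑ j ∈ s, a j)) + a i * (P - 1) by ring]
      exact (IsUltrametricDist.norm_add_le_max _ _).trans (max_le h2 hm)

open scoped Classical in
/-- Norm from the completion to the fixed field of `G`. -/
def locNorm (G : Subgroup (LocGal L q)) (y : valField L q) : valField L q :=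
  ∏ σ : G, (σ : LocGal L q) y

open scoped Classical in
lemma locNorm_fixed (G : Subgroup (LocGal L q)) (y : valField L q) (τ : G) :
    (τ : LocGal L q) (locNorm G y) = locNorm G y := by
  rw [locNorm, map_prod]
  exact Fintype.prod_equiv (Equiv.mulLeft τ) _ _ fun σ => rfl

lemma locNorm_mul (G : Subgroup (LocGal L q)) (a b : valField L q) :
    locNorm G (a * b) = locNorm G a * locNorm G b := by
  classical
  simp only [locNorm, map_mul, Finset.prod_mul_distrib]

lemma norm_locNorm (G : Subgroup (LocGal L q)) (y : valField L q) (hy : ‖(y : Kq q)‖ = 1) :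
    ‖(locNorm G y : Kq q)‖ = 1 := by
  classical
  rw [locNorm, SubmonoidClass.coe_finsetProd, norm_prod]
  exact Finset.prod_eq_one fun σ _ => by rw [norm_locGal, hy]

/-- Norm surjectivity on principal units, one step. -/
lemma exists_norm_step {G : Subgroup (LocGal L q)} (hG : ResFaithfulOn L q G) {r : ℝ} (hr : r < 1)
    {x : valField L q} (hx : ∀ σ : G, (σ : LocGal L q) x = x)
    (hx1 : ‖(x : Kq q) - 1‖ ≤ r) :
    ∃ y : valField L q, ‖(y : Kq q) - 1‖ ≤ r ∧
      ‖((x / locNorm G y : valField L q) : Kq q) - 1‖ ≤ r * r := by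
  classical
  obtain ⟨z, hz⟩ := exists_trace_one hG
  set w : valField L q := x - 1 with hw
  have hwn : ‖(w : Kq q)‖ ≤ r := by rw [hw]; simpa using hx1
  set y : valField L q := 1 + (z : valField L q) * w with hy
  have hyn : ‖(y : Kq q) - 1‖ ≤ r := by
    rw [hy]
    simp only [AddMemClass.coe_add, OneMemClass.coe_one, MulMemClass.coe_mul, add_sub_cancel_left,
      norm_mul]
    exact (mul_le_of_le_one_left (norm_nonneg _) z.2).trans hwn
  refine ⟨y, hyn, ?_⟩
  have ha : ∀ σ : G, ((σ : LocGal L q) y : Kq q)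
      = 1 + ((σ : LocGal L q) (z : valField L q) : Kq q) * (w : Kq q) := fun σ => by
    rw [hy, map_add, map_one, map_mul, show (σ : LocGal L q) w = w by rw [hw, map_sub, hx σ, map_one]]
    simp
  have hP : (locNorm G y : Kq q)
      = ∏ σ : G, (1 + ((σ : LocGal L q) (z : valField L q) : Kq q) * (w : Kq q)) := by
    rw [locNorm, SubmonoidClass.coe_finsetProd]
    exact Finset.prod_congr rfl fun σ _ => ha σ
  have hbd := norm_prod_one_add_sub_le (Finset.univ : Finset G)
    (fun σ : G => ((σ : LocGal L q) (z : valField L q) : Kq q) * (w : Kq q))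
    (norm_nonneg (w : Kq q)) (hwn.trans hr.le)
    (fun σ _ => by
      rw [norm_mul]
      exact mul_le_of_le_one_left (norm_nonneg _) ((norm_locGal _ _).le.trans z.2))
  have hsum : ∑ σ : G, ((σ : LocGal L q) (z : valField L q) : Kq q) * (w : Kq q) = w := by
    rw [← Finset.sum_mul]
    have := congrArg (fun t : valField L q => (t : Kq q)) hz
    simp only [AddSubmonoidClass.coe_finsetSum, OneMemClass.coe_one] at this
    rw [this, one_mul]
  rw [hsum, ← hP, show (1 : Kq q) + (w : Kq q) = (x : Kq q) by rw [hw]; simp] at hbd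
  have hlt : ‖(locNorm G y : Kq q) - 1‖ < 1 :=
    (hbd.1.trans hwn).trans_lt hr
  have h1 : ‖(locNorm G y : Kq q)‖ = 1 := by
    rw [show (locNorm G y : Kq q) = 1 + ((locNorm G y : Kq q) - 1) by ring,
      IsUltrametricDist.norm_add_eq_max_of_norm_ne_norm (by rw [norm_one]; exact hlt.ne'), norm_one,
      max_eq_left hlt.le]
  rw [IntermediateField.coe_div, div_sub_one (fun h => by simp [h] at h1), norm_div, h1, div_one,
    norm_sub_rev]
  exact hbd.2.trans (mul_le_mul hwn hwn (norm_nonneg _) ((norm_nonneg _).trans hwn))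

open scoped Classical in
/-- Norm surjectivity on units. -/
theorem exists_locNorm_eq {G : Subgroup (LocGal L q)} (hG : ResFaithfulOn L q G) {x : valField L q}
    (hx : ∀ σ : G, (σ : LocGal L q) x = x) (hx1 : ‖(x : Kq q)‖ = 1) :
    ∃ y : valField L q, ‖(y : Kq q)‖ = 1 ∧ locNorm G y = x := by
  -- the residue
  obtain ⟨w, hw⟩ := exists_res_norm_eq hG (v := res₀ ⟨x, hx1.le⟩) fun σ => by
    rw [resGal_mk]; congr 1; exact Subtype.ext (hx σ)
  obtain ⟨y₀, rfl⟩ := Ideal.Quotient.mk_surjective (I := valMax L q) w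
  have hx0 : res₀ ⟨x, hx1.le⟩ ≠ 0 := fun h => by
    have := res₀_eq_zero.mp h
    simp only at this
    rw [hx1] at this
    exact lt_irrefl _ this
  have hy₀ : ‖((y₀ : valField L q) : Kq q)‖ = 1 := by
    refine norm_eq_one_of_res₀_ne_zero fun h => hx0 ?_
    rw [← hw]
    exact Finset.prod_eq_zero (Finset.mem_univ 1) (by
      show resGal _ (res₀ y₀) = 0
      rw [h, map_zero])
  let P₀ : valInt L q := ∏ σ : G, galInt (σ : LocGal L q) y₀
  have hP₀ : (P₀ : valField L q) = locNorm G y₀ := by
    simp only [P₀, locNorm, SubmonoidClass.coe_finsetProd]; rfl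
  have hres : res₀ P₀ = res₀ ⟨x, hx1.le⟩ := by
    show Ideal.Quotient.mk (valMax L q) _ = _
    rw [map_prod]
    exact hw
  rw [Ideal.Quotient.eq, mem_valMax] at hres
  have hN₀ := norm_locNorm G (y₀ : valField L q) hy₀
  set x₁ : valField L q := x / locNorm G y₀ with hx₁
  have hx₁1 : ‖(x₁ : Kq q) - 1‖ < 1 := by
    rw [hx₁, IntermediateField.coe_div, div_sub_one (fun h => by simp [h] at hN₀), norm_div, hN₀,
      div_one, norm_sub_rev, ← hP₀]
    simpa using hres
  set r : ℝ := ‖(x₁ : Kq q) - 1‖ with hr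
  have hr0 : 0 ≤ r := norm_nonneg _
  have hr1 : r < 1 := hx₁1
  have hrn : ∀ n, r ^ (n + 1) < 1 := fun n => pow_lt_one₀ hr0 hr1 n.succ_ne_zero
  let T : ℕ → Type := fun n => {z : valField L q //
    (∀ σ : G, (σ : LocGal L q) z = z) ∧ ‖(z : Kq q) - 1‖ ≤ r ^ (n + 1)}
  have hfixdiv : ∀ (z y : valField L q), (∀ σ : G, (σ : LocGal L q) z = z) →
      ∀ σ : G, (σ : LocGal L q) (z / locNorm G y) = z / locNorm G y := fun z y hz σ => by
    rw [map_div₀, hz σ, locNorm_fixed]
  have hone : ∀ z : valField L q, ‖(z : Kq q) - 1‖ < 1 → ‖(z : Kq q)‖ = 1 := fun z hz => by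
    rw [show (z : Kq q) = 1 + ((z : Kq q) - 1) by ring,
      IsUltrametricDist.norm_add_eq_max_of_norm_ne_norm (by rw [norm_one]; exact hz.ne'), norm_one,
      max_eq_left hz.le]
  have hstep : ∀ n (z : T n), ∃ (y : valField L q) (z' : T (n + 1)),
      ‖(y : Kq q) - 1‖ ≤ r ^ (n + 1) ∧ z.1 = z'.1 * locNorm G y := by
    rintro n ⟨z, hz, hzn⟩
    obtain ⟨y, hy, hy'⟩ := exists_norm_step hG (hrn n) hz hzn
    have hy'' : ‖((z / locNorm G y : valField L q) : Kq q) - 1‖ ≤ r ^ (n + 1 + 1) :=
      hy'.trans (by rw [← pow_add]; exact pow_le_pow_of_le_one hr0 hr1.le (by omega))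
    refine ⟨y, ⟨z / locNorm G y, hfixdiv z y hz, hy''⟩, hy, (div_mul_cancel₀ _ fun h => ?_).symm⟩
    have h1 := norm_locNorm G y (hone y (hy.trans_lt (hrn n)))
    simp [h] at h1
  choose Y Z hY hZ using hstep
  let seq : ∀ n, T n := fun n =>
    Nat.rec (motive := T) ⟨x₁, hfixdiv x _ hx, le_of_eq (pow_one r).symm⟩ (fun i z => Z i z) n
  let P : ℕ → valField L q := fun n => ∏ i ∈ Finset.range n, Y i (seq i)
  have hPn : ∀ n, ‖(P n : Kq q)‖ = 1 := fun n => by
    simp only [P, SubmonoidClass.coe_finsetProd, norm_prod]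
    exact Finset.prod_eq_one fun i _ => hone _ ((hY i _).trans_lt (hrn i))
  have htel : ∀ n, x₁ = (seq n).1 * locNorm G (P n) := by
    intro n
    induction n with
    | zero => simp [P, seq, locNorm]
    | succ n ih =>
      rw [ih, hZ n (seq n)]
      simp only [P, Finset.prod_range_succ, locNorm_mul]
      show (seq (n + 1)).1 * _ * _ = _
      ring
  have hdiff : ∀ n, ‖(P (n + 1) : Kq q) - (P n : Kq q)‖ ≤ r ^ (n + 1) := fun n => by
    have e : (P (n + 1) : Kq q) - (P n : Kq q)
        = (P n : Kq q) * ((Y n (seq n) : Kq q) - 1) := by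
      simp only [P, Finset.prod_range_succ, MulMemClass.coe_mul]
      ring
    rw [e, norm_mul, hPn, one_mul]
    exact hY n _
  haveI : CompleteSpace (valField L q) :=
    FiniteDimensional.complete ℚ_[(q : ℕ)] (valField L q)
  have hC : CauchySeq P := by
    refine cauchySeq_of_le_geometric r r hr1 fun n => ?_
    rw [dist_comm, dist_eq_norm, ← pow_succ']
    exact hdiff n
  obtain ⟨l, hl⟩ := cauchySeq_tendsto_of_complete hC
  have hcont : Filter.Tendsto (fun n => ((P n : valField L q) : Kq q)) Filter.atTop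
      (nhds (l : Kq q)) := (continuous_subtype_val.tendsto l).comp hl
  have hlnorm : ‖(l : Kq q)‖ = 1 :=
    tendsto_nhds_unique (hcont.norm) (by simpa [hPn] using tendsto_const_nhds)
  have hNcont : Filter.Tendsto (fun n => ((locNorm G (P n) : valField L q) : Kq q)) Filter.atTop
      (nhds ((locNorm G l : valField L q) : Kq q)) := by
    simp only [locNorm, SubmonoidClass.coe_finsetProd]
    refine tendsto_finsetProd _ fun σ _ => ?_
    obtain ⟨τ, hτ⟩ := exists_lift_locGal (σ : LocGal L q)
    simp only [← hτ]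
    refine (Continuous.tendsto ?_ _).comp hcont
    exact (AddMonoidHomClass.isometry_of_norm τ (norm_gq q τ)).continuous
  have hNl : locNorm G l = x₁ := by
    refine Subtype.ext (tendsto_nhds_unique hNcont ?_)
    have hz : Filter.Tendsto (fun n => (((seq n).1 : valField L q) : Kq q)) Filter.atTop
        (nhds 1) := by
      rw [tendsto_iff_norm_sub_tendsto_zero]
      refine squeeze_zero (fun n => norm_nonneg _) (fun n => (seq n).2.2) ?_
      exact (tendsto_pow_atTop_nhds_zero_of_lt_one hr0 hr1).comp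
        (Filter.tendsto_add_atTop_nat 1)
    have h2 := (tendsto_const_nhds (x := (x₁ : Kq q)) (f := Filter.atTop (α := ℕ))).div hz one_ne_zero
    rw [div_one] at h2
    refine h2.congr fun n => ?_
    show (x₁ : Kq q) / ((seq n).1 : Kq q) = _
    have hz0 : ((seq n).1 : Kq q) ≠ 0 := by
      intro h0
      have h3 := (seq n).2.2
      rw [h0, zero_sub, norm_neg, norm_one] at h3
      exact absurd h3 (not_le.mpr (hrn n))
    rw [div_eq_iff hz0, htel n, MulMemClass.coe_mul, mul_comm]
  refine ⟨(y₀ : valField L q) * l, by simp [hy₀, hlnorm], ?_⟩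
  rw [locNorm_mul, hNl, hx₁, mul_div_cancel₀]
  intro h
  simp [h] at hN₀

end FLTAgent.Global
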