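import Fermat.Agent.Global.Semilocal.Places
import Fermat.Agent.Global.Semilocal.LocalNorm
import Fermat.Agent.Global.Semilocal.Valuation

/-!
Decomposition groups of a level as subgroups of the Galois group of the completion, and the
resulting local structure at an unramified prime: cyclic groups, surjective norms on units.
-/

set_option autoImplicit false

noncomputable section

namespace FLTAgent.Global

open FLTAgent.Semilocal

variable (L : Level) (q : Nat.Primes)

/-- Restriction to the completion. -/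
def locRes : Gq q →* LocGal L q := AlgEquiv.restrictNormalHom (valField L q)

variable {L q}

lemma locRes_apply (τ : Gq q) (y : valField L q) : (locRes L q τ y : Kq q) = τ y :=
  AlgEquiv.restrictNormal_commutes τ (valField L q) y

lemma loc_mem_of_locRes {τ : Gq q} (h : locRes L q τ = 1) : loc q τ ∈ L.grp := by
  rw [Level.grp, IntermediateField.mem_fixingSubgroup_iff]
  intro x hx
  refine (emb q).injective ?_
  show emb q (loc q τ x) = emb q x
  rw [emb_loc, ← locRes_apply τ ⟨_, emb_mem_valField hx⟩, h]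
  rfl

lemma locRes_of_loc_mem {τ : Gq q} (h : loc q τ ∈ L.grp) : locRes L q τ = 1 := by
  haveI := L.fin
  have hfix : ∀ x ∈ L.fld, τ (emb q x) = emb q x := fun x hx => by
    rw [← emb_loc, (IntermediateField.mem_fixingSubgroup_iff _ _).mp h x hx]
  have hle : valField L q ≤ IntermediateField.fixedField (Subgroup.zpowers τ) := by
    conv_lhs => unfold valField
    rw [IntermediateField.adjoin_le_iff]
    rintro _ ⟨i, rfl⟩
    rintro ⟨_, n, rfl⟩
    have h1 : τ ∈ MulAction.stabilizer (Gq q)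
        (emb q ((Module.finBasis ℚ L.fld i : L.fld) : QQbar)) :=
      MulAction.mem_stabilizer_iff.mpr (hfix _ (Module.finBasis ℚ L.fld i).2)
    exact MulAction.mem_stabilizer_iff.mp (Subgroup.zpow_mem _ h1 n)
  exact AlgEquiv.ext fun y => Subtype.ext (by
    rw [locRes_apply]; exact hle y.2 ⟨τ, 1, by simp⟩)

lemma locRes_unique {g : GQ} {τ τ' : Gq q} {s s' : GQ} (hs : s ∈ L.grp) (hs' : s' ∈ L.grp)
    (h : loc q τ * g * s = loc q τ' * g * s') : locRes L q τ = locRes L q τ' := by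
  have h1 : loc q (τ'⁻¹ * τ) = g * (s' * s⁻¹) * g⁻¹ := by
    have e : loc q (τ'⁻¹ * τ) = (loc q τ')⁻¹ * (loc q τ * g * s) * (s⁻¹ * g⁻¹) := by
      rw [map_mul, map_inv]; group
    rw [e, h]; group
  have h2 : locRes L q (τ'⁻¹ * τ) = 1 := by
    refine locRes_of_loc_mem ?_
    rw [h1]
    exact L.grp_normal.conj_mem _ (mul_mem hs' (inv_mem hs)) g
  rw [map_mul, map_inv, inv_mul_eq_one] at h2
  exact h2.symm

variable {H : Subgroup GQ} {g : GQ}

lemma exists_loc_of_mem_placeSub {h : GQ} (hh : h ∈ placeSub L q H g) :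
    ∃ τ : Gq q, ∃ s ∈ L.grp, g * h = loc q τ * g * s :=
  place_eq_iff.1 hh.2.symm

variable (L q H g) in
/-- The decomposition group as automorphisms of the completion. -/
def placeHom : placeSub L q H g →* LocGal L q :=
  MonoidHom.mk' (fun h => locRes L q (exists_loc_of_mem_placeSub h.2).choose) fun h k => by
    obtain ⟨s, hs, e⟩ := (exists_loc_of_mem_placeSub (h * k).2).choose_spec
    obtain ⟨s₁, hs₁, e₁⟩ := (exists_loc_of_mem_placeSub h.2).choose_spec
    obtain ⟨s₂, hs₂, e₂⟩ := (exists_loc_of_mem_placeSub k.2).choose_spec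
    generalize (exists_loc_of_mem_placeSub (h * k).2).choose = τ at e ⊢
    generalize (exists_loc_of_mem_placeSub h.2).choose = τ₁ at e₁ ⊢
    generalize (exists_loc_of_mem_placeSub k.2).choose = τ₂ at e₂ ⊢
    rw [← map_mul]
    refine locRes_unique (g := g) hs (s' := s₂ * ((k : GQ)⁻¹ * s₁ * k))
      (mul_mem hs₂ (by simpa using L.grp_normal.conj_mem _ hs₁ (k : GQ)⁻¹)) ?_
    rw [← e, map_mul, Subgroup.coe_mul]
    calc g * ((h : GQ) * k) = (g * h) * k := by group
      _ = loc q τ₁ * (g * k) * ((k : GQ)⁻¹ * s₁ * k) := by rw [e₁]; group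
      _ = _ := by rw [e₂]; group

lemma placeHom_eq {h : placeSub L q H g} {τ : Gq q} {s : GQ} (hs : s ∈ L.grp)
    (e : g * (h : GQ) = loc q τ * g * s) : placeHom L q H g h = locRes L q τ := by
  obtain ⟨s', hs', e'⟩ := (exists_loc_of_mem_placeSub h.2).choose_spec
  exact locRes_unique hs' hs (e'.symm.trans e)

lemma mem_grp_of_placeHom {h : placeSub L q H g} (h1 : placeHom L q H g h = 1) :
    (h : GQ) ∈ L.grp := by
  obtain ⟨τ, s, hs, e⟩ := exists_loc_of_mem_placeSub h.2
  rw [placeHom_eq hs e] at h1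
  rw [show (h : GQ) = g⁻¹ * loc q τ * g * s by rw [← mul_right_inj g, e]; group]
  exact mul_mem (by simpa using L.grp_normal.conj_mem _ (loc_mem_of_locRes h1) g⁻¹) hs

lemma placeHom_of_mem {h : placeSub L q H g} (hh : (h : GQ) ∈ L.grp) :
    placeHom L q H g h = 1 := by
  rw [placeHom_eq (τ := 1) (s := (h : GQ)) hh (by simp), map_one]

lemma sval_mul_placeHom {x : Semi q} (hx : x ∈ fixSub (A := Semi q) L.grp)
    (h : placeSub L q H g) {y : valField L q} (hy : (y : Kq q) = sval x g) :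
    sval x (g * h) = (placeHom L q H g h y : Kq q) := by
  obtain ⟨τ, s, hs, e⟩ := exists_loc_of_mem_placeSub h.2
  rw [placeHom_eq hs e, e, sval_mul_grp hx _ hs, sval_loc, locRes_apply, hy]

variable (L q g) in
/-- An element supported at the place of `g` with a prescribed value. -/
theorem exists_atPlace_value (y : valField L q) (hy : y ≠ 0) :
    ∃ Y : Semi q, Y ∈ fixSub (A := Semi q) L.grp ∧ atPlace L q g Y = Y ∧ sval Y g = y := by
  classical
  let f : GQ → Kq q := fun z =>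
    if h : ∃ τ : Gq q, ∃ s ∈ L.grp, z = loc q τ * g * s then h.choose y else 1
  have hf : ∀ (τ : Gq q) (s : GQ), s ∈ L.grp → f (loc q τ * g * s) = τ y := by
    intro τ s hs
    have hex : ∃ τ' : Gq q, ∃ s' ∈ L.grp, loc q τ * g * s = loc q τ' * g * s' := ⟨τ, s, hs, rfl⟩
    obtain ⟨s', hs', e⟩ := hex.choose_spec
    simp only [f, dif_pos hex]
    rw [← locRes_apply, ← locRes_apply, locRes_unique hs hs' e]
  have hf0 : ∀ z, place L q z ≠ place L q g → f z = 1 := fun z hz =>
    dif_neg fun h => hz (place_eq_iff.2 h).symm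
  have heq : ∀ (τ : Gq q) (z : GQ), f (loc q τ * z) = τ (f z) := by
    intro τ z
    by_cases hz : place L q z = place L q g
    · obtain ⟨τ', s, hs, rfl⟩ := place_eq_iff.1 hz.symm
      rw [show loc q τ * (loc q τ' * g * s) = loc q (τ * τ') * g * s by rw [map_mul]; group,
        hf _ s hs, hf _ s hs, AlgEquiv.mul_apply]
    · rw [hf0 z hz, hf0 _ (by rwa [place_loc_mul]), map_one]
  have hfix : ∀ z, ∀ s ∈ L.grp, f (z * s) = f z := by
    intro z s hs
    by_cases hz : place L q z = place L q g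
    · obtain ⟨τ', s', hs', rfl⟩ := place_eq_iff.1 hz.symm
      rw [show loc q τ' * g * s' * s = loc q τ' * g * (s' * s) by group,
        hf _ _ (mul_mem hs' hs), hf _ _ hs']
    · rw [hf0 z hz, hf0 _ (by rwa [place_mul_grp z hs])]
  let F : semilocalAlg (q : ℕ) := ⟨f, heq⟩
  have hF : F ∈ semilocalFixed (q : ℕ) L.grp := fun s hs => by ext z; exact hfix z s hs
  have h0 : ∀ z, (F : GQ → Kq q) z ≠ 0 := by
    intro z
    show f z ≠ 0
    by_cases hz : place L q z = place L q g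
    · obtain ⟨τ, s, hs, rfl⟩ := place_eq_iff.1 hz.symm
      rw [hf τ s hs]
      exact (map_ne_zero_iff _ τ.injective).mpr fun h => hy (Subtype.ext h)
    · rw [hf0 z hz]; exact one_ne_zero
  refine ⟨ofAlg L F hF h0, ofAlg_mem_fixSub L F hF h0, semi_ext fun z => ?_, ?_⟩
  · rw [sval_atPlace]
    split_ifs with hz
    · rfl
    · exact (hf0 z hz).symm
  · show f g = _
    simpa using hf 1 1 L.grp.one_mem

variable (L q g) in
/-- Units of level `L` supported at the place of `g`. -/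
def placeUnit : AddSubgroup (Semi q) :=
  (semiUnit q ⊓ fixSub L.grp) ⊓ AddMonoidHom.eqLocus (atPlace L q g) (AddMonoidHom.id _)

lemma mem_placeUnit {x : Semi q} :
    x ∈ placeUnit L q g ↔
      (x ∈ semiUnit q ∧ x ∈ fixSub (A := Semi q) L.grp) ∧ atPlace L q g x = x := Iff.rfl

lemma smul_mem_placeUnit (hH : L.grp ≤ H) {h : GQ} (hh : h ∈ placeSub L q H g) {x : Semi q}
    (hx : x ∈ placeUnit L q g) : h • x ∈ placeUnit L q g := by
  obtain ⟨⟨hu, hfix⟩, he⟩ := hx
  refine ⟨⟨smul_mem_semiUnit q hu h, fun s hs => ?_⟩, ?_⟩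
  · rw [← mul_smul, show s * h = h * (h⁻¹ * s * h) by group, mul_smul,
      hfix _ ((L.lvl hH).conj h hh.1 s hs)]
  · show atPlace L q g (h • x) = h • x
    rw [atPlace_smul_of_place hh.2]
    exact congrArg (h • ·) he

open scoped Classical in
/-- At an unramified prime decomposition groups are cyclic and all fixed units are norms. -/
theorem exists_cyclic_placeSub_of_faithful (hH : L.grp ≤ H) (g : GQ)
    (hG : ResFaithfulOn L q (placeHom L q H g).range) :
    ∃ σ ∈ placeSub L q H g, ∃ d : ℕ, 0 < d ∧ σ ^ d ∈ L.grp ∧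
      (∀ i < d, ∀ j < d, (σ ^ i)⁻¹ * σ ^ j ∈ L.grp → i = j) ∧
      (∀ h ∈ placeSub L q H g, ∃ i : ℕ, i < d ∧ (σ ^ i)⁻¹ * h ∈ L.grp) ∧
      ∀ n ∈ placeUnit L q g, (∀ h ∈ placeSub L q H g, h • n = n) →
        ∃ y ∈ placeUnit L q g, ∑ i ∈ Finset.range d, σ ^ i • y = n := by
  haveI := isCyclic_of_resFaithfulOn hG
  set φ := placeHom L q H g with hφ
  obtain ⟨σ₀, hσ₀⟩ := IsCyclic.exists_generator (α := φ.range)
  obtain ⟨σ, hσ⟩ := σ₀.2
  set d := orderOf (σ₀ : LocGal L q) with hd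
  have hφpow : ∀ i : ℕ, φ (σ ^ i) = (σ₀ : LocGal L q) ^ i := fun i => by rw [map_pow, hσ]
  have hmem : ∀ a b : placeSub L q H g, φ a = φ b → (a : GQ)⁻¹ * b ∈ L.grp := fun a b hab => by
    simpa using mem_grp_of_placeHom (h := a⁻¹ * b) (by rw [map_mul, map_inv, ← hφ, hab, inv_mul_cancel])
  have hgen : ∀ v ∈ φ.range, ∃ i, i < d ∧ v = (σ₀ : LocGal L q) ^ i := by
    intro v hv
    obtain ⟨k, hk⟩ := Subgroup.mem_zpowers_iff.1 (hσ₀ ⟨v, hv⟩)
    have hk' : v ∈ Subgroup.zpowers (σ₀ : LocGal L q) :=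
      ⟨k, by simpa using congrArg Subtype.val hk⟩
    rw [(isOfFinOrder_of_finite _).mem_zpowers_iff_mem_range_orderOf, Finset.mem_image] at hk'
    obtain ⟨i, hi, rfl⟩ := hk'
    exact ⟨i, Finset.mem_range.1 hi, rfl⟩
  refine ⟨σ, σ.2, d, orderOf_pos _, ?_, ?_, ?_, ?_⟩
  · simpa using mem_grp_of_placeHom (h := σ ^ d) (by rw [← hφ, hφpow, hd, pow_orderOf_eq_one])
  · intro i hi j hj hij
    have h1 : φ ((σ ^ i)⁻¹ * σ ^ j) = 1 := placeHom_of_mem (by simpa using hij)
    rw [map_mul, map_inv, inv_mul_eq_one, hφpow, hφpow] at h1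
    exact pow_injOn_Iio_orderOf hi hj h1
  · intro h hh
    obtain ⟨i, hi, he⟩ := hgen (φ ⟨h, hh⟩) ⟨_, rfl⟩
    exact ⟨i, hi, by simpa using hmem (σ ^ i) ⟨h, hh⟩ (by rw [hφpow, he])⟩
  · rintro n ⟨⟨hnu, hnfix⟩, hne⟩ hn
    obtain ⟨x, hx⟩ : ∃ x : valField L q, (x : Kq q) = sval n g :=
      ⟨⟨_, sval_mem_valField hnfix g⟩, rfl⟩
    have hxfix : ∀ τ : φ.range, (τ : LocGal L q) x = x := by
      rintro ⟨_, h, rfl⟩
      refine Subtype.ext ?_
      show (φ h x : Kq q) = (x : Kq q)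
      rw [← sval_mul_placeHom hnfix h hx, ← sval_smul, hn h h.2, hx]
    obtain ⟨y, hy1, hy⟩ := exists_locNorm_eq hG hxfix (by rw [hx]; exact hnu g)
    obtain ⟨Y, hYfix, hYe, hYg⟩ := exists_atPlace_value L q g y fun h => by simp [h] at hy1
    have hYu : Y ∈ semiUnit q := fun z => by
      by_cases hz : place L q z = place L q g
      · obtain ⟨τ, s, hs, rfl⟩ := place_eq_iff.1 hz.symm
        rw [sval_mul_grp hYfix _ hs, sval_loc, norm_gq, hYg, hy1]
      · rw [← hYe, sval_atPlace, if_neg hz, norm_one]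
    have hYM : Y ∈ placeUnit L q g := ⟨⟨hYu, hYfix⟩, hYe⟩
    refine ⟨Y, hYM, ?_⟩
    have hSM : ∑ i ∈ Finset.range d, (σ : GQ) ^ i • Y ∈ placeUnit L q g :=
      sum_mem fun i _ => smul_mem_placeUnit hH (pow_mem σ.2 i) hYM
    refine eq_of_sval_eq (g := g) hSM.1.2 hnfix hSM.2 hne ?_
    rw [sval_sum, ← hx, ← hy, locNorm, SubmonoidClass.coe_finsetProd]
    refine Finset.prod_bij (fun i _ => (⟨φ (σ ^ i), ⟨_, rfl⟩⟩ : φ.range))
      (fun i _ => Finset.mem_univ _) ?_ ?_ ?_
    · intro i hi j hj hij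
      have h1 := congrArg Subtype.val hij
      simp only [hφpow] at h1
      exact pow_injOn_Iio_orderOf (Finset.mem_range.1 hi) (Finset.mem_range.1 hj) h1
    · intro τ _
      obtain ⟨i, hi, he⟩ := hgen τ τ.2
      exact ⟨i, Finset.mem_range.2 hi, Subtype.ext (by rw [he]; exact hφpow i)⟩
    · intro i _
      rw [sval_smul]
      exact sval_mul_placeHom hYfix (σ ^ i) hYg.symm

/-- At an unramified prime decomposition groups are cyclic and all fixed units are norms. -/
theorem exists_cyclic_placeSub (hq : L.UnrAt q) (hH : L.grp ≤ H) (g : GQ) :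
    ∃ σ ∈ placeSub L q H g, ∃ d : ℕ, 0 < d ∧ σ ^ d ∈ L.grp ∧
      (∀ i < d, ∀ j < d, (σ ^ i)⁻¹ * σ ^ j ∈ L.grp → i = j) ∧
      (∀ h ∈ placeSub L q H g, ∃ i : ℕ, i < d ∧ (σ ^ i)⁻¹ * h ∈ L.grp) ∧
      ∀ n ∈ placeUnit L q g, (∀ h ∈ placeSub L q H g, h • n = n) →
        ∃ y ∈ placeUnit L q g, ∑ i ∈ Finset.range d, σ ^ i • y = n :=
  exists_cyclic_placeSub_of_faithful hH g ((resFaithful_of_unrAt hq).on _)

end FLTAgent.Global
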