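import Fermat.Agent.Global.Semilocal.Lattice
import Fermat.Agent.Global.Semilocal.Acyclic

/-!
The groups `1 + qⁿ Λ` of the semilocal group, `Λ` the lattice of a normal basis.
-/

set_option autoImplicit false

noncomputable section

namespace FLTAgent.Global

open FLTAgent.Semilocal

variable {L : Level} (D : NormalData L) {q : Nat.Primes}

/-- `1/q`. -/
def qinv (q : Nat.Primes) : ℝ := ((q : ℕ) : ℝ)⁻¹

lemma qinv_pos (q : Nat.Primes) : 0 < qinv q := inv_pos.mpr (Nat.cast_pos.mpr q.2.pos)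

lemma qinv_lt_one (q : Nat.Primes) : qinv q < 1 :=
  inv_lt_one_of_one_lt₀ (by exact_mod_cast q.2.one_lt)

lemma qinv_pow_lt_one (q : Nat.Primes) (n : ℕ) : qinv q ^ (n + 1) < 1 :=
  pow_lt_one₀ (qinv_pos q).le (qinv_lt_one q) n.succ_ne_zero

lemma qinv_pow_mono (q : Nat.Primes) {n m : ℕ} (h : n ≤ m) : qinv q ^ m ≤ qinv q ^ n :=
  pow_le_pow_of_le_one (qinv_pos q).le (qinv_lt_one q).le h

lemma exists_qinv_pow_lt (q : Nat.Primes) {r : ℝ} (hr : 0 < r) : ∃ n, qinv q ^ n < r :=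
  exists_pow_lt_of_lt_one hr (qinv_lt_one q)

/-- `x = 1 + elem c`. -/
def IsCoef (x : Semi q) (c : Coef L q) : Prop := toAlg x = 1 + D.elem q c

variable {D}

lemma IsCoef.mem_fixSub {x : Semi q} {c : Coef L q} (h : IsCoef D x c) :
    x ∈ fixSub (A := Semi q) L.grp := fun s hs => toAlg_injective <| by
  rw [toAlg_smul, h]
  exact add_mem (one_mem _) (D.elem_mem_fixed q c) s hs

lemma isCoef_zero : IsCoef D (0 : Semi q) 0 := by
  rw [IsCoef, map_zero, add_zero]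
  ext g; simp

lemma exists_isCoef {x : Semi q} (hx : x ∈ fixSub (A := Semi q) L.grp) : ∃ c, IsCoef D x c := by
  obtain ⟨c, hc⟩ := D.exists_elem q (sub_mem (toAlg_mem_fixed hx) (one_mem _))
  exact ⟨c, by rw [IsCoef, ← hc]; abel⟩

lemma IsCoef.ext {x : Semi q} {c d : Coef L q} (h : IsCoef D x c) (h' : IsCoef D x d) : c = d :=
  D.elem_injective q (add_left_cancel (h.symm.trans h'))

lemma IsCoef.add {x y : Semi q} {c d : Coef L q} (h : IsCoef D x c) (h' : IsCoef D y d) :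
    IsCoef D (x + y) (c + d + D.mul c d) := by
  rw [IsCoef, toAlg_add, h, h', map_add, map_add, D.elem_mul]
  ring

lemma IsCoef.smul {x : Semi q} {c : Coef L q} (h : IsCoef D x c) (g : GQ) :
    IsCoef D (g • x) (coefAct g c) := by
  rw [IsCoef, toAlg_smul, h, smul_add, smul_one, D.smul_elem]

lemma norm_coef_neg_le {c : Coef L q} {r : ℝ} (h : ‖c‖ ≤ r) : ‖-c‖ ≤ r := by rwa [norm_neg]

lemma norm_coef_add_le' {c d : Coef L q} {r : ℝ} (h : ‖c‖ ≤ r) (h' : ‖d‖ ≤ r) : ‖c + d‖ ≤ r :=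
  (norm_coef_add_le c d).trans (max_le h h')

/-- The coefficients of a quotient are controlled by the difference. -/
lemma IsCoef.sub {x y : Semi q} {c d : Coef L q} (h : IsCoef D x c) (h' : IsCoef D y d)
    (hc : ‖c‖ < 1) :
    ∃ e, IsCoef D (y - x) e ∧ ‖e‖ ≤ ‖d - c‖ := by
  obtain ⟨e, he⟩ := exists_isCoef (D := D) (sub_mem h'.mem_fixSub h.mem_fixSub)
  have hy := h.add he
  rw [add_sub_cancel] at hy
  have hd : d = c + e + D.mul c e := h'.ext hy
  refine ⟨e, he, ?_⟩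
  have he' : e = (d - c) + -D.mul c e := by rw [hd]; abel
  by_contra hlt
  push Not at hlt
  have h1 : ‖D.mul c e‖ < ‖e‖ := by
    refine (D.norm_mul_le c e).trans_lt ?_
    exact mul_lt_of_lt_one_left ((norm_nonneg _).trans_lt hlt) hc
  have h2 := norm_coef_add_le (d - c) (-D.mul c e)
  rw [← he', norm_neg] at h2
  exact absurd h2 (not_le.mpr (max_lt hlt h1))

variable (D q)

/-- `1 + qⁿ⁺¹ Λ`. -/
def nhd (n : ℕ) : AddSubgroup (Semi q) where
  carrier := {x | ∃ c, IsCoef D x c ∧ ‖c‖ ≤ qinv q ^ (n + 1)}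
  zero_mem' := ⟨0, isCoef_zero, by rw [norm_zero]; exact (pow_pos (qinv_pos q) _).le⟩
  add_mem' := by
    rintro x y ⟨c, hc, hcn⟩ ⟨d, hd, hdn⟩
    refine ⟨_, hc.add hd, norm_coef_add_le' (norm_coef_add_le' hcn hdn) ?_⟩
    calc ‖D.mul c d‖ ≤ ‖c‖ * ‖d‖ := D.norm_mul_le c d
      _ ≤ 1 * qinv q ^ (n + 1) := by
          gcongr
          exact hcn.trans (qinv_pow_lt_one q n).le
      _ = _ := one_mul _
  neg_mem' := by
    rintro x ⟨c, hc, hcn⟩
    obtain ⟨e, he, hen⟩ := hc.sub isCoef_zero (hcn.trans_lt (qinv_pow_lt_one q n))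
    rw [zero_sub] at he
    exact ⟨e, he, hen.trans (by rwa [zero_sub, norm_neg])⟩

variable {D q}

lemma mem_nhd {n : ℕ} {x : Semi q} :
    x ∈ nhd D q n ↔ ∃ c, IsCoef D x c ∧ ‖c‖ ≤ qinv q ^ (n + 1) := Iff.rfl

lemma nhd_antitone : Antitone (nhd D q) := fun n m h x ⟨c, hc, hcn⟩ =>
  ⟨c, hc, hcn.trans (qinv_pow_mono q (by omega))⟩

lemma nhd_le_fixSub (n : ℕ) : nhd D q n ≤ fixSub (A := Semi q) L.grp :=
  fun _ ⟨_, hc, _⟩ => hc.mem_fixSub

lemma smul_mem_nhd {n : ℕ} {x : Semi q} (hx : x ∈ nhd D q n) (g : GQ) : g • x ∈ nhd D q n := by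
  obtain ⟨c, hc, hcn⟩ := hx
  exact ⟨_, hc.smul g, by rwa [norm_coefAct]⟩

lemma nhd_separated {x : Semi q} (h : ∀ n, x ∈ nhd D q n) : x = 0 := by
  obtain ⟨c, hc, -⟩ := h 0
  suffices c = 0 by
    refine toAlg_injective ?_
    rw [hc, isCoef_zero (D := D)]
    rw [this]
  by_contra hne
  obtain ⟨n, hn⟩ := exists_qinv_pow_lt q (norm_pos_iff.mpr hne)
  obtain ⟨d, hd, hdn⟩ := h n
  rw [← hc.ext hd] at hdn
  exact absurd (hdn.trans (qinv_pow_mono q n.le_succ)) (not_le.mpr hn)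

variable (D q)

/-- Deep enough neighbourhoods consist of elements close to `1` at all places. -/
theorem exists_nhd_close (r : ℝ) (hr : 0 < r) :
    ∃ n₀, ∀ (c : Coef L q), ‖c‖ ≤ qinv q ^ (n₀ + 1) →
      ∀ g, ‖(D.elem q c : GQ → Kq q) g‖ < r := by
  obtain ⟨C, hC, hC'⟩ := D.exists_norm_elem_le q
  obtain ⟨n, hn⟩ := exists_qinv_pow_lt q (div_pos hr (by linarith : (0 : ℝ) < C))
  refine ⟨n, fun c hc g => (hC' c g).trans_lt ?_⟩
  rw [lt_div_iff₀ (by linarith)] at hn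
  calc C * ‖c‖ ≤ C * qinv q ^ n := by
        gcongr
        exact hc.trans (qinv_pow_mono q n.le_succ)
    _ < r := by linarith

theorem exists_nhd_le_semiUnit : ∃ n₀, nhd D q n₀ ≤ semiUnit q ∧
    ∀ c : Coef L q, ‖c‖ ≤ qinv q ^ (n₀ + 1) → ∃ x : Semi q, IsCoef D x c := by
  obtain ⟨n₀, hn⟩ := exists_nhd_close D q 1 one_pos
  have hval : ∀ (c : Coef L q), ‖c‖ ≤ qinv q ^ (n₀ + 1) → ∀ g,
      ‖1 + (D.elem q c : GQ → Kq q) g‖ = 1 := by
    intro c hc g
    rw [IsUltrametricDist.norm_add_eq_max_of_norm_ne_norm (by rw [norm_one]; exact (hn c hc g).ne'),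
      norm_one, max_eq_left (hn c hc g).le]
  refine ⟨n₀, ?_, fun c hc => ?_⟩
  · rintro x ⟨c, hc, hcn⟩ g
    rw [← toAlg_apply, hc]
    simpa using hval c hcn g
  · refine ⟨ofAlg L (1 + D.elem q c) (add_mem (one_mem _) (D.elem_mem_fixed q c)) ?_, ?_⟩
    · intro g h0
      have h1 := hval c hc g
      simp only [AddMemClass.coe_add, OneMemClass.coe_one, Pi.add_apply, Pi.one_apply] at h0
      rw [h0, norm_zero] at h1
      exact zero_ne_one h1
    · ext g; simp [toAlg]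

end FLTAgent.Global

namespace FLTAgent.Global

variable {L : Level} (D : NormalData L) (q : Nat.Primes)

/-- Convergence of series in a deep enough neighbourhood. -/
theorem nhd_complete {n₀ : ℕ}
    (hex : ∀ c : Coef L q, ‖c‖ ≤ qinv q ^ (n₀ + 1) → ∃ x : Semi q, IsCoef D x c)
    (x : ℕ → Semi q) (hx : ∀ i, x i ∈ nhd D q (n₀ + i)) :
    ∃ y, ∀ n, y - ∑ i ∈ Finset.range n, x i ∈ nhd D q (n₀ + n) := by
  set P : ℕ → Semi q := fun n => ∑ i ∈ Finset.range n, x i with hP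
  have hPm : ∀ n, P n ∈ nhd D q n₀ := fun n =>
    sum_mem fun i _ => nhd_antitone (Nat.le_add_right n₀ i) (hx i)
  choose c hc hcn using fun n => mem_nhd.mp (hPm n)
  have hdiff : ∀ n, ‖c (n + 1) - c n‖ ≤ qinv q ^ (n₀ + n + 1) := by
    intro n
    obtain ⟨d, hd, hdn⟩ := hx n
    have h1 := (hc n).add hd
    rw [show P n + x n = P (n + 1) from (Finset.sum_range_succ _ _).symm] at h1
    rw [(hc (n + 1)).ext h1, show c n + d + D.mul (c n) d - c n = d + D.mul (c n) d by abel]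
    refine norm_coef_add_le' hdn ((D.norm_mul_le _ _).trans ?_)
    calc ‖c n‖ * ‖d‖ ≤ 1 * qinv q ^ (n₀ + n + 1) := by
          gcongr; exact (hcn n).trans (qinv_pow_lt_one q n₀).le
      _ = _ := one_mul _
  have hcau : ∀ n k, ‖c (n + k) - c n‖ ≤ qinv q ^ (n₀ + n + 1) := by
    intro n k
    induction k with
    | zero => simpa using (pow_pos (qinv_pos q) _).le
    | succ k ih =>
      rw [← sub_add_sub_cancel _ (c (n + k)) _]
      exact norm_coef_add_le' ((hdiff (n + k)).trans (qinv_pow_mono q (by omega))) ih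
  have hC : CauchySeq c := by
    refine Metric.cauchySeq_iff'.mpr fun ε hε => ?_
    obtain ⟨N, hN⟩ := exists_qinv_pow_lt q hε
    refine ⟨N, fun n hn => ?_⟩
    obtain ⟨k, rfl⟩ := Nat.exists_eq_add_of_le hn
    rw [dist_eq_norm]
    exact ((hcau N k).trans (qinv_pow_mono q (by omega))).trans_lt hN
  obtain ⟨l, hl⟩ := cauchySeq_tendsto_of_complete hC
  have hlim : ∀ n, ‖l - c n‖ ≤ qinv q ^ (n₀ + n + 1) := by
    intro n
    refine le_of_tendsto ((hl.sub_const (c n)).norm) ?_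
    filter_upwards [Filter.eventually_ge_atTop n] with k hk
    obtain ⟨j, rfl⟩ := Nat.exists_eq_add_of_le hk
    exact hcau n j
  have hl0 : ‖l‖ ≤ qinv q ^ (n₀ + 1) := by
    have h := norm_coef_add_le' ((hlim 0).trans (qinv_pow_mono q (Nat.le_refl (n₀ + 1)))) (hcn 0)
    rwa [sub_add_cancel] at h
  obtain ⟨y, hy⟩ := hex l hl0
  refine ⟨y, fun n => ?_⟩
  obtain ⟨e, he, hen⟩ := (hc n).sub hy ((hcn n).trans_lt (qinv_pow_lt_one q n₀))
  exact ⟨e, he, hen.trans (hlim n)⟩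

/-- The filtration used for successive approximation. -/
theorem completeFiltration_nhd {n₀ : ℕ}
    (hex : ∀ c : Coef L q, ‖c‖ ≤ qinv q ^ (n₀ + 1) → ∃ x : Semi q, IsCoef D x c)
    (H : Subgroup GQ) :
    Semilocal.CompleteFiltration H L.grp (fun i => nhd D q (n₀ + i)) where
  antitone := fun n m h => nhd_antitone (by omega)
  stable := fun _ g _ a ha => smul_mem_nhd ha g
  fixed := fun a ha => nhd_le_fixSub _ ha
  separated := fun a h => nhd_separated (D := D) fun n =>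
    nhd_antitone (Nat.le_add_left n n₀) (h n)
  complete := nhd_complete D q hex

end FLTAgent.Global
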