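import Fermat.Agent.Global.Semilocal.Levels

/-!
A normal basis of a level with integral structure constants, and the lattice it spans in the
semilocal algebra.
-/

set_option autoImplicit false

noncomputable section

namespace FLTAgent.Global

open FLTAgent.Semilocal

/-- The Galois group of a level. -/
abbrev Level.Gal (L : Level) : Type := L.fld ≃ₐ[ℚ] L.fld

instance Level.fintypeGal (L : Level) : Fintype L.Gal := by
  haveI := L.fin
  exact Fintype.ofFinite _

/-- Restriction to a level. -/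
def Level.res (L : Level) : GQ →* L.Gal :=
  haveI := L.gal
  haveI : Normal ℚ L.fld := IsGalois.to_normal
  AlgEquiv.restrictNormalHom L.fld

lemma Level.coe_res (L : Level) (g : GQ) (x : L.fld) :
    ((L.res g x : L.fld) : QQbar) = g (x : QQbar) := by
  haveI := L.gal
  haveI : Normal ℚ L.fld := IsGalois.to_normal
  exact AlgEquiv.restrictNormal_commutes g L.fld x

lemma Level.res_surjective (L : Level) : Function.Surjective L.res := by
  haveI := L.gal
  haveI : Normal ℚ L.fld := IsGalois.to_normal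
  exact AlgEquiv.restrictNormalHom_surjective QQbar

lemma Level.res_eq_one_iff (L : Level) (g : GQ) : L.res g = 1 ↔ g ∈ L.grp := by
  rw [Level.grp, IntermediateField.mem_fixingSubgroup_iff]
  constructor
  · intro h x hx
    have h1 := L.coe_res g ⟨x, hx⟩
    rw [h, AlgEquiv.one_apply] at h1
    exact h1.symm
  · intro h
    refine AlgEquiv.ext fun x => Subtype.ext ?_
    rw [L.coe_res, AlgEquiv.one_apply]
    exact h x x.2

/-- A normal basis with integral structure constants. -/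
structure NormalData (L : Level) where
  /-- the basis -/
  base : Module.Basis L.Gal ℚ L.fld
  /-- the structure constants -/
  coef : L.Gal → L.Gal → L.Gal → ℤ
  mul_eq : ∀ σ ρ, base σ * base ρ = ∑ τ, (coef σ ρ τ : ℚ) • base τ
  map_base : ∀ σ ρ : L.Gal, σ (base ρ) = base (σ * ρ)

theorem nonempty_normalData (L : Level) : Nonempty (NormalData L) := by
  classical
  haveI := L.gal
  haveI := L.fin
  let b := IsGalois.normalBasis ℚ L.fld
  have hb : ∀ σ ρ : L.Gal, σ (b ρ) = b (σ * ρ) := fun σ ρ => by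
    rw [IsGalois.normalBasis_apply ρ, IsGalois.normalBasis_apply (σ * ρ), AlgEquiv.mul_apply]
  set t : ℕ := ∏ σ : L.Gal, ∏ ρ : L.Gal, ∏ τ : L.Gal, (b.repr (b σ * b ρ) τ).den with ht
  have ht0 : (t : ℚ) ≠ 0 := by
    exact_mod_cast Finset.prod_ne_zero_iff.mpr fun σ _ => Finset.prod_ne_zero_iff.mpr fun ρ _ =>
      Finset.prod_ne_zero_iff.mpr fun τ _ => Rat.den_nz _
  have hdiv : ∀ σ ρ τ, ∃ z : ℤ, (z : ℚ) = t * b.repr (b σ * b ρ) τ := by
    intro σ ρ τ
    have hd : (b.repr (b σ * b ρ) τ).den ∣ t :=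
      ((Finset.dvd_prod_of_mem (fun τ => (b.repr (b σ * b ρ) τ).den) (Finset.mem_univ τ)).trans
        (Finset.dvd_prod_of_mem (fun ρ => ∏ τ, (b.repr (b σ * b ρ) τ).den)
          (Finset.mem_univ ρ))).trans
        (Finset.dvd_prod_of_mem (fun σ => ∏ ρ, ∏ τ, (b.repr (b σ * b ρ) τ).den)
          (Finset.mem_univ σ))
    obtain ⟨k, hk⟩ := hd
    refine ⟨(b.repr (b σ * b ρ) τ).num * k, ?_⟩
    rw [hk]
    push_cast
    rw [← Rat.mul_den_eq_num (b.repr (b σ * b ρ) τ)]
    ring
  choose z hz using hdiv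
  let b' := b.unitsSMul (fun _ => Units.mk0 (t : ℚ) ht0)
  have hb' : ∀ σ, b' σ = (t : ℚ) • b σ := fun σ => by
    simp only [b', Module.Basis.unitsSMul_apply, Units.smul_def, Units.val_mk0]
  refine ⟨⟨b', z, fun σ ρ => ?_, fun σ ρ => ?_⟩⟩
  · conv_lhs => rw [hb', hb', smul_mul_smul_comm, ← b.sum_repr (b σ * b ρ), Finset.smul_sum]
    refine Finset.sum_congr rfl fun τ _ => ?_
    rw [hb', smul_smul, smul_smul, hz]
    ring_nf
  · rw [hb', hb', Algebra.smul_def, map_mul, AlgEquiv.commutes, hb, ← Algebra.smul_def]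

variable {L : Level} (D : NormalData L) (q : Nat.Primes)

/-- Coefficients in the normal basis. -/
abbrev Coef (L : Level) (q : Nat.Primes) := L.Gal → ℚ_[(q : ℕ)]

/-- The element with given coefficients. -/
def NormalData.elem : Coef L q →ₗ[ℚ_[(q : ℕ)]] semilocalAlg (q : ℕ) :=
  Fintype.linearCombination ℚ_[(q : ℕ)] (fun σ => diag ((D.base σ : L.fld) : QQbar))

lemma NormalData.elem_apply (c : Coef L q) :
    D.elem q c = ∑ σ, c σ • diag ((D.base σ : L.fld) : QQbar) :=
  Fintype.linearCombination_apply _ _ _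

lemma NormalData.elem_injective : Function.Injective (D.elem q) := fun c d h => by
  haveI := L.fin
  rw [D.elem_apply, D.elem_apply] at h
  exact coeffs_injective D.base h

lemma NormalData.exists_elem {f : semilocalAlg (q : ℕ)}
    (hf : f ∈ semilocalFixed (q : ℕ) L.grp) : ∃ c, f = D.elem q c := by
  haveI := L.fin
  obtain ⟨c, hc⟩ := exists_coeffs D.base hf
  exact ⟨c, hc.trans (D.elem_apply q c).symm⟩

lemma NormalData.elem_mem_fixed (c : Coef L q) :
    D.elem q c ∈ semilocalFixed (q : ℕ) L.grp := by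
  rw [D.elem_apply]
  refine sum_mem fun σ _ => ?_
  exact Subalgebra.smul_mem _ (diag_mem_fixed (D.base σ).2) _

variable {q}

/-- The action on coefficients. -/
def coefAct (g : GQ) (c : Coef L q) : Coef L q := fun σ => c ((L.res g)⁻¹ * σ)

lemma NormalData.smul_elem (g : GQ) (c : Coef L q) :
    g • D.elem q c = D.elem q (coefAct g c) := by
  rw [D.elem_apply, D.elem_apply, Finset.smul_sum]
  refine Fintype.sum_equiv (Equiv.mulLeft (L.res g)) _ _ fun σ => ?_
  rw [Equiv.coe_mulLeft, coefAct, inv_mul_cancel_left, ← D.map_base, L.coe_res, ← diag_smul]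
  ext x
  simp

/-- Multiplication on coefficients. -/
def NormalData.mul (c d : Coef L q) : Coef L q :=
  fun τ => ∑ σ, ∑ ρ, c σ * d ρ * (D.coef σ ρ τ : ℚ_[(q : ℕ)])

lemma NormalData.elem_mul (c d : Coef L q) :
    D.elem q (D.mul c d) = D.elem q c * D.elem q d := by
  have hdiag : ∀ σ ρ, (diag ((D.base σ : L.fld) : QQbar) : semilocalAlg (q : ℕ)) *
      diag ((D.base ρ : L.fld) : QQbar) =
      ∑ τ, (D.coef σ ρ τ : ℚ_[(q : ℕ)]) • diag ((D.base τ : L.fld) : QQbar) := by
    intro σ ρ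
    rw [← diag_mul, ← MulMemClass.coe_mul, D.mul_eq]
    ext x
    simp [Algebra.smul_def, Finset.sum_apply]
  simp only [D.elem_apply, NormalData.mul, Finset.sum_mul, Finset.mul_sum, smul_mul_smul_comm,
    hdiag, Finset.smul_sum, Finset.sum_smul, smul_smul]
  rw [Finset.sum_comm]
  conv_rhs => rw [Finset.sum_comm]
  refine Finset.sum_congr rfl fun σ _ => ?_
  rw [Finset.sum_comm]

lemma NormalData.norm_mul_le (c d : Coef L q) : ‖D.mul c d‖ ≤ ‖c‖ * ‖d‖ := by
  refine (pi_norm_le_iff_of_nonneg (by positivity)).mpr fun τ => ?_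
  refine IsUltrametricDist.norm_sum_le_of_forall_le_of_nonneg (by positivity) fun σ _ => ?_
  refine IsUltrametricDist.norm_sum_le_of_forall_le_of_nonneg (by positivity) fun ρ _ => ?_
  rw [norm_mul, norm_mul]
  calc ‖c σ‖ * ‖d ρ‖ * ‖(D.coef σ ρ τ : ℚ_[(q : ℕ)])‖ ≤ ‖c σ‖ * ‖d ρ‖ * 1 := by
        gcongr; exact Padic.norm_int_le_one _
    _ = ‖c σ‖ * ‖d ρ‖ := mul_one _
    _ ≤ ‖c‖ * ‖d‖ := by gcongr <;> exact norm_le_pi_norm _ _

lemma norm_coefAct (g : GQ) (c : Coef L q) : ‖coefAct g c‖ = ‖c‖ := by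
  refine le_antisymm ((pi_norm_le_iff_of_nonneg (norm_nonneg _)).mpr fun σ => norm_le_pi_norm c ((L.res g)⁻¹ * σ))
    ((pi_norm_le_iff_of_nonneg (norm_nonneg _)).mpr fun σ => ?_)
  have := norm_le_pi_norm (coefAct g c) (L.res g * σ)
  simpa [coefAct] using this

lemma norm_coef_add_le (c d : Coef L q) : ‖c + d‖ ≤ max ‖c‖ ‖d‖ := by
  refine (pi_norm_le_iff_of_nonneg (le_max_of_le_left (norm_nonneg _))).mpr fun σ => ?_
  exact (Padic.nonarchimedean (c σ) (d σ)).trans
    (max_le_max (norm_le_pi_norm c σ) (norm_le_pi_norm d σ))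

variable (q)

/-- A bound for the values of the basis elements. -/
theorem NormalData.exists_norm_elem_le :
    ∃ C : ℝ, 1 ≤ C ∧ ∀ (c : Coef L q) (x : GQ), ‖(D.elem q c : GQ → Kq q) x‖ ≤ C * ‖c‖ := by
  refine ⟨1 + ∑ σ, ‖emb q ((D.base σ : L.fld) : QQbar)‖, by
    have : 0 ≤ ∑ σ, ‖emb q ((D.base σ : L.fld) : QQbar)‖ :=
      Finset.sum_nonneg fun σ _ => norm_nonneg _
    linarith, fun c x => ?_⟩
  rw [D.elem_apply]
  simp only [AddSubmonoidClass.coe_finsetSum, SetLike.val_smul, Finset.sum_apply, Pi.smul_apply,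
    diag_apply]
  refine IsUltrametricDist.norm_sum_le_of_forall_le_of_nonneg ?_ fun σ _ => ?_
  · have : 0 ≤ ∑ σ, ‖emb q ((D.base σ : L.fld) : QQbar)‖ :=
      Finset.sum_nonneg fun σ _ => norm_nonneg _
    positivity
  · rw [norm_smul, ← L.coe_res, D.map_base, mul_comm _ ‖c‖]
    gcongr
    · exact norm_le_pi_norm c σ
    · have := Finset.single_le_sum
        (f := fun ρ => ‖emb q ((D.base ρ : L.fld) : QQbar)‖) (fun ρ _ => norm_nonneg _)
        (Finset.mem_univ (L.res x * σ))
      linarith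

/-- Coefficients are bounded by values. -/
theorem NormalData.exists_norm_coef_le :
    ∃ R : ℝ, 0 ≤ R ∧ ∀ (c : Coef L q) (M : ℝ), 0 ≤ M →
      (∀ x, ‖(D.elem q c : GQ → Kq q) x‖ ≤ M) → ‖c‖ ≤ R * M := by
  classical
  haveI := L.finite_quotient
  have := Fintype.ofFinite (GQ ⧸ L.grp)
  let T : Coef L q →ₗ[ℚ_[(q : ℕ)]] (GQ ⧸ L.grp → Kq q) :=
    { toFun := fun c i => (D.elem q c : GQ → Kq q) i.out
      map_add' := fun c d => by funext i; simp
      map_smul' := fun r c => by funext i; simp }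
  have hT : LinearMap.ker T = ⊥ := by
    rw [LinearMap.ker_eq_bot']
    intro c hc
    apply D.elem_injective q
    rw [map_zero]
    refine Subtype.ext (funext fun x => ?_)
    have hz : (QuotientGroup.mk x : GQ ⧸ L.grp).out⁻¹ * x ∈ L.grp := by
      rw [← QuotientGroup.eq]; exact QuotientGroup.out_eq' _
    have h1 := congrArg (fun z : semilocalAlg (q : ℕ) =>
      (z : GQ → Kq q) (QuotientGroup.mk x : GQ ⧸ L.grp).out) (D.elem_mem_fixed q c _ hz)
    simp only [smul_semilocal_apply, mul_inv_cancel_left] at h1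
    rw [h1]
    exact congrFun hc (QuotientGroup.mk x)
  obtain ⟨K, -, hK⟩ := LinearMap.exists_antilipschitzWith T hT
  refine ⟨K, K.2, fun c M hM hc => ?_⟩
  calc ‖c‖ ≤ K * ‖T c‖ := by simpa using hK.le_mul_dist c 0
    _ ≤ K * M := by
        gcongr
        exact (pi_norm_le_iff_of_nonneg hM).mpr fun i => hc i.out

end FLTAgent.Global
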