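import Fermat.Agent.Global.Semilocal.Lattice
import Fermat.Agent.Frobenius.Places

/-!
The completion of a level at an unramified prime: trivial value group extension, cyclic Galois
group, surjective norms and traces on the integers.
-/

set_option autoImplicit false

noncomputable section

namespace FLTAgent.Global

variable (L : Level) (q : Nat.Primes)

/-- The completion of a level inside `ℚ̄_q`. -/
def valField : IntermediateField ℚ_[(q : ℕ)] (Kq q) :=
  haveI := L.fin
  IntermediateField.adjoin _ (Set.range fun i => emb q ((Module.finBasis ℚ L.fld i : L.fld) : QQbar))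

instance valField_finiteDimensional : FiniteDimensional ℚ_[(q : ℕ)] (valField L q) := by
  haveI := L.fin
  haveI : Finite (Set.range fun i => emb q ((Module.finBasis ℚ L.fld i : L.fld) : QQbar)) :=
    Set.finite_range _
  exact IntermediateField.finiteDimensional_adjoin fun x _ => Algebra.IsIntegral.isIntegral x

variable {L q}

lemma emb_mem_valField {x : QQbar} (hx : x ∈ L.fld) : emb q x ∈ valField L q := by
  haveI := L.fin
  have h2 : emb q x = ∑ j, algebraMap ℚ (Kq q) ((Module.finBasis ℚ L.fld).repr ⟨x, hx⟩ j) *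
      emb q ((Module.finBasis ℚ L.fld j : L.fld) : QQbar) := by
    conv_lhs => rw [show x = ((⟨x, hx⟩ : L.fld) : QQbar) from rfl,
      ← (Module.finBasis ℚ L.fld).sum_repr ⟨x, hx⟩]
    simp [Algebra.smul_def]
  rw [h2]
  refine sum_mem fun j _ => mul_mem ?_ (IntermediateField.subset_adjoin _ _ ⟨j, rfl⟩)
  rw [IsScalarTower.algebraMap_apply ℚ ℚ_[(q : ℕ)] (Kq q)]
  exact IntermediateField.algebraMap_mem _ _

lemma map_mem_valField (τ : Gq q) {y : Kq q} (hy : y ∈ valField L q) : τ y ∈ valField L q := by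
  haveI := L.fin
  have : valField L q ≤ (valField L q).comap (τ : Kq q →ₐ[ℚ_[(q : ℕ)]] Kq q) := by
    conv_lhs => unfold valField
    rw [IntermediateField.adjoin_le_iff]
    rintro _ ⟨i, rfl⟩
    show τ _ ∈ valField L q
    rw [← emb_loc]
    exact emb_mem_valField (map_mem_fld L _ (Module.finBasis ℚ L.fld i).2)
  exact this hy

variable (L q)

instance valField_normal : Normal ℚ_[(q : ℕ)] (valField L q) := by
  haveI : IsAlgClosure ℚ_[(q : ℕ)] (Kq q) := ⟨inferInstance, AlgebraicClosure.isAlgebraic _⟩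
  haveI : Normal ℚ_[(q : ℕ)] (Kq q) := IsAlgClosure.normal _ _
  rw [IntermediateField.normal_iff_forall_map_le']
  intro τ y hy
  obtain ⟨x, hx, rfl⟩ := hy
  exact map_mem_valField τ hx

instance valField_isGalois : IsGalois ℚ_[(q : ℕ)] (valField L q) := ⟨⟩

/-- The Galois group of the completion. -/
abbrev LocGal : Type := valField L q ≃ₐ[ℚ_[(q : ℕ)]] valField L q

variable {L q}

lemma exists_lift_locGal (σ : LocGal L q) : ∃ τ : Gq q, ∀ y : valField L q, τ y = σ y := by
  haveI : IsAlgClosure ℚ_[(q : ℕ)] (Kq q) := ⟨inferInstance, AlgebraicClosure.isAlgebraic _⟩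
  haveI : Normal ℚ_[(q : ℕ)] (Kq q) := IsAlgClosure.normal _ _
  exact ⟨σ.liftNormal (Kq q), fun y => σ.liftNormal_commutes (Kq q) y⟩

lemma norm_locGal (σ : LocGal L q) (y : valField L q) : ‖(σ y : Kq q)‖ = ‖(y : Kq q)‖ := by
  obtain ⟨τ, hτ⟩ := exists_lift_locGal σ
  rw [← hτ, norm_gq]

variable (L q)

/-- Only the trivial automorphism acts trivially on the residues. -/
def ResFaithful : Prop :=
  ∀ σ : LocGal L q,
    (∀ y : valField L q, ‖(y : Kq q)‖ ≤ 1 → ‖((σ y : Kq q)) - y‖ < 1) → σ = 1

variable {L q}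

theorem resFaithful_of_unrAt (hq : L.UnrAt q) : ResFaithful L q := by
  intro σ hσ
  haveI := L.gal
  haveI : Normal ℚ L.fld := IsGalois.to_normal
  obtain ⟨τ, hτ⟩ := exists_lift_locGal σ
  have hnon : ∀ z : QQbar, z ∈ (padicPlace (q : ℕ)).nonunits ↔ ‖emb q z‖ < 1 := by
    intro z
    rw [ValuationSubring.mem_nonunits_iff_or]
    constructor
    · rintro (rfl | h)
      · simp
      · rw [mem_padicPlace_iff, map_inv₀, nnnorm_inv, not_le] at h
        have h0 : ‖emb q z‖₊ ≠ 0 := fun h0 => by rw [h0, inv_zero] at h; exact absurd h (by simp)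
        have := (one_lt_inv₀ (pos_iff_ne_zero.mpr h0)).mp h
        exact_mod_cast this
    · intro h
      by_cases hz : z = 0
      · exact Or.inl hz
      · refine Or.inr fun hmem => ?_
        rw [mem_padicPlace_iff, map_inv₀, nnnorm_inv] at hmem
        have hpos : 0 < ‖emb q z‖₊ := by simpa [nnnorm_pos] using hz
        have : 1 ≤ ‖emb q z‖₊ := (inv_le_one₀ hpos).mp hmem
        exact absurd (by exact_mod_cast this : (1 : ℝ) ≤ ‖emb q z‖) (not_le.mpr h)
  have hA : (padicPlace (q : ℕ)).LiesOverPrime (q : ℕ) := by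
    show ((q : ℕ) : QQbar) ∈ _
    rw [hnon, map_natCast, ← map_natCast (algebraMap ℚ_[(q : ℕ)] (Kq q)), norm_algebraMap',
      Padic.norm_p]
    exact inv_lt_one_of_one_lt₀ (by exact_mod_cast q.2.one_lt)
  obtain ⟨ι, hι, hιe⟩ := Frobenius.exists_mem_inertiaSubgroupIn_eqOn L.fld
    (A := padicPlace (q : ℕ)) (loc q τ) (fun x hx => by
      rw [Frobenius.mem_centre, hnon]
      show ‖emb q (loc q τ (x : QQbar) - (x : QQbar))‖ < 1
      rw [map_sub, emb_loc]
      have hy := emb_mem_valField (q := q) hx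
      rw [hτ ⟨_, hy⟩]
      refine hσ ⟨_, hy⟩ ?_
      have := Frobenius.mem_of_isIntegral (padicPlace (q : ℕ)) x.2
      rw [mem_padicPlace_iff] at this
      exact_mod_cast this)
  have hfix : ∀ x ∈ L.fld, τ (emb q x) = emb q x := fun x hx => by
    rw [← emb_loc, ← hιe x hx,
      (IntermediateField.mem_fixingSubgroup_iff _ _).mp (hq _ hA hι) x hx]
  have hall : ∀ y ∈ valField L q, τ y = y := by
    intro y hy
    haveI := L.fin
    have : valField L q ≤ IntermediateField.fixedField (Subgroup.zpowers τ) := by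
      conv_lhs => unfold valField
      rw [IntermediateField.adjoin_le_iff]
      rintro _ ⟨i, rfl⟩
      rintro ⟨_, n, rfl⟩
      have h1 : τ ∈ MulAction.stabilizer (Gq q) (emb q ((Module.finBasis ℚ L.fld i : L.fld) : QQbar)) :=
        MulAction.mem_stabilizer_iff.mpr (hfix _ (Module.finBasis ℚ L.fld i).2)
      exact MulAction.mem_stabilizer_iff.mp (Subgroup.zpow_mem _ h1 n)
    exact this hy ⟨τ, 1, by simp⟩
  exact AlgEquiv.ext fun y => Subtype.ext (by rw [← hτ, hall y y.2]; rfl)

end FLTAgent.Global
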