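import Fermat.Agent.Global.Semilocal.LocalField
import Fermat.Agent.Global.Semilocal.Filtration

/-!
The residue field of the completion at an unramified prime.
-/

set_option autoImplicit false

noncomputable section

namespace FLTAgent.Global

variable (L : Level) (q : Nat.Primes)

/-- Integers of the completion. -/
def valInt : Subring (valField L q) where
  carrier := {y | ‖(y : Kq q)‖ ≤ 1}
  one_mem' := by simp
  zero_mem' := by simp
  mul_mem' {a b} ha hb := by
    simp only [Set.mem_ofPred_eq, MulMemClass.coe_mul, norm_mul]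
    exact mul_le_one₀ ha (norm_nonneg _) hb
  add_mem' {a b} ha hb := by
    simp only [Set.mem_ofPred_eq, AddMemClass.coe_add]
    exact (IsUltrametricDist.norm_add_le_max _ _).trans (max_le ha hb)
  neg_mem' {a} ha := by simpa using ha

/-- The maximal ideal of the integers. -/
def valMax : Ideal (valInt L q) where
  carrier := {y | ‖((y : valField L q) : Kq q)‖ < 1}
  zero_mem' := by simp
  add_mem' {a b} ha hb := by
    simp only [Set.mem_ofPred_eq, AddMemClass.coe_add]
    exact (IsUltrametricDist.norm_add_le_max _ _).trans_lt (max_lt ha hb)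
  smul_mem' c x hx := by
    simp only [smul_eq_mul, Set.mem_ofPred_eq, MulMemClass.coe_mul, norm_mul]
    exact mul_lt_one_of_nonneg_of_lt_one_right c.2 (norm_nonneg _) hx

variable {L q}

lemma mem_valMax {y : valInt L q} : y ∈ valMax L q ↔ ‖((y : valField L q) : Kq q)‖ < 1 := Iff.rfl

lemma norm_coe_le (y : valInt L q) : ‖((y : valField L q) : Kq q)‖ ≤ 1 := y.2

instance valMax_isMaximal : (valMax L q).IsMaximal := by
  refine Ideal.isMaximal_iff.mpr ⟨by simp [mem_valMax], fun J x hJ hx hxJ => ?_⟩
  have h1 : ‖((x : valField L q) : Kq q)‖ = 1 :=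
    le_antisymm x.2 (not_lt.mp hx)
  have h0 : (x : valField L q) ≠ 0 := fun h => by simp [h] at h1
  let u : valInt L q := ⟨(x : valField L q)⁻¹, by
    show ‖(((x : valField L q)⁻¹ : valField L q) : Kq q)‖ ≤ 1
    rw [IntermediateField.coe_inv, norm_inv, h1, inv_one]⟩
  have : u * x = 1 := Subtype.ext (inv_mul_cancel₀ h0)
  rw [← this]
  exact J.mul_mem_left u hxJ

variable (L q)

/-- The residue field. -/
abbrev ResField : Type := valInt L q ⧸ valMax L q

instance resFieldField : Field (ResField L q) := Ideal.Quotient.field _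

instance resField_charP : CharP (ResField L q) (q : ℕ) := by
  rw [CharP.charP_iff_prime_eq_zero q.2, ← map_natCast (Ideal.Quotient.mk (valMax L q)),
    Ideal.Quotient.eq_zero_iff_mem, mem_valMax]
  push_cast
  rw [← map_natCast (algebraMap ℚ_[(q : ℕ)] (Kq q)), norm_algebraMap', Padic.norm_p]
  exact inv_lt_one_of_one_lt₀ (by exact_mod_cast q.2.one_lt)

instance resField_algebra : Algebra (ZMod (q : ℕ)) (ResField L q) := ZMod.algebra _ _

variable {L q}

/-- The residue of an integer. -/
abbrev res₀ (y : valInt L q) : ResField L q := Ideal.Quotient.mk (valMax L q) y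

lemma res₀_eq_zero {y : valInt L q} : res₀ y = 0 ↔ ‖((y : valField L q) : Kq q)‖ < 1 :=
  Ideal.Quotient.eq_zero_iff_mem

lemma norm_eq_one_of_res₀_ne_zero {y : valInt L q} (h : res₀ y ≠ 0) :
    ‖((y : valField L q) : Kq q)‖ = 1 :=
  le_antisymm y.2 (not_lt.mp fun h' => h (res₀_eq_zero.mpr h'))

/-- Lifts of independent residues are orthonormal. -/
theorem norm_sum_lift {ι : Type*} [Fintype ι] (u : ι → valInt L q)
    (hu : LinearIndependent (ZMod (q : ℕ)) fun i => res₀ (u i)) (c : ι → ℚ_[(q : ℕ)]) :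
    ‖((∑ i, c i • (u i : valField L q) : valField L q) : Kq q)‖ = ‖c‖ := by
  classical
  rcases eq_or_ne c 0 with rfl | hc
  · simp
  have : Nonempty ι := not_isEmpty_iff.mp fun h => hc (funext fun i => h.elim i)
  obtain ⟨j, -, hj⟩ := Finset.exists_max_image Finset.univ (fun i => ‖c i‖) Finset.univ_nonempty
  have hjc : ‖c‖ = ‖c j‖ := le_antisymm
    ((pi_norm_le_iff_of_nonneg (norm_nonneg _)).mpr fun i => hj i (Finset.mem_univ i))
    (norm_le_pi_norm c j)
  have hj0 : c j ≠ 0 := fun h => hc (norm_eq_zero.mp (by rw [hjc, h, norm_zero]))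
  set d : ι → ℚ_[(q : ℕ)] := fun i => c i / c j with hd
  have hd1 : ∀ i, ‖d i‖ ≤ 1 := fun i => by
    rw [hd, norm_div, div_le_one (norm_pos_iff.mpr hj0)]
    exact hj i (Finset.mem_univ i)
  have hsum : (∑ i, c i • (u i : valField L q)) = c j • ∑ i, d i • (u i : valField L q) := by
    simp [Finset.smul_sum, smul_smul, hd, mul_div_cancel₀ _ hj0]
  rw [hsum]
  push_cast
  rw [norm_smul, hjc]
  suffices h : ‖∑ i, d i • ((u i : valField L q) : Kq q)‖ = 1 by
    rw [h, mul_one]
  -- approximate the coefficients by integers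
  have hn : ∀ i, ∃ n : ℕ, ‖d i - n‖ < 1 := fun i => by
    refine ⟨PadicInt.zmodRepr ⟨d i, hd1 i⟩, ?_⟩
    have := PadicInt.mem_nonunits.mp (PadicInt.sub_zmodRepr_mem ⟨d i, hd1 i⟩)
    simpa [PadicInt.norm_def] using this
  choose n hn using hn
  have hne : res₀ (∑ i, (n i : valInt L q) * u i) ≠ 0 := by
    intro h0
    have h1 : ∑ i, ((n i : ZMod (q : ℕ))) • res₀ (u i) = 0 := by
      rw [← h0]
      show _ = Ideal.Quotient.mk (valMax L q) _
      rw [map_sum]
      refine Finset.sum_congr rfl fun i _ => ?_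
      rw [map_mul, map_natCast, Algebra.smul_def, map_natCast]
    have h2 := Fintype.linearIndependent_iff.mp hu _ h1 j
    rw [ZMod.natCast_eq_zero_iff] at h2
    have hdj : d j = 1 := div_self hj0
    have h3 := hn j
    rw [hdj] at h3
    obtain ⟨k, hk⟩ := h2
    have h4 : ‖((n j : ℕ) : ℚ_[(q : ℕ)])‖ < 1 := by
      rw [hk, Nat.cast_mul, norm_mul, Padic.norm_p]
      refine mul_lt_one_of_nonneg_of_lt_one_left (inv_nonneg.mpr (Nat.cast_nonneg _))
        (inv_lt_one_of_one_lt₀ (by exact_mod_cast q.2.one_lt)) ?_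
      simpa using Padic.norm_int_le_one (p := (q : ℕ)) (k : ℤ)
    have h5 := (Padic.nonarchimedean (1 - (n j : ℚ_[(q : ℕ)])) (n j : ℚ_[(q : ℕ)])).trans_lt
      (max_lt h3 h4)
    rw [sub_add_cancel, norm_one] at h5
    exact lt_irrefl _ h5
  have h1 := norm_eq_one_of_res₀_ne_zero hne
  push_cast at h1
  have hsplit : ∑ i, d i • ((u i : valField L q) : Kq q) =
      (∑ i, (n i : Kq q) * ((u i : valField L q) : Kq q))
        + ∑ i, (d i - n i) • ((u i : valField L q) : Kq q) := by
    rw [← Finset.sum_add_distrib]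
    refine Finset.sum_congr rfl fun i _ => ?_
    simp [Algebra.smul_def, sub_mul, map_natCast]
  have hlt : ‖∑ i, (d i - n i) • ((u i : valField L q) : Kq q)‖ < 1 := by
    obtain ⟨i, -, hi⟩ := IsUltrametricDist.exists_norm_finsetSum_le_of_nonempty
      (Finset.univ_nonempty (α := ι)) (fun i => (d i - n i) • ((u i : valField L q) : Kq q))
    refine hi.trans_lt ?_
    rw [norm_smul]
    exact mul_lt_one_of_nonneg_of_lt_one_left (norm_nonneg _) (hn i) (u i).2
  rw [hsplit, IsUltrametricDist.norm_add_eq_max_of_norm_ne_norm (by rw [h1]; exact hlt.ne'), h1,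
    max_eq_left hlt.le]

theorem card_le_finrank {ι : Type*} [Fintype ι] (u : ι → valInt L q)
    (hu : LinearIndependent (ZMod (q : ℕ)) fun i => res₀ (u i)) :
    LinearIndependent ℚ_[(q : ℕ)] (fun i => (u i : valField L q)) := by
  rw [Fintype.linearIndependent_iff]
  intro c hc i
  have := norm_sum_lift u hu c
  rw [hc] at this
  have h0 : c = 0 := norm_eq_zero.mp (by simpa using this.symm)
  exact congrFun h0 i

instance resField_finite : Module.Finite (ZMod (q : ℕ)) (ResField L q) := by
  refine Module.rank_lt_aleph0_iff.mp ((rank_le (n := Module.finrank ℚ_[(q : ℕ)] (valField L q))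
    fun s hs => ?_).trans_lt (Cardinal.natCast_lt_aleph0 ..))
  choose u hu using fun x : s => Ideal.Quotient.mk_surjective (I := valMax L q) (x : ResField L q)
  have hs' : LinearIndependent (ZMod (q : ℕ)) fun x : s => res₀ (u x) := by
    simpa [hu] using hs
  simpa using (card_le_finrank u hs').fintype_card_le_finrank

lemma finite_resField (L : Level) (q : Nat.Primes) : Finite (ResField L q) :=
  Module.finite_of_finite (ZMod (q : ℕ))

/-- The action of the Galois group on the integers. -/
def galInt (σ : LocGal L q) : valInt L q ≃+* valInt L q where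
  toFun y := ⟨σ y, (norm_locGal σ y).le.trans y.2⟩
  invFun y := ⟨σ.symm y, (norm_locGal σ.symm y).le.trans y.2⟩
  left_inv y := Subtype.ext (σ.symm_apply_apply _)
  right_inv y := Subtype.ext (σ.apply_symm_apply _)
  map_mul' x y := Subtype.ext (map_mul σ _ _)
  map_add' x y := Subtype.ext (map_add σ _ _)

/-- The action of the Galois group on the residue field. -/
def resRingHom (σ : LocGal L q) : ResField L q →+* ResField L q :=
  Ideal.quotientMap (valMax L q) (galInt σ : valInt L q →+* valInt L q) fun y hy => by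
    show ‖((σ y : valField L q) : Kq q)‖ < 1
    rw [norm_locGal]; exact hy

@[simp] lemma resRingHom_mk (σ : LocGal L q) (y : valInt L q) :
    resRingHom σ (res₀ y) = res₀ (galInt σ y) := rfl

/-- The action of the Galois group on the residue field, as automorphisms over `ZMod q`. -/
def resGal : LocGal L q →* (ResField L q ≃ₐ[ZMod (q : ℕ)] ResField L q) where
  toFun σ := AlgEquiv.ofRingEquiv
    (f := RingEquiv.ofRingHom (resRingHom σ) (resRingHom σ⁻¹)
      (Ideal.Quotient.ringHom_ext (RingHom.ext fun y => by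
        show res₀ (galInt σ (galInt σ⁻¹ y)) = res₀ y
        congr 1
        exact Subtype.ext (σ.apply_symm_apply _)))
      (Ideal.Quotient.ringHom_ext (RingHom.ext fun y => by
        show res₀ (galInt σ⁻¹ (galInt σ y)) = res₀ y
        congr 1
        exact Subtype.ext (σ.symm_apply_apply _))))
    (fun x => DFunLike.congr_fun (Subsingleton.elim
      ((resRingHom σ).comp (algebraMap (ZMod (q : ℕ)) (ResField L q)))
      (algebraMap (ZMod (q : ℕ)) (ResField L q))) x)
  map_one' := AlgEquiv.ext fun x => by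
    obtain ⟨y, rfl⟩ := Ideal.Quotient.mk_surjective x
    rfl
  map_mul' σ τ := AlgEquiv.ext fun x => by
    obtain ⟨y, rfl⟩ := Ideal.Quotient.mk_surjective x
    rfl

@[simp] lemma resGal_mk (σ : LocGal L q) (y : valInt L q) :
    resGal σ (res₀ y) = res₀ (galInt σ y) := rfl

theorem resGal_injective (hF : ResFaithful L q) :
    Function.Injective (resGal (L := L) (q := q)) := by
  rw [injective_iff_map_eq_one]
  intro σ h
  refine hF σ fun y hy => ?_
  have h1 := DFunLike.congr_fun h (res₀ ⟨y, hy⟩)
  rw [resGal_mk, AlgEquiv.one_apply, Ideal.Quotient.eq] at h1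
  exact h1

theorem exists_orthonormal_basis (hF : ResFaithful L q) :
    ∃ u : Fin (Module.finrank ℚ_[(q : ℕ)] (valField L q)) → valInt L q,
      ∀ x : valField L q, ∃ c : Fin (Module.finrank ℚ_[(q : ℕ)] (valField L q)) → ℚ_[(q : ℕ)],
        x = ∑ i, c i • (u i : valField L q) ∧ ‖(x : Kq q)‖ = ‖c‖ := by
  haveI := finite_resField L q
  have h1 : Module.finrank ℚ_[(q : ℕ)] (valField L q) ≤
      Module.finrank (ZMod (q : ℕ)) (ResField L q) := by
    rw [← IsGalois.card_aut_eq_finrank]
    have h2 := AlgEquiv.card_le (F := ZMod (q : ℕ)) (K := ResField L q)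
    rw [← Nat.card_eq_fintype_card] at h2
    exact (Nat.card_le_card_of_injective _ (resGal_injective hF)).trans h2
  obtain ⟨b, hb⟩ : ∃ b : Fin (Module.finrank ℚ_[(q : ℕ)] (valField L q)) → ResField L q,
      LinearIndependent (ZMod (q : ℕ)) b :=
    ⟨_, (Module.finBasis (ZMod (q : ℕ)) (ResField L q)).linearIndependent.comp
      (Fin.castLE h1) (Fin.castLE_injective h1)⟩
  choose u hu using fun i => Ideal.Quotient.mk_surjective (I := valMax L q) (b i)
  have hb' : LinearIndependent (ZMod (q : ℕ)) fun i => res₀ (u i) := by simpa [hu] using hb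
  refine ⟨u, fun x => ?_⟩
  have hsp := (card_le_finrank u hb').span_eq_top_of_card_eq_finrank' (by simp)
  obtain ⟨c, hc⟩ := Submodule.mem_span_range_iff_exists_fun _ |>.mp
    (hsp ▸ Submodule.mem_top (x := x))
  exact ⟨c, hc.symm, by rw [← hc]; exact norm_sum_lift u hb' c⟩

/-- The value group of an unramified completion is `q^ℤ`. -/
theorem exists_norm_eq_zpow (hF : ResFaithful L q) {x : valField L q} (hx : x ≠ 0) :
    ∃ n : ℤ, ‖(x : Kq q)‖ = ((q : ℕ) : ℝ) ^ n := by
  obtain ⟨u, hu⟩ := exists_orthonormal_basis hF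
  obtain ⟨c, hc, hn⟩ := hu x
  have hc0 : c ≠ 0 := by rintro rfl; simp [hx] at hc
  obtain ⟨i, -⟩ := Function.ne_iff.mp hc0
  have : Nonempty (Fin (Module.finrank ℚ_[(q : ℕ)] (valField L q))) := ⟨i⟩
  obtain ⟨j, -, hj⟩ := Finset.exists_max_image Finset.univ (fun i => ‖c i‖) Finset.univ_nonempty
  have hjc : ‖c‖ = ‖c j‖ := le_antisymm
    ((pi_norm_le_iff_of_nonneg (norm_nonneg _)).mpr fun i => hj i (Finset.mem_univ i))
    (norm_le_pi_norm c j)
  have hj0 : c j ≠ 0 := fun h => hc0 (norm_eq_zero.mp (by rw [hjc, h, norm_zero]))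
  exact ⟨-(c j).valuation, by rw [hn, hjc, Padic.norm_eq_zpow_neg_valuation hj0]⟩

end FLTAgent.Global
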