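import Fermat.Agent.Global.Semilocal.Filtration

/-!
Cohomological triviality of `1 + qⁿ Λ`.
-/

set_option autoImplicit false

noncomputable section

namespace FLTAgent.Global

open FLTAgent.Semilocal

variable {L : Level} {D : NormalData L} {q : Nat.Primes}

lemma qinv_sq_le (q : Nat.Primes) (n : ℕ) :
    qinv q ^ (n + 1) * qinv q ^ (n + 1) ≤ qinv q ^ (n + 2) := by
  rw [← pow_add]; exact qinv_pow_mono q (by omega)

lemma NormalData.norm_mul_le_sq (c d : Coef L q) {n : ℕ} (hc : ‖c‖ ≤ qinv q ^ (n + 1))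
    (hd : ‖d‖ ≤ qinv q ^ (n + 1)) : ‖D.mul c d‖ ≤ qinv q ^ (n + 2) :=
  (D.norm_mul_le c d).trans
    ((mul_le_mul hc hd (norm_nonneg _) (pow_pos (qinv_pos q) _).le).trans (qinv_sq_le q n))

/-- Coefficients of a sum are the sum of the coefficients up to second order. -/
lemma exists_isCoef_sum {ι : Type*} (s : Finset ι) (y : ι → Semi q) (c : ι → Coef L q) {r : ℝ}
    (hr0 : 0 ≤ r) (hr1 : r ≤ 1) (hy : ∀ i ∈ s, IsCoef D (y i) (c i)) (hc : ∀ i ∈ s, ‖c i‖ ≤ r) :
    ∃ d, IsCoef D (∑ i ∈ s, y i) d ∧ ‖d‖ ≤ r ∧ ‖d - ∑ i ∈ s, c i‖ ≤ r * r := by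
  classical
  induction s using Finset.induction_on with
  | empty => exact ⟨0, by simpa using isCoef_zero, by simpa using hr0, by simpa using mul_self_nonneg r⟩
  | insert i s hi ih =>
    obtain ⟨d, hd, hdr, hdd⟩ := ih (fun j hj => hy j (Finset.mem_insert_of_mem hj))
      (fun j hj => hc j (Finset.mem_insert_of_mem hj))
    have hci := hc i (Finset.mem_insert_self i s)
    have hmul : ‖D.mul (c i) d‖ ≤ r * r :=
      (D.norm_mul_le _ _).trans (mul_le_mul hci hdr (norm_nonneg _) hr0)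
    refine ⟨_, by rw [Finset.sum_insert hi]; exact (hy i (Finset.mem_insert_self i s)).add hd,
      norm_coef_add_le' (norm_coef_add_le' hci hdr)
        (hmul.trans (mul_le_of_le_one_left hr0 hr1)), ?_⟩
    rw [Finset.sum_insert hi, show c i + d + D.mul (c i) d - (c i + ∑ j ∈ s, c j)
      = (d - ∑ j ∈ s, c j) + D.mul (c i) d by abel]
    exact norm_coef_add_le' hdd hmul

section transversal

variable (L) (H : Subgroup GQ)

/-- The representative of the right coset `H̄σ`. -/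
def rightRep (σ : L.Gal) : L.Gal :=
  (Quotient.mk (QuotientGroup.rightRel (H.map L.res)) σ).out

lemma exists_rightLift (σ : L.Gal) : ∃ h, h ∈ H ∧ L.res h = σ * (rightRep L H σ)⁻¹ := by
  have h1 := Quotient.mk_out (s := QuotientGroup.rightRel (H.map L.res)) σ
  have h2 : σ * (rightRep L H σ)⁻¹ ∈ H.map L.res := QuotientGroup.rightRel_apply.mp h1
  exact Subgroup.mem_map.mp h2

/-- A lift in `H` of `σ (rep σ)⁻¹`. -/
def rightLift (σ : L.Gal) : GQ := (exists_rightLift L H σ).choose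

lemma rightLift_mem (σ : L.Gal) : rightLift L H σ ∈ H := (exists_rightLift L H σ).choose_spec.1

lemma res_rightLift (σ : L.Gal) : L.res (rightLift L H σ) = σ * (rightRep L H σ)⁻¹ :=
  (exists_rightLift L H σ).choose_spec.2

variable {L H}

lemma rightRep_mul {g : GQ} (hg : g ∈ H) (σ : L.Gal) :
    rightRep L H (L.res g * σ) = rightRep L H σ := by
  unfold rightRep
  congr 1
  apply Quotient.sound
  refine QuotientGroup.rightRel_apply.mpr ?_
  rw [mul_inv_rev, mul_inv_cancel_left]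
  exact inv_mem ⟨g, hg, rfl⟩

lemma rightLift_mul {g : GQ} (hg : g ∈ H) (σ : L.Gal) :
    (g * rightLift L H σ)⁻¹ * rightLift L H (L.res g * σ) ∈ L.grp := by
  rw [← L.res_eq_one_iff, map_mul, map_inv, map_mul, res_rightLift, res_rightLift, rightRep_mul hg]
  group

lemma eq_mul_of_mul_mem {a b : GQ} (h : a⁻¹ * b ∈ L.grp) : ∃ s ∈ L.grp, b = a * s :=
  ⟨a⁻¹ * b, h, (mul_inv_cancel_left a b).symm⟩

end transversal

variable {H : Subgroup GQ}

/-- Degree one step. -/
theorem nhd_h1_step (hH : L.grp ≤ H) {n : ℕ}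
    (hex : ∀ c : Coef L q, ‖c‖ ≤ qinv q ^ (n + 1) → ∃ x : Semi q, IsCoef D x c)
    (f : GQ → Semi q) (hf : IsZ1 H L.grp f) (hv : ∀ g ∈ H, f g ∈ nhd D q n) :
    ∃ a ∈ nhd D q n, ∀ g ∈ H, f g - dd0 a g ∈ nhd D q (n + 1) := by
  choose! κ hκ hκn using hv
  have hlev : ∀ g ∈ H, ∀ s ∈ L.grp, κ (g * s) = κ g := fun g hg s hs => by
    have h1 := hκ (g * s) (mul_mem hg (hH hs))
    rw [hf.1 g hg s hs] at h1
    exact h1.ext (hκ g hg)
  set α : Coef L q := fun σ => -κ (rightLift L H σ) σ with hα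
  have hαn : ‖α‖ ≤ qinv q ^ (n + 1) :=
    (pi_norm_le_iff_of_nonneg (pow_pos (qinv_pos q) _).le).mpr fun σ => by
      rw [hα, norm_neg]
      exact (norm_le_pi_norm _ σ).trans (hκn _ (rightLift_mem L H σ))
  obtain ⟨y, hy⟩ := hex α hαn
  refine ⟨y, ⟨α, hy, hαn⟩, fun g hg => ?_⟩
  have h1 := (hκ g hg).add hy
  obtain ⟨e, he, hen⟩ := (hy.smul g).sub h1 (by
    rw [norm_coefAct]; exact hαn.trans_lt (qinv_pow_lt_one q n))
  rw [show f g - dd0 y g = f g + y - g • y by rw [dd0]; abel]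
  refine ⟨e, he, hen.trans ?_⟩
  refine (pi_norm_le_iff_of_nonneg (pow_pos (qinv_pos q) _).le).mpr fun σ => ?_
  -- evaluation at `σ`
  set σ' := (L.res g)⁻¹ * σ with hσ'
  obtain ⟨s, hs, hs'⟩ := eq_mul_of_mul_mem (rightLift_mul (L := L) (H := H) hg σ')
  rw [show L.res g * σ' = σ from mul_inv_cancel_left _ _] at hs'
  have hh' := rightLift_mem L H σ'
  have hgh := mul_mem hg hh'
  have h2 := ((hκ _ hh').smul g).add (hκ g hg)
  rw [← hf.2 g hg _ hh'] at h2
  have h3 := (hκ _ hgh).ext h2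
  have e1 : κ (rightLift L H σ) = κ (g * rightLift L H σ') := by
    rw [hs']; exact hlev _ hgh s hs
  have hval : (κ g + α + D.mul (κ g) α - coefAct g α) σ
      = D.mul (κ g) α σ + -D.mul (coefAct g (κ (rightLift L H σ'))) (κ g) σ := by
    simp only [Pi.add_apply, Pi.sub_apply, coefAct, hα, e1, h3]
    abel
  rw [hval]
  refine (Padic.nonarchimedean _ _).trans (max_le ?_ ?_)
  · exact (norm_le_pi_norm _ σ).trans (D.norm_mul_le_sq _ _ (hκn g hg) hαn)
  · rw [norm_neg]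
    exact (norm_le_pi_norm _ σ).trans
      (D.norm_mul_le_sq _ _ (by rw [norm_coefAct]; exact hκn _ hh') (hκn g hg))

/-- Degree two step. -/
theorem nhd_h2_step (hH : L.grp ≤ H) {n : ℕ}
    (hex : ∀ c : Coef L q, ‖c‖ ≤ qinv q ^ (n + 1) → ∃ x : Semi q, IsCoef D x c)
    (c : GQ → GQ → Semi q) (hc : IsZ2 H L.grp c) (hv : ∀ g ∈ H, ∀ h ∈ H, c g h ∈ nhd D q n) :
    ∃ b : GQ → Semi q, IsLvl1 H L.grp b ∧ (∀ g ∈ H, b g ∈ nhd D q n) ∧
      ∀ g ∈ H, ∀ h ∈ H, c g h - dd1 b g h ∈ nhd D q (n + 1) := by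
  classical
  choose! κ hκ hκn using hv
  have hlev : ∀ g ∈ H, ∀ h ∈ H, ∀ s ∈ L.grp, ∀ s' ∈ L.grp, κ (g * s) (h * s') = κ g h :=
    fun g hg h hh s hs s' hs' => by
      have h1 := hκ (g * s) (mul_mem hg (hH hs)) (h * s') (mul_mem hh (hH hs'))
      rw [hc.1 g hg h hh s hs s' hs'] at h1
      exact h1.ext (hκ g hg h hh)
  have hlev' : ∀ g ∈ H, ∀ h ∈ H, ∀ s' ∈ L.grp, κ g (h * s') = κ g h := fun g hg h hh s' hs' => by
    simpa using hlev g hg h hh 1 (one_mem _) s' hs'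
  set β : GQ → Coef L q := fun g σ => κ g (g⁻¹ * rightLift L H σ) σ with hβ
  have hmem : ∀ g ∈ H, ∀ σ, g⁻¹ * rightLift L H σ ∈ H := fun g hg σ =>
    mul_mem (inv_mem hg) (rightLift_mem L H σ)
  have hβn : ∀ g ∈ H, ‖β g‖ ≤ qinv q ^ (n + 1) := fun g hg =>
    (pi_norm_le_iff_of_nonneg (pow_pos (qinv_pos q) _).le).mpr fun σ => by
      show ‖κ g (g⁻¹ * rightLift L H σ) σ‖ ≤ _
      exact (norm_le_pi_norm _ σ).trans (hκn g hg _ (hmem g hg σ))
  have hβlev : ∀ g ∈ H, ∀ s ∈ L.grp, β (g * s) = β g := fun g hg s hs => funext fun σ => by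
    show κ (g * s) ((g * s)⁻¹ * rightLift L H σ) σ = κ g (g⁻¹ * rightLift L H σ) σ
    have hcj : (g⁻¹ * rightLift L H σ)⁻¹ * s⁻¹ * (g⁻¹ * rightLift L H σ) ∈ L.grp := by
      simpa using L.grp_normal.conj_mem s⁻¹ (inv_mem hs) (g⁻¹ * rightLift L H σ)⁻¹
    rw [show (g * s)⁻¹ * rightLift L H σ = (g⁻¹ * rightLift L H σ) *
      ((g⁻¹ * rightLift L H σ)⁻¹ * s⁻¹ * (g⁻¹ * rightLift L H σ)) by group,
      hlev g hg _ (hmem g hg σ) s hs _ hcj]
  choose! y hy using fun g (hg : g ∈ H) => hex (β g) (hβn g hg)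
  refine ⟨y, fun g hg s hs => ?_, fun g hg => ⟨β g, hy g hg, hβn g hg⟩, fun g hg k hk => ?_⟩
  · have h1 := hy (g * s) (mul_mem hg (hH hs))
    rw [hβlev g hg s hs] at h1
    exact toAlg_injective (h1.trans (hy g hg).symm)
  have hgk := mul_mem hg hk
  have hA := (hκ g hg k hk).add (hy _ hgk)
  have hB := ((hy k hk).smul g).add (hy g hg)
  have hBn : ‖coefAct g (β k) + β g + D.mul (coefAct g (β k)) (β g)‖ ≤ qinv q ^ (n + 1) :=
    norm_coef_add_le' (norm_coef_add_le' (by rw [norm_coefAct]; exact hβn k hk) (hβn g hg))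
      ((D.norm_mul_le_sq _ _ (by rw [norm_coefAct]; exact hβn k hk) (hβn g hg)).trans
        (qinv_pow_mono q (by omega)))
  obtain ⟨e, he, hen⟩ := hB.sub hA (hBn.trans_lt (qinv_pow_lt_one q n))
  rw [show c g k - dd1 y g k = c g k + y (g * k) - (g • y k + y g) by rw [dd1]; abel]
  refine ⟨e, he, hen.trans ?_⟩
  refine (pi_norm_le_iff_of_nonneg (pow_pos (qinv_pos q) _).le).mpr fun σ => ?_
  set σ' := (L.res g)⁻¹ * σ with hσ'
  obtain ⟨s, hs, hs'⟩ := eq_mul_of_mul_mem (rightLift_mul (L := L) (H := H) hg σ')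
  rw [show L.res g * σ' = σ from mul_inv_cancel_left _ _] at hs'
  set j := k⁻¹ * rightLift L H σ' with hj
  have hjH : j ∈ H := hmem k hk σ'
  -- the cocycle relation on coefficients
  have h1 := ((hκ k hk j hjH).smul g).add (hκ g hg (k * j) (mul_mem hk hjH))
  have h2 := (hκ (g * k) hgk j hjH).add (hκ g hg k hk)
  have hrel : g • c k j + c g (k * j) = c (g * k) j + c g k := by
    have := hc.2 g hg k hk j hjH
    rw [← sub_eq_zero]
    calc g • c k j + c g (k * j) - (c (g * k) j + c g k)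
        = g • c k j - c (g * k) j + c g (k * j) - c g k := by abel
      _ = 0 := this
  rw [hrel] at h1
  have h3 := congrFun (h1.ext h2) σ
  have e1 : β (g * k) σ = κ (g * k) j σ := by
    show κ (g * k) ((g * k)⁻¹ * rightLift L H σ) σ = _
    rw [show (g * k)⁻¹ * rightLift L H σ = j * s by rw [hs', hj]; group, hlev' _ hgk j hjH s hs]
  have e2 : β g σ = κ g (k * j) σ := by
    show κ g (g⁻¹ * rightLift L H σ) σ = _
    rw [show g⁻¹ * rightLift L H σ = (k * j) * s by rw [hs', hj]; group,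
      hlev' g hg _ (mul_mem hk hjH) s hs]
  have e3 : coefAct g (β k) σ = coefAct g (κ k j) σ := rfl
  have hval : (κ g k + β (g * k) + D.mul (κ g k) (β (g * k))
        - (coefAct g (β k) + β g + D.mul (coefAct g (β k)) (β g))) σ
      = (D.mul (κ g k) (β (g * k)) σ + -D.mul (coefAct g (β k)) (β g) σ)
        + (D.mul (coefAct g (κ k j)) (κ g (k * j)) σ + -D.mul (κ (g * k) j) (κ g k) σ) := by
    simp only [Pi.add_apply, Pi.sub_apply] at h3 ⊢
    rw [e1, e2, e3]
    linear_combination -h3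
  rw [hval]
  have hb : ∀ a b : Coef L q, ‖a‖ ≤ qinv q ^ (n + 1) → ‖b‖ ≤ qinv q ^ (n + 1) →
      ‖D.mul a b σ‖ ≤ qinv q ^ (n + 2) := fun a b ha hb =>
    (norm_le_pi_norm _ σ).trans (D.norm_mul_le_sq _ _ ha hb)
  have hgn : ∀ a : Coef L q, ‖a‖ ≤ qinv q ^ (n + 1) → ‖coefAct g a‖ ≤ qinv q ^ (n + 1) :=
    fun a ha => by rwa [norm_coefAct]
  refine (Padic.nonarchimedean _ _).trans (max_le ?_ ?_) <;>
    refine (Padic.nonarchimedean _ _).trans (max_le ?_ ?_)
  · exact hb _ _ (hκn g hg k hk) (hβn _ hgk)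
  · rw [norm_neg]; exact hb _ _ (hgn _ (hβn k hk)) (hβn g hg)
  · exact hb _ _ (hgn _ (hκn k hk j hjH)) (hκn g hg _ (mul_mem hk hjH))
  · rw [norm_neg]; exact hb _ _ (hκn _ hgk j hjH) (hκn g hg k hk)

lemma smul_normTo (hH : L.grp ≤ H) {y : Semi q} (hy : y ∈ fixSub (A := Semi q) L.grp)
    {g : GQ} (hg : g ∈ H) : g • normTo H L.grp y = normTo H L.grp y := by
  have hlev : ∀ t ∈ H, ∀ s ∈ L.grp, (t * s) • y = t • y := fun t _ s hs => by
    rw [mul_smul, hy s hs]
  have e1 : g • normTo H L.grp y = csum H L.grp (fun t => g • t • y) :=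
    map_csum H L.grp (L.lvl hH).fin (DistribSMul.toAddMonoidHom (Semi q) g) (fun t => t • y)
  rw [e1, normTo, ← csum_mul_left (F := fun t => t • y) hlev hg]
  exact csum_congr H L.grp fun t _ => (mul_smul g t y).symm

/-- Norm step. -/
theorem nhd_norm_step (hH : L.grp ≤ H) {n : ℕ}
    (hex : ∀ c : Coef L q, ‖c‖ ≤ qinv q ^ (n + 1) → ∃ x : Semi q, IsCoef D x c)
    {x : Semi q} (hx : x ∈ nhd D q n) (hxH : x ∈ fixSub (A := Semi q) H) :
    ∃ y ∈ nhd D q n, x - normTo H L.grp y ∈ nhd D q (n + 1) := by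
  classical
  haveI := (L.lvl hH).fin
  have := Fintype.ofFinite (↥H ⧸ L.grp.subgroupOf H)
  obtain ⟨c, hc, hcn⟩ := hx
  have hinv : ∀ g ∈ H, ∀ σ, c ((L.res g)⁻¹ * σ) = c σ := fun g hg σ => by
    have h1 := hc.smul g
    rw [hxH g hg] at h1
    exact (congrFun (hc.ext h1) σ).symm
  set α : Coef L q := fun σ => if rightRep L H σ = σ then c σ else 0 with hα
  have hαn : ‖α‖ ≤ qinv q ^ (n + 1) :=
    (pi_norm_le_iff_of_nonneg (pow_pos (qinv_pos q) _).le).mpr fun σ => by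
      by_cases h : rightRep L H σ = σ
      · simp only [hα, if_pos h]; exact (norm_le_pi_norm _ σ).trans hcn
      · simp only [hα, if_neg h, norm_zero]; exact (pow_pos (qinv_pos q) _).le
  obtain ⟨y, hy⟩ := hex α hαn
  refine ⟨y, ⟨α, hy, hαn⟩, ?_⟩
  obtain ⟨d, hd, hdn, hdd⟩ := exists_isCoef_sum (D := D) (Finset.univ)
    (fun k : ↥H ⧸ L.grp.subgroupOf H => rep H L.grp k • y)
    (fun k => coefAct (rep H L.grp k) α) (r := qinv q ^ (n + 1))
    (pow_pos (qinv_pos q) _).le (qinv_pow_lt_one q n).le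
    (fun k _ => hy.smul _) (fun k _ => by rw [norm_coefAct]; exact hαn)
  have hsum : ∑ k : ↥H ⧸ L.grp.subgroupOf H, coefAct (rep H L.grp k) α = c := by
    funext σ
    rw [Finset.sum_apply]
    have hk₀ : ∀ k : ↥H ⧸ L.grp.subgroupOf H,
        rightRep L H ((L.res (rep H L.grp k))⁻¹ * σ) = rightRep L H σ := fun k => by
      rw [← map_inv]; exact rightRep_mul (inv_mem (rep_mem H L.grp k)) σ
    rw [Finset.sum_eq_single (QuotientGroup.mk ⟨rightLift L H σ, rightLift_mem L H σ⟩)]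
    · set k₁ : ↥H ⧸ L.grp.subgroupOf H :=
        QuotientGroup.mk ⟨rightLift L H σ, rightLift_mem L H σ⟩ with hk₁
      have hres : L.res (rep H L.grp k₁) = L.res (rightLift L H σ) := by
        have h1 := QuotientGroup.out_eq' k₁
        rw [hk₁, QuotientGroup.eq, Subgroup.mem_subgroupOf, ← L.res_eq_one_iff] at h1
        simp only [Subgroup.coe_mul, Subgroup.coe_inv, map_mul, map_inv] at h1
        exact inv_mul_eq_one.mp h1
      have harg : (L.res (rep H L.grp k₁))⁻¹ * σ = rightRep L H σ := by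
        rw [hres, res_rightLift]; group
      have hrr : rightRep L H (rightRep L H σ) = rightRep L H σ := by
        conv_lhs => rw [← harg]
        exact hk₀ k₁
      show α _ = _
      rw [harg]
      simp only [hα, if_pos hrr]
      rw [← harg]
      exact hinv _ (rep_mem H L.grp k₁) σ
    · intro k _ hk
      simp only [coefAct, hα]
      rw [if_neg]
      intro h
      apply hk
      rw [hk₀] at h
      rw [← QuotientGroup.out_eq' k, QuotientGroup.eq, Subgroup.mem_subgroupOf, ← L.res_eq_one_iff]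
      simp only [Subgroup.coe_mul, Subgroup.coe_inv, map_mul, map_inv]
      rw [res_rightLift, h]
      show (L.res (rep H L.grp k))⁻¹ * _ = 1
      group
    · intro h; exact absurd (Finset.mem_univ _) h
  rw [hsum] at hdd
  rw [← csum_eq_sum H L.grp (fun t => t • y)] at hd
  obtain ⟨e, he, hen⟩ := hd.sub hc (hdn.trans_lt (qinv_pow_lt_one q n))
  exact ⟨e, he, hen.trans ((le_of_eq (norm_sub_rev c d)).trans (hdd.trans (qinv_sq_le q n)))⟩

end FLTAgent.Global
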